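/-
Project S36 (Carayol), cell [INS1] (helper26; prefix `s36i_`): the "ONE valuation, purely inseparable
of degree `q`" lemma in VALUATION-SUBRING form, in the vocabulary of S34's SS/Model/TwoValW.lean
(`ssm_tw_Over K R V` : `V ∩ K = R`; `ssm_tw_centre K R V hV` : the centre of `V` on
`S = integralClosure R E`).

`K ⊆ E` fields, `[E : K] = q` (prime) separable, `R` a DVR with fraction field `K` and residue
characteristic `q`, `V` a valuation subring of `E` over `R`, `t ∈ V`, `r ∈ R` with
(a) `t ^ q - r ∈ 𝔪(V)`, (b) `∀ z ∈ R, t - z ∉ 𝔪(V)`  (`s36i_Data`).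

Conclusions: `V` is the ONLY valuation subring of `E` over `R` (`s36i_unique`), a uniformiser of `R`
generates `𝔪(V)` (`s36i_unif`), `κ(V) ^ q ⊆ κ(R)` (`s36i_pow`), `integralClosure R E = V`
(`s36i_integral`), and on `S`: `𝔪_R S = P` is the only prime over `𝔪_R`, `f = q`, `e = 1`
(`s36i_core`).

Application (S36, `E = E₂` of level `N'q²`): `(K, R) = (E₁, VV)`, `V = VB`; and by the `W₂`-mirror
`(K, R) = (β E₁, Gauss)`, `V = VA`, `t = λ`, `r = λ(X^q)`.
-/
import Mathlib
import Fermat.Agent.SS.Model.TwoValW
import Fermat.Agent.S36.Ins1.Ded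

set_option autoImplicit false
set_option linter.unusedSectionVars false
set_option linter.style.haveILetI false

open Fermat.Agent.JT3 Fermat.Agent.SS IsLocalRing

namespace Fermat.Agent.S36

section Main

variable (K : Type*) {E : Type*} [Field K] [Field E] [Algebra K E] [FiniteDimensional K E]
  [Algebra.IsSeparable K E]
  (R : Type*) [CommRing R] [IsDomain R] [IsDiscreteValuationRing R] [Algebra R K]
  [IsFractionRing R K] [Algebra R E] [IsScalarTower R K E]

/-- The hypotheses of the one-valuation lemma. -/
structure s36i_Data (q : ℕ) (V : ValuationSubring E) (t : E) (r : R) : Prop where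
  q_prime : q.Prime
  q_mem : (q : R) ∈ maximalIdeal R
  finrank_eq : Module.finrank K E = q
  overR : ssm_tw_Over K R V
  t_mem : t ∈ V
  frob : t ^ q - algebraMap R E r ∈ V.nonunits
  nres : ∀ z : R, t - algebraMap R E z ∉ V.nonunits

variable {K R} {q : ℕ} {V : ValuationSubring E} {t : E} {r : R}

include K in
/-- **Core** (ideal form on `S := integralClosure R E`): the centre `P` of `V` is the only prime
over `𝔪_R`, `𝔪_R S = P`, `f(P) = q`, `e(P) = 1` and `(S/P) ^ q ⊆ R/𝔪`. -/
theorem s36i_core (D : s36i_Data K R q V t r) :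
    (maximalIdeal R).map (algebraMap R ↥(integralClosure R E)) = ssm_tw_centre K R V D.overR ∧
    (∀ P : Ideal ↥(integralClosure R E), P.IsPrime →
      P.comap (algebraMap R ↥(integralClosure R E)) = maximalIdeal R →
      P = ssm_tw_centre K R V D.overR) ∧
    (∀ s : ↥(integralClosure R E), ∃ r : R,
      s ^ q - algebraMap R ↥(integralClosure R E) r ∈ ssm_tw_centre K R V D.overR) ∧
    (ssm_tw_centre K R V D.overR).inertiaDeg R = q ∧
    (ssm_tw_centre K R V D.overR).ramificationIdx R = 1 := by
  obtain ⟨hD, hF, hfin, hfree, hrk⟩ := ssm_tw_inst K (E := E) R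
  haveI := hD
  haveI := hfin
  haveI := hfree
  have hinj : Function.Injective (algebraMap R E) := by
    rw [IsScalarTower.algebraMap_eq R K E]
    exact (algebraMap K E).injective.comp (IsFractionRing.injective R K)
  haveI : FaithfulSMul R E := (faithfulSMul_iff_algebraMap_injective R E).2 hinj
  haveI : Module.IsTorsionFree R E := inferInstance
  haveI : Module.IsTorsionFree R ↥(integralClosure R E) := inferInstance
  have hp0 : maximalIdeal R ≠ ⊥ := IsDiscreteValuationRing.not_a_field R
  have hV := D.overR
  haveI hP : (ssm_tw_centre K R V hV).IsPrime := ssm_tw_centre_isPrime hV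
  haveI : (ssm_tw_centre K R V hV).LiesOver (maximalIdeal R) :=
    ⟨(ssm_tw_comap_centre hV).symm⟩
  obtain ⟨s, hs⟩ := ssm_tw_exists_lift hV t D.t_mem
  have hchar : (q : ↥(integralClosure R E)) ∈ ssm_tw_centre K R V hV := by
    have h1 : (q : ↥(integralClosure R E)) = algebraMap R ↥(integralClosure R E) (q : R) := by
      simp
    rw [h1]
    exact ssm_tw_map_le_centre hV (Ideal.mem_map_of_mem _ D.q_mem)
  have ht1 : s ^ q - algebraMap R ↥(integralClosure R E) r ∈ ssm_tw_centre K R V hV := by
    rw [ssm_tw_mem_centre]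
    have e1 : ((s ^ q - algebraMap R ↥(integralClosure R E) r : ↥(integralClosure R E)) : E) =
        ((s : E) ^ q - t ^ q) + (t ^ q - algebraMap R E r) := by
      push_cast
      ring
    rw [e1]
    exact ssm_tw_nonunits_add _
      (ssm_tw_nonunits_pow_sub _ (ssm_tw_le hV s.1 s.2) D.t_mem hs q) D.frob
  have ht2 : ∀ z : R, s - algebraMap R ↥(integralClosure R E) z ∉ ssm_tw_centre K R V hV := by
    intro z hz
    rw [ssm_tw_mem_centre] at hz
    have h2 := ssm_tw_nonunits_sub _ hz hs
    have e2 : ((s - algebraMap R ↥(integralClosure R E) z : ↥(integralClosure R E)) : E) -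
        ((s : E) - t) = t - algebraMap R E z := by
      push_cast
      ring
    rw [e2] at h2
    exact D.nres z h2
  obtain ⟨hf, he, hall, hmap, hpow, -⟩ :=
    s36i_main (maximalIdeal R) hp0 D.q_prime (hrk.trans D.finrank_eq)
      (ssm_tw_centre K R V hV) hchar s r ht1 ht2
  exact ⟨hmap, fun P hP hPc => hall P hP ⟨hPc.symm⟩, hpow, hf, he⟩

include K in
/-- **`V` is the only valuation subring of `E` over `R`.** -/
theorem s36i_unique (D : s36i_Data K R q V t r) (V' : ValuationSubring E)
    (hV' : ssm_tw_Over K R V') : V' = V := by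
  obtain ⟨-, hall, -, -, -⟩ := s36i_core D
  exact ssm_tw_eq_of_centre_eq hV' D.overR
    (hall _ (ssm_tw_centre_isPrime hV') (ssm_tw_comap_centre hV'))

include K in
/-- `π S = P`, element form. -/
theorem s36i_dvd (D : s36i_Data K R q V t r) (π : R) (hπ : Irreducible π)
    (x : ↥(integralClosure R E)) :
    algebraMap R ↥(integralClosure R E) π ∣ x ↔ x ∈ ssm_tw_centre K R V D.overR := by
  obtain ⟨hmap, -, -, -, -⟩ := s36i_core D
  exact s36i_dvd_iff (maximalIdeal R) _ π hπ.maximalIdeal_eq hmap x

include K in
/-- a uniformiser of `R` generates `𝔪(V)`. -/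
theorem s36i_unif (D : s36i_Data K R q V t r) (π : R) (hπ : Irreducible π) (a : E) :
    a ∈ V.nonunits ↔ ∃ b ∈ V, a = algebraMap R E π * b := by
  constructor
  · intro ha
    haveI := ssm_tw_centre_isPrime D.overR
    refine ssm_tw_unif_aux D.overR π ⊤ ⟨1, Submodule.mem_top, fun h => ?_⟩ ?_ a ha
    · exact (ssm_tw_centre_isPrime D.overR).ne_top ((Ideal.eq_top_iff_one _).2 h)
    · intro x h1 _
      exact (s36i_dvd D π hπ x).2 h1
  · rintro ⟨b, hb, rfl⟩
    rw [mul_comm]
    exact ssm_tw_nonunits_mul V hb
      ((ssm_tw_over_nonunits D.overR π).2 ((mem_maximalIdeal _).2 hπ.not_isUnit))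

include K in
/-- `κ(V) ^ q ⊆ κ(R)`. -/
theorem s36i_pow (D : s36i_Data K R q V t r) (a : E) (ha : a ∈ V) :
    ∃ r : R, a ^ q - algebraMap R E r ∈ V.nonunits := by
  obtain ⟨-, -, hpow, -, -⟩ := s36i_core D
  obtain ⟨s, hs⟩ := ssm_tw_exists_lift D.overR a ha
  obtain ⟨r, hr⟩ := hpow s
  refine ⟨r, ?_⟩
  rw [ssm_tw_mem_centre] at hr
  have h1 := ssm_tw_nonunits_pow_sub _ (ssm_tw_le D.overR s.1 s.2) ha hs q
  have e : a ^ q - algebraMap R E r =
      ((s ^ q - algebraMap R ↥(integralClosure R E) r : ↥(integralClosure R E)) : E) -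
        ((s : E) ^ q - a ^ q) := by
    push_cast
    ring
  rw [e]
  exact ssm_tw_nonunits_sub _ hr h1

include K in
/-- `integralClosure R E = V`. -/
theorem s36i_integral (D : s36i_Data K R q V t r) (a : E) : IsIntegral R a ↔ a ∈ V := by
  constructor
  · intro h
    exact ssm_tw_le D.overR a h
  · intro ha
    obtain ⟨-, hall, -, -, -⟩ := s36i_core D
    obtain ⟨x1, t1, ht1, h1⟩ := (ssm_tw_bridge D.overR a).1 ha
    let I : Ideal ↥(integralClosure R E) :=
      { carrier := {d | (d : E) * a ∈ integralClosure R E}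
        add_mem' := by
          intro d e hd he
          show ((d + e : ↥(integralClosure R E)) : E) * a ∈ integralClosure R E
          push_cast
          rw [add_mul]
          exact (integralClosure R E).add_mem hd he
        zero_mem' := by
          show ((0 : ↥(integralClosure R E)) : E) * a ∈ integralClosure R E
          push_cast
          rw [zero_mul]
          exact (integralClosure R E).zero_mem
        smul_mem' := by
          intro c d hd
          show ((c * d : ↥(integralClosure R E)) : E) * a ∈ integralClosure R E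
          push_cast
          rw [mul_assoc]
          exact (integralClosure R E).mul_mem c.2 hd }
    have hI1 : t1 ∈ I := by
      show (t1 : E) * a ∈ integralClosure R E
      rw [mul_comm, h1]; exact x1.2
    have hItop : I = ⊤ := by
      by_contra hne
      obtain ⟨M, hM, hIM⟩ := Ideal.exists_le_maximal I hne
      haveI := hM
      have hMc : M.comap (algebraMap R ↥(integralClosure R E)) = maximalIdeal R :=
        IsLocalRing.eq_maximalIdeal (Ideal.isMaximal_comap_of_isIntegral_of_isMaximal M)
      exact ht1 (hall M hM.isPrime hMc ▸ hIM hI1)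
    have h1I : (1 : ↥(integralClosure R E)) ∈ I := by rw [hItop]; exact Submodule.mem_top
    have : ((1 : ↥(integralClosure R E)) : E) * a ∈ integralClosure R E := h1I
    rw [OneMemClass.coe_one, one_mul] at this
    exact this

end Main

end Fermat.Agent.S36
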