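/-
Project S36 (Carayol), cell [INS1], INSTANCE layer, generic part (helper26; prefix `s36i_`): the
hypotheses `s36i_Data` of the one-valuation lemma (`S36/Ins1/Val.lean`) for a pair of fields
`E0 ≤ E ≤ Quot(O((X)))` inside `L((X))` with the GAUSS valuations, where `E0` consists of series
in `X^q` (`E0 ⊆ β (Quot)`), `[E : E0] = q`:

* `K := ↥E0`, `R :=` the Gauss ring of `E0` (a DVR, `ssm_gi_isDVR`), `V :=` the Gauss valuation
  subring of `E`, algebra structures = the inclusions (`ssm_gi_algebra`, `ssm_gi_algebraV`);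
* `t ∈ E` the image of a series `y` over `O` whose reduction has `𝔽_q`-coefficients and a nonzero
  coefficient at an exponent prime to `q`; `r := y(X^q) ∈ E0`.

Twin of `ssm_gi_data` / `ssm_gt_data` (SS/Model/TwoValInst.lean, TwoPrimesInst.lean).
-/
import Mathlib
import Fermat.Agent.SS.Model.TwoPrimesInst
import Fermat.Agent.S36.Ins1.Val

set_option autoImplicit false
set_option linter.unusedSectionVars false
set_option linter.unusedVariables false
set_option linter.style.haveILetI false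

noncomputable section

open ModularCurve IntermediateField IsLocalRing
open Fermat.Agent.JT3 Fermat.Agent.SS

namespace Fermat.Agent.S36

section Gauss

variable {L : Type*} [Field L] (O : ValuationSubring L) [IsDiscreteValuationRing O] {π : O}
  (hπ : Irreducible π)
variable (q : ℕ) [NeZero q] [hq : Fact q.Prime] [CharP (ResidueField O) q]
variable (E0 E : IntermediateField L (LaurentSeries L)) (hle : E0 ≤ E)
  (hE : E ≤ gq_quotField O L)

/-- the element `y(X^q)` of the Gauss ring of `E0`. -/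
def s36i_gauss_r (y : LaurentSeries O) (r : ↥E0)
    (hr : (r : LaurentSeries L) = qExpand L q (coeffMap (algebraMap O L) y)) :
    ↥(gq_valSubOf π hπ.ne_zero hπ.maximalIdeal_eq E0 (hle.trans hE)) :=
  ⟨r, by
    rw [gq_mem_valSubOf, hr]
    exact ssm_ga_beta_isBdd q (gq_isBdd_iota y)⟩

/-- **the generic Gauss instance of `s36i_Data`**. -/
theorem s36i_gauss_data
    (hβ : ∀ z : ↥E0, ∃ z' : LaurentSeries L, gq_IsQuot O L z' ∧
      qExpand L q z' = (z : LaurentSeries L))
    (hrank : IntermediateField.relfinrank E0 E = q)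
    (y : LaurentSeries O) (hyF : ssm_ga_FrobFixed q y) (n : ℤ) (hn : ¬ (q : ℤ) ∣ n)
    (hyn : residue O (y.coeff n) ≠ 0) (t : ↥E)
    (ht : (t : LaurentSeries L) = coeffMap (algebraMap O L) y) (r : ↥E0)
    (hr : (r : LaurentSeries L) = qExpand L q (coeffMap (algebraMap O L) y)) :
    letI := ssm_gi_algebra hle
    letI := ssm_gi_algebraV hle (gq_valSubOf π hπ.ne_zero hπ.maximalIdeal_eq E0 (hle.trans hE))
    s36i_Data ↥E0 ↥(gq_valSubOf π hπ.ne_zero hπ.maximalIdeal_eq E0 (hle.trans hE)) q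
      (gq_valSubOf π hπ.ne_zero hπ.maximalIdeal_eq E hE) t
      (s36i_gauss_r O hπ q E0 E hle hE y r hr) := by
  letI := ssm_gi_algebra hle
  letI := ssm_gi_algebraV hle (gq_valSubOf π hπ.ne_zero hπ.maximalIdeal_eq E0 (hle.trans hE))
  haveI := ssm_gi_isScalarTower hle
    (gq_valSubOf π hπ.ne_zero hπ.maximalIdeal_eq E0 (hle.trans hE))
  have hcoe := ssm_gi_coe_algebraMapV O hπ E0 E hle hE (fun _ => rfl)
  refine ⟨hq.out, ssm_gi_q_mem O hπ q E0 (hle.trans hE),
    (ssm_gt_finrank_eq hle).trans hrank,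
    ssm_gi_over1 O hπ E0 E hle hE (fun _ => rfl), ?_, ?_, ?_⟩
  · -- t ∈ V
    rw [gq_mem_valSubOf, ht]
    exact gq_isBdd_iota y
  · -- frob
    have h1 : -(t ^ q - algebraMap
        ↥(gq_valSubOf π hπ.ne_zero hπ.maximalIdeal_eq E0 (hle.trans hE)) ↥E
        (s36i_gauss_r O hπ q E0 E hle hE y r hr)) ∈
        (gq_valSubOf π hπ.ne_zero hπ.maximalIdeal_eq E hE).nonunits := by
      refine ssm_ga_frob_mem_nonunits q π hπ.ne_zero hπ.maximalIdeal_eq E hE y hyF _ ?_
      push_cast
      rw [hcoe, ht]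
      show -(_ - (r : LaurentSeries L)) = _
      rw [hr]
      ring
    have h2 := ssm_tw_nonunits_neg _ h1
    rwa [neg_neg] at h2
  · -- nres
    intro z
    obtain ⟨z', hz', hzz⟩ := hβ (z : ↥E0)
    have hzb : gq_IsBdd O L (qExpand L q z') := by
      rw [hzz]
      exact (gq_mem_valSubOf π hπ.ne_zero hπ.maximalIdeal_eq E0 (hle.trans hE) (z : ↥E0)).1 z.2
    refine ssm_gh_sub_beta_not_mem q π hπ.ne_zero hπ.maximalIdeal_eq E hE y n hn hyn
      z' hz' hzb _ ?_
    push_cast
    rw [hcoe, ht, hzz]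

end Gauss

end Fermat.Agent.S36
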