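/-
Project S36 (Carayol), cell [INS1], INSTANCE layer, LEGENDRE tower, `β`-side (I-A)
(helper26; prefix `s36i_`): `q ∤ 2` a prime, `O ⊆ L` a DVR of residue characteristic `q`,
`E₁ = lg_E L (N' q)`, `E₂ = lg_E L (N' q q)`, `β E₁ = E₁(X^q) ≤ E₂` (`ssm_al_E_beta_le`),

* `s36i_VA`  : the Gauss valuation subring of `E₂`;
* `s36i_RG`  : the Gauss valuation subring of `β E₁` (a DVR);
* `s36i_lamB`: `λ(X^q)` as an element of `s36i_RG`;
* `s36i_leg_dataA` : `s36i_Data ↥(β E₁) ↥RG q VA λ (λ(X^q))` — the hypotheses of the one-valuation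
  lemma: `VA` is the ONLY valuation subring of `E₂` over `RG`, `e = 1`, `f = q` purely inseparable
  (`s36i_core`, `s36i_unique`, `s36i_pow`, ...), and of `s36i_third`, `s36nx_nA_val` (= `hnA`).

The level `N` of `E₁` is ANY multiple of `q` (`N = N' q` in the application).
-/
import Mathlib
import Fermat.Agent.SS.Model.TwoPrimesLeg
import Fermat.Agent.S36.PEquiv2.DegE
import Fermat.Agent.S36.Ins1.Gauss

set_option autoImplicit false
set_option linter.unusedSectionVars false
set_option linter.unusedVariables false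
set_option linter.style.haveILetI false

noncomputable section

open ModularCurve IntermediateField IsLocalRing
open Fermat.Agent.JT3 Fermat.Agent.SS

namespace Fermat.Agent.S36

section Legendre

variable {L : Type*} [Field L] [CharZero L] [Algebra L (AlgebraicClosure ℚ)]
  (O : ValuationSubring L) [IsDiscreteValuationRing O] {π : O} (hπ : Irreducible π)
variable (N q : ℕ) [NeZero N] [NeZero q] [hq : Fact q.Prime] [CharP (ResidueField O) q]
  (hq2 : ¬ 2 ∣ q) (hqN : q ∣ N)

/-- the Gauss valuation subring of `E₂ = lg_E L (N q)`. -/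
abbrev s36i_VA : ValuationSubring ↥(lg_E L (N * q)) :=
  gq_valSubOf π hπ.ne_zero hπ.maximalIdeal_eq (lg_E L (N * q)) (ssm_ga_E_le_quotField O (N * q))

/-- the Gauss valuation subring of `β E₁ = (lg_E L N)(X^q)`. -/
abbrev s36i_RG : ValuationSubring ↥((lg_E L N).map (qExpandAlgHomC L q)) :=
  gq_valSubOf π hπ.ne_zero hπ.maximalIdeal_eq ((lg_E L N).map (qExpandAlgHomC L q))
    ((ssm_al_E_beta_le L N q hq2).trans (ssm_ga_E_le_quotField O (N * q)))

/-- `λ(X^q)` as an element of `β E₁`. -/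
def s36i_lamB0 : ↥((lg_E L N).map (qExpandAlgHomC L q)) :=
  ⟨qExpand L q (hm_lam L), ⟨hm_lam L, (lg_lamE (L := L) N).2, rfl⟩⟩

theorem s36i_coe_lamB0 :
    ((s36i_lamB0 (L := L) N q : ↥((lg_E L N).map (qExpandAlgHomC L q))) : LaurentSeries L) =
      qExpand L q (coeffMap (algebraMap O L) (hm_lam O)) := by
  rw [hm_coeffMap_lam]
  rfl

/-- `λ(X^q)` as an element of the Gauss ring of `β E₁`. -/
abbrev s36i_lamB : ↥(s36i_RG O hπ N q hq2) :=
  s36i_gauss_r O hπ q ((lg_E L N).map (qExpandAlgHomC L q)) (lg_E L (N * q))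
    (ssm_al_E_beta_le L N q hq2) (ssm_ga_E_le_quotField O (N * q)) (hm_lam O)
    (s36i_lamB0 N q) (s36i_coe_lamB0 O N q)

include hqN in
/-- **(I-A)**: the data of the one-valuation lemma for `E₂ / β E₁` with the Gauss valuations. -/
theorem s36i_leg_dataA :
    letI := ssm_gi_algebra (ssm_al_E_beta_le L N q hq2)
    letI := ssm_gi_algebraV (ssm_al_E_beta_le L N q hq2) (s36i_RG O hπ N q hq2)
    s36i_Data ↥((lg_E L N).map (qExpandAlgHomC L q)) ↥(s36i_RG O hπ N q hq2) q
      (s36i_VA O hπ N q) (lg_lamE (N * q)) (s36i_lamB O hπ N q hq2) := by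
  refine s36i_gauss_data O hπ q ((lg_E L N).map (qExpandAlgHomC L q)) (lg_E L (N * q))
    (ssm_al_E_beta_le L N q hq2) (ssm_ga_E_le_quotField O (N * q)) ?_
    (s36pe_relfinrank_E_beta L N q hq.out hq2 hqN) (hm_lam O) (ssm_ga_lam_frobFixed O q) 1
    (ssm_gl_not_dvd_one q) (ssm_ga_lam_coeff_one O (ssm_gl_two_ne_zero O q hq2))
    (lg_lamE (N * q)) (hm_coeffMap_lam _).symm (s36i_lamB0 N q) (s36i_coe_lamB0 O N q)
  rintro ⟨z, z', hz', rfl⟩
  exact ⟨z', ssm_ga_E_le_quotField O N hz', rfl⟩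

end Legendre

end Fermat.Agent.S36
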