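/-
Project S36 (Carayol), cell [INS1], INSTANCE layer, abstract part (helper26; prefix `s36i_`):
TRANSPORT of the hypotheses `s36i_Data` of the one-valuation lemma along a compatible triple of
ring isomorphisms `wR : R ≃+* R'`, `w0 : K ≃+* K'`, `W : E ≃+* E'`:

* `s36i_nonunits_comap'` : `a ∈ 𝔪(A.comap W) ↔ W a ∈ 𝔪(A)`;
* `s36i_comapEquiv`      : `↥(A.comap W) ≃+* ↥A`, and `s36i_comap_isDVR`;
* `s36i_valEquiv`        : `↥A ≃+* ↥A'` from `w0 : K ≃+* K'` with `z ∈ A ↔ w0 z ∈ A'`;
* `s36i_data_transport`  : `s36i_Data K' R' q V' t' r' → s36i_Data K R q (V'.comap W) t r` for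
  `W t = t'`, `wR r = r'`.

Application (S36/Ins1/LegB.lean): `(K', R', V') = (β E₁, Gauss, VA)`, `W = W₂` the Atkin–Lehner
involution at `q²`, `(K, R) = (E₁, VV)`, `VV = W₁(Gauss)`, `V = VB = W₂(VA)`.
-/
import Mathlib
import Fermat.Agent.S36.Ins1.Val

set_option autoImplicit false
set_option linter.unusedSectionVars false
set_option linter.style.haveILetI false

open Fermat.Agent.JT3 Fermat.Agent.SS IsLocalRing

namespace Fermat.Agent.S36

section Comap

variable {F F' : Type*} [Field F] [Field F']

/-- nonunits of the pull-back of a valuation subring along a ring isomorphism. -/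
theorem s36i_nonunits_comap' (A : ValuationSubring F') (W : F ≃+* F') (a : F) :
    a ∈ (A.comap (W : F →+* F')).nonunits ↔ W a ∈ A.nonunits := by
  rw [ssm_tw_nonunits_iff, ssm_tw_nonunits_iff, ValuationSubring.mem_comap,
    ValuationSubring.mem_comap]
  simp only [RingEquiv.coe_toRingHom, map_inv₀, EmbeddingLike.map_eq_zero_iff]

/-- the pull-back of a valuation subring along a ring isomorphism is isomorphic to it. -/
def s36i_comapEquiv (A : ValuationSubring F') (W : F ≃+* F') :
    ↥(A.comap (W : F →+* F')) ≃+* ↥A where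
  toFun x := ⟨W x.1, x.2⟩
  invFun y := ⟨W.symm y.1, by
    rw [ValuationSubring.mem_comap]
    show W (W.symm y.1) ∈ A
    rw [RingEquiv.apply_symm_apply]
    exact y.2⟩
  left_inv x := Subtype.ext (W.symm_apply_apply x.1)
  right_inv y := Subtype.ext (W.apply_symm_apply y.1)
  map_mul' x y := Subtype.ext (map_mul W x.1 y.1)
  map_add' x y := Subtype.ext (map_add W x.1 y.1)

@[simp] theorem s36i_coe_comapEquiv (A : ValuationSubring F') (W : F ≃+* F')
    (x : ↥(A.comap (W : F →+* F'))) : ((s36i_comapEquiv A W x : ↥A) : F') = W x.1 := rfl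

/-- the pull-back of a discrete valuation subring along a ring isomorphism is one. -/
theorem s36i_comap_isDVR (A : ValuationSubring F') [IsDiscreteValuationRing ↥A] (W : F ≃+* F') :
    IsDiscreteValuationRing ↥(A.comap (W : F →+* F')) :=
  IsDiscreteValuationRing.RingEquivClass.isDiscreteValuationRing (s36i_comapEquiv A W).symm

/-- two valuation subrings matched by a field isomorphism are isomorphic. -/
def s36i_valEquiv (A : ValuationSubring F) (A' : ValuationSubring F') (w0 : F ≃+* F')
    (h : ∀ z : F, z ∈ A ↔ w0 z ∈ A') : ↥A ≃+* ↥A' where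
  toFun x := ⟨w0 x.1, (h x.1).1 x.2⟩
  invFun y := ⟨w0.symm y.1, (h _).2 (by rw [RingEquiv.apply_symm_apply]; exact y.2)⟩
  left_inv x := Subtype.ext (w0.symm_apply_apply x.1)
  right_inv y := Subtype.ext (w0.apply_symm_apply y.1)
  map_mul' x y := Subtype.ext (map_mul w0 x.1 y.1)
  map_add' x y := Subtype.ext (map_add w0 x.1 y.1)

@[simp] theorem s36i_coe_valEquiv (A : ValuationSubring F) (A' : ValuationSubring F')
    (w0 : F ≃+* F') (h : ∀ z : F, z ∈ A ↔ w0 z ∈ A') (x : ↥A) :
    ((s36i_valEquiv A A' w0 h x : ↥A') : F') = w0 x.1 := rfl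

end Comap

section Transport

variable {K E R : Type*} [Field K] [Field E] [Algebra K E]
  [CommRing R] [IsDomain R] [IsDiscreteValuationRing R] [Algebra R K] [Algebra R E]
  [IsScalarTower R K E]
variable {K' E' R' : Type*} [Field K'] [Field E'] [Algebra K' E']
  [CommRing R'] [IsDomain R'] [IsDiscreteValuationRing R'] [Algebra R' K'] [Algebra R' E']
  [IsScalarTower R' K' E']

/-- **transport of `s36i_Data`** along compatible ring isomorphisms. -/
theorem s36i_data_transport (W : E ≃+* E') (w0 : K ≃+* K') (wR : R ≃+* R')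
    (hW : ∀ x : K, W (algebraMap K E x) = algebraMap K' E' (w0 x))
    (hw : ∀ r : R, w0 (algebraMap R K r) = algebraMap R' K' (wR r))
    {q : ℕ} {V' : ValuationSubring E'} {t' : E'} {r' : R'} (D' : s36i_Data K' R' q V' t' r')
    (t : E) (ht : W t = t') (r : R) (hr : wR r = r') :
    s36i_Data K R q (V'.comap (W : E →+* E')) t r := by
  have hWR : ∀ r : R, W (algebraMap R E r) = algebraMap R' E' (wR r) := by
    intro r
    rw [IsScalarTower.algebraMap_apply R K E, hW, hw, ← IsScalarTower.algebraMap_apply R' K' E']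
  refine ⟨D'.q_prime, ?_, ?_, ?_, ?_, ?_, ?_⟩
  · -- q ∈ 𝔪_R
    rw [mem_maximalIdeal, mem_nonunits_iff]
    intro hu
    have h1 : IsUnit (wR (q : R)) := hu.map wR
    rw [map_natCast] at h1
    have h2 := D'.q_mem
    rw [mem_maximalIdeal, mem_nonunits_iff] at h2
    exact h2 h1
  · -- degree
    rw [← D'.finrank_eq]
    refine Algebra.finrank_eq_of_equiv_equiv w0 W ?_
    ext x
    exact (hW x).symm
  · -- V ∩ K = R
    intro z
    rw [ValuationSubring.mem_comap]
    show W (algebraMap K E z) ∈ V' ↔ _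
    rw [hW, D'.overR (w0 z)]
    constructor
    · rintro ⟨s, hs⟩
      refine ⟨wR.symm s, ?_⟩
      apply w0.injective
      rw [hw, RingEquiv.apply_symm_apply, hs]
    · rintro ⟨s, rfl⟩
      exact ⟨wR s, (hw s).symm⟩
  · -- t ∈ V
    rw [ValuationSubring.mem_comap]
    show W t ∈ V'
    rw [ht]
    exact D'.t_mem
  · -- Frobenius
    rw [s36i_nonunits_comap', map_sub, map_pow, ht, hWR, hr]
    exact D'.frob
  · -- no residue
    intro z
    rw [s36i_nonunits_comap', map_sub, ht, hWR]
    exact D'.nres (wR z)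

end Transport

end Fermat.Agent.S36
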