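/-
Project S36 (Carayol), cell [INS1], INSTANCE layer, LEGENDRE tower, `α`-side (I-B)
(helper26; prefix `s36i_`): `q ∤ 2 N'` a prime, `O ⊆ L` a DVR of residue characteristic `q`,
`E₁ = lg_E L (N' q) ≤ E₂ = lg_E L (N' q q)` (inclusion), `W₁ = ssm_gl_W` (Atkin–Lehner at `q` on
`E₁`), `W₂ = s36w_WE` (Atkin–Lehner at `q²` on `E₂`, helper17),

* `s36i_VV`  : `= ssm_gl_V2 = W₁(Gauss)`, the SECOND valuation subring of `E₁`; a DVR
  (`s36i_VV_isDVR`);
* `s36i_VB`  : `= W₂(VA)`, the valuation subring of `E₂` "at the cusp `0`";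
* `s36i_lam2`: `λ(X^{q q}) ∈ E₂`;  `s36i_lam1V`: `λ(X^q)` as an element of `VV`;
* `s36i_leg_dataB` : `s36i_Data ↥E₁ ↥VV q VB (λ(X^{q q})) (λ(X^q))` — `VB` is the ONLY valuation
  subring of `E₂` over `VV`, `e = 1`, `f = q` purely inseparable; = the `W₂`-transport
  (`s36i_data_transport`) of (I-A) `s36i_leg_dataA`.
-/
import Mathlib
import Fermat.Agent.S36.AL2.Cover
import Fermat.Agent.S36.Ins1.Leg
import Fermat.Agent.S36.Ins1.Transport

set_option autoImplicit false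
set_option linter.unusedSectionVars false
set_option linter.unusedVariables false
set_option linter.style.haveILetI false

noncomputable section

open ModularCurve IntermediateField IsLocalRing
open Fermat.Agent.JT3 Fermat.Agent.SS

namespace Fermat.Agent.S36

section LegendreB

variable {L : Type*} [Field L] [CharZero L] [Algebra L (AlgebraicClosure ℚ)]
  (O : ValuationSubring L) [IsDiscreteValuationRing O] {π : O} (hπ : Irreducible π)
variable (N' q : ℕ) [NeZero N'] [NeZero q] [hq : Fact q.Prime] [CharP (ResidueField O) q]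
  (hq2 : ¬ 2 ∣ q) (hqN' : ¬ q ∣ N')

/-- the second valuation subring `VV = W₁(Gauss)` of `E₁ = lg_E L (N' q)`. -/
abbrev s36i_VV : ValuationSubring ↥(lg_E L (N' * q)) := ssm_gl_V2 O hπ N' q hq2 hqN'

/-- `VV` is a discrete valuation ring. -/
instance s36i_VV_isDVR : IsDiscreteValuationRing ↥(s36i_VV O hπ N' q hq2 hqN') :=
  s36i_comap_isDVR (ssm_gl_V1 O hπ N' q) (ssm_gl_W L N' q hq2 hqN')

variable (L) in
/-- the Atkin–Lehner involution `W₂` of `E₂ = lg_E L (N' q q)` as a ring automorphism. -/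
abbrev s36i_W2 : ↥(lg_E L (N' * q * q)) ≃+* ↥(lg_E L (N' * q * q)) :=
  (s36w_WE L N' q hq.out hq2 hqN').toRingEquiv

/-- the valuation subring `VB = W₂(VA)` of `E₂`. -/
abbrev s36i_VB : ValuationSubring ↥(lg_E L (N' * q * q)) :=
  (s36i_VA O hπ (N' * q) q).comap
    (s36i_W2 L N' q hq2 hqN' : ↥(lg_E L (N' * q * q)) →+* ↥(lg_E L (N' * q * q)))

variable (L) in
include hq2 in
theorem s36i_lam1_mem : qExpand L q (lg_lam L) ∈ lg_E L (N' * q) :=
  ssm_al_E_beta_le L N' q hq2 ⟨lg_lam L, lg_lam_mem_E L N', rfl⟩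

variable (L) in
include hq2 in
theorem s36i_lam2_mem : qExpand L q (qExpand L q (lg_lam L)) ∈ lg_E L (N' * q * q) :=
  ssm_al_E_beta_le L (N' * q) q hq2 ⟨qExpand L q (lg_lam L), s36i_lam1_mem L N' q hq2, rfl⟩

variable (L) in
/-- `λ(X^q) ∈ E₁`. -/
def s36i_lam1 : ↥(lg_E L (N' * q)) := ⟨qExpand L q (lg_lam L), s36i_lam1_mem L N' q hq2⟩

variable (L) in
/-- `λ(X^{q q}) ∈ E₂`. -/
def s36i_lam2 : ↥(lg_E L (N' * q * q)) :=
  ⟨qExpand L q (qExpand L q (lg_lam L)), s36i_lam2_mem L N' q hq2⟩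

theorem s36i_W1_lam1 :
    ssm_gl_W L N' q hq2 hqN' (s36i_lam1 L N' q hq2) = lg_lamE (N' * q) :=
  Subtype.ext (ssm_al_coe_WE_lam_expand L N' q hq.out hq2 hqN' _)

theorem s36i_W2_lam2 :
    s36i_W2 L N' q hq2 hqN' (s36i_lam2 L N' q hq2) = lg_lamE (N' * q * q) :=
  Subtype.ext (s36w_coe_WE_lam_top L N' q hq.out hq2 hqN' _)

theorem s36i_lam1_mem_VV : s36i_lam1 L N' q hq2 ∈ s36i_VV O hπ N' q hq2 hqN' := by
  rw [ValuationSubring.mem_comap]
  show ssm_gl_W L N' q hq2 hqN' (s36i_lam1 L N' q hq2) ∈ _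
  rw [s36i_W1_lam1, gq_mem_valSubOf]
  show gq_IsBdd (↥O) L (hm_lam L)
  rw [← hm_coeffMap_lam (algebraMap O L)]
  exact gq_isBdd_iota _

/-- `λ(X^q)` as an element of `VV`. -/
def s36i_lam1V : ↥(s36i_VV O hπ N' q hq2 hqN') :=
  ⟨s36i_lam1 L N' q hq2, s36i_lam1_mem_VV O hπ N' q hq2 hqN'⟩

variable (L) in
/-- the isomorphism `E₁ ≃ β E₁`, `y ↦ (W₁ y)(X^q)` (the restriction of `W₂`). -/
def s36i_w0 : ↥(lg_E L (N' * q)) ≃+* ↥((lg_E L (N' * q)).map (qExpandAlgHomC L q)) :=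
  (ssm_gl_W L N' q hq2 hqN').trans
    (IntermediateField.equivMap (lg_E L (N' * q)) (qExpandAlgHomC L q)).toRingEquiv

theorem s36i_coe_w0 (y : ↥(lg_E L (N' * q))) :
    ((s36i_w0 L N' q hq2 hqN' y : ↥((lg_E L (N' * q)).map (qExpandAlgHomC L q))) :
      LaurentSeries L) =
      qExpand L q ((ssm_gl_W L N' q hq2 hqN' y : ↥(lg_E L (N' * q))) : LaurentSeries L) := rfl

theorem s36i_mem_VV_iff (y : ↥(lg_E L (N' * q))) :
    y ∈ s36i_VV O hπ N' q hq2 hqN' ↔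
      s36i_w0 L N' q hq2 hqN' y ∈ s36i_RG O hπ (N' * q) q hq2 := by
  have h1 : y ∈ s36i_VV O hπ N' q hq2 hqN' ↔
      gq_IsBdd (↥O) L ((ssm_gl_W L N' q hq2 hqN' y : ↥(lg_E L (N' * q))) : LaurentSeries L) := by
    rw [ValuationSubring.mem_comap]
    exact gq_mem_valSubOf π hπ.ne_zero hπ.maximalIdeal_eq _ _ _
  have h2 : s36i_w0 L N' q hq2 hqN' y ∈ s36i_RG O hπ (N' * q) q hq2 ↔
      gq_IsBdd (↥O) L (qExpand L q
        ((ssm_gl_W L N' q hq2 hqN' y : ↥(lg_E L (N' * q))) : LaurentSeries L)) := by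
    rw [gq_mem_valSubOf, s36i_coe_w0]
  rw [h1, h2]
  exact (ssm_ga_beta_isBdd_iff q π hπ.ne_zero hπ.maximalIdeal_eq
    (ssm_ga_E_le_quotField O (N' * q) (ssm_gl_W L N' q hq2 hqN' y).2)).symm

/-- the isomorphism `VV ≃ RG` induced by `y ↦ (W₁ y)(X^q)`. -/
def s36i_wR : ↥(s36i_VV O hπ N' q hq2 hqN') ≃+* ↥(s36i_RG O hπ (N' * q) q hq2) :=
  s36i_valEquiv _ _ (s36i_w0 L N' q hq2 hqN') (s36i_mem_VV_iff O hπ N' q hq2 hqN')

/-- **(I-B)**: the data of the one-valuation lemma for `E₂ / E₁` with `VV` and `VB`. -/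
theorem s36i_leg_dataB :
    letI := ssm_gi_algebra (ssm_al_E_le L (N' * q) q)
    letI := ssm_gi_algebraV (ssm_al_E_le L (N' * q) q) (s36i_VV O hπ N' q hq2 hqN')
    s36i_Data ↥(lg_E L (N' * q)) ↥(s36i_VV O hπ N' q hq2 hqN') q
      (s36i_VB O hπ N' q hq2 hqN') (s36i_lam2 L N' q hq2) (s36i_lam1V O hπ N' q hq2 hqN') := by
  letI := ssm_gi_algebra (ssm_al_E_le L (N' * q) q)
  letI := ssm_gi_algebraV (ssm_al_E_le L (N' * q) q) (s36i_VV O hπ N' q hq2 hqN')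
  haveI := ssm_gi_isScalarTower (ssm_al_E_le L (N' * q) q) (s36i_VV O hπ N' q hq2 hqN')
  letI := ssm_gi_algebra (ssm_al_E_beta_le L (N' * q) q hq2)
  letI := ssm_gi_algebraV (ssm_al_E_beta_le L (N' * q) q hq2) (s36i_RG O hπ (N' * q) q hq2)
  haveI := ssm_gi_isScalarTower (ssm_al_E_beta_le L (N' * q) q hq2)
    (s36i_RG O hπ (N' * q) q hq2)
  have D' := s36i_leg_dataA O hπ (N' * q) q hq2 (Dvd.intro_left N' rfl)
  refine s36i_data_transport (s36i_W2 L N' q hq2 hqN') (s36i_w0 L N' q hq2 hqN')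
    (s36i_wR O hπ N' q hq2 hqN') ?_ ?_ D' _ (s36i_W2_lam2 N' q hq2 hqN') _ ?_
  · intro x
    apply Subtype.ext
    rw [ssm_gi_coe_algebraMap, s36i_coe_w0]
    exact s36w_coe_WE_alpha L N' q hq.out hq2 hqN' x _
  · intro r
    rfl
  · apply Subtype.ext
    apply Subtype.ext
    show qExpand L q ((ssm_gl_W L N' q hq2 hqN' (s36i_lam1 L N' q hq2) :
      ↥(lg_E L (N' * q))) : LaurentSeries L) = qExpand L q (hm_lam L)
    rw [s36i_W1_lam1]
    rfl

end LegendreB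

end Fermat.Agent.S36
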