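/-
Project S36 (Carayol), cell [V3-INST] (i), abstract form (helper26; prefix `s36i_`): the hypothesis
`hz` of `s36v_main` (S36/Val3.lean): `z = λ(X^{q²}) - λ` lies in EVERY valuation of the level-`N'q²`
field `E = E₂` over the Gauss valuation `VF` of `E₁`, except the Gauss valuation `VA` of `E₂`.

* `s36i_nonunits_of_pow` : in residue characteristic `q`: `a ^ q - b ^ q ∈ 𝔪(A) → a - b ∈ 𝔪(A)`;
* `s36i_third`  : valuation-subring form.  `K' ⊆ E` (`K' = β E₁`), `RG` a DVR of `K'` (the Gauss
  valuation ring of `β E₁`), `VA` the valuation subring of `E` over `RG` with the one-valuation data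
  `s36i_Data K' RG q VA t r` (S36/Ins1/Val.lean; `t = λ`, `r = λ(X^q)`).  For a valuation subring
  `V ≠ VA` of `E` of residue characteristic `q` with `λ₁ - λ ^ q ∈ 𝔪(V)` [`V` lies over `VF`] and
  [`V ∩ K'` is `RG` or the other valuation `RU` of `β E₁` over the Gauss valuation of `β E'`, and
  `λ₁ - λ₂ ^ q ∈ 𝔪(RU)`: S34's two-valuations theorem transported by `β`]
  `ssm_tw_Over K' RG V ∨ λ₁ - λ₂ ^ q ∈ 𝔪(V)`:   `λ₂ - λ ∈ 𝔪(V)`.
* `s36i_exists_val_of_prime` : every prime `Q` of `S = integralClosure R E` over `𝔪_R` is the centre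
  of a valuation subring of `E` over `R` (`R` a DVR of `K`, `E/K` finite separable);
* `s36i_third_ideal` : ideal form = `hz` of `s36v_main` for `S = integralClosure R₁ E`.
-/
import Mathlib
import Fermat.Agent.S36.Ins1.Val

set_option autoImplicit false
set_option linter.unusedSectionVars false
set_option linter.style.haveILetI false

open Fermat.Agent.JT3 Fermat.Agent.SS IsLocalRing

namespace Fermat.Agent.S36

section Pow

variable {E : Type*} [Field E]

/-- in residue characteristic `q`, `a ^ q ≡ b ^ q` implies `a ≡ b`. -/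
theorem s36i_nonunits_of_pow (A : ValuationSubring E) {q : ℕ} (hq : q.Prime)
    (hqA : (q : E) ∈ A.nonunits) {a b : E} (ha : a ∈ A) (hb : b ∈ A)
    (h : a ^ q - b ^ q ∈ A.nonunits) : a - b ∈ A.nonunits := by
  rw [ValuationSubring.mem_nonunits_iff_exists_mem_maximalIdeal] at h hqA ⊢
  obtain ⟨h1, h2⟩ := h
  obtain ⟨hq1, hq2⟩ := hqA
  refine ⟨sub_mem ha hb, ?_⟩
  set x : A := ⟨a, ha⟩ with hx
  set y : A := ⟨b, hb⟩ with hy
  obtain ⟨c, hc⟩ := exists_add_pow_prime_eq hq (x - y) y
  rw [sub_add_cancel] at hc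
  have hm : (x - y) ^ q ∈ maximalIdeal A := by
    have e : (x - y) ^ q = (x ^ q - y ^ q) - (q : A) * ((x - y) * y * c) := by rw [hc]; ring
    rw [e]
    refine Ideal.sub_mem _ ?_ (Ideal.mul_mem_right _ _ ?_)
    · have e2 : (x ^ q - y ^ q : A) = ⟨a ^ q - b ^ q, h1⟩ := Subtype.ext (by simp [hx, hy])
      rw [e2]; exact h2
    · have e3 : ((q : ℕ) : A) = ⟨(q : E), hq1⟩ := Subtype.ext (by simp)
      rw [e3]; exact hq2
  have := (Ideal.IsMaximal.isPrime' (maximalIdeal A)).mem_of_pow_mem q hm
  exact this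

end Pow

section Third

variable (K' : Type*) {E : Type*} [Field K'] [Field E] [Algebra K' E] [FiniteDimensional K' E]
  [Algebra.IsSeparable K' E]
  (RG : Type*) [CommRing RG] [IsDomain RG] [IsDiscreteValuationRing RG] [Algebra RG K']
  [IsFractionRing RG K'] [Algebra RG E] [IsScalarTower RG K' E]

variable {K' RG} {q : ℕ} {VA : ValuationSubring E} {t : E} {r : RG}

include K' in
/-- **[V3-INST] (i), valuation-subring form.** -/
theorem s36i_third (D : s36i_Data K' RG q VA t r) (V : ValuationSubring E)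
    (hqV : (q : E) ∈ V.nonunits) {lam lam1 lam2 : E} (hlam : lam ∈ V) (hlam2 : lam2 ∈ V)
    (h1 : lam1 - lam ^ q ∈ V.nonunits)
    (hcases : ssm_tw_Over K' RG V ∨ lam1 - lam2 ^ q ∈ V.nonunits) (hne : V ≠ VA) :
    lam2 - lam ∈ V.nonunits := by
  rcases hcases with h | h
  · exact absurd (s36i_unique D V h) hne
  · refine s36i_nonunits_of_pow V D.q_prime hqV hlam2 hlam ?_
    have e : lam2 ^ q - lam ^ q = (lam1 - lam ^ q) - (lam1 - lam2 ^ q) := by ring
    rw [e]
    exact ssm_tw_nonunits_sub V h1 h

end Third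

section Prime

variable (K : Type*) {E : Type*} [Field K] [Field E] [Algebra K E] [FiniteDimensional K E]
  [Algebra.IsSeparable K E]
  (R : Type*) [CommRing R] [IsDomain R] [IsDiscreteValuationRing R] [Algebra R K]
  [IsFractionRing R K] [Algebra R E] [IsScalarTower R K E]

include K in
/-- every prime of `S = integralClosure R E` over `𝔪_R` is the centre of a valuation subring of `E`
over `R`. -/
theorem s36i_exists_val_of_prime (Q : Ideal ↥(integralClosure R E)) [hQ : Q.IsPrime]
    (hQc : Q.comap (algebraMap R ↥(integralClosure R E)) = maximalIdeal R) :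
    ∃ (V : ValuationSubring E) (hV : ssm_tw_Over K R V), ssm_tw_centre K R V hV = Q := by
  obtain ⟨hD, hF, hfin, hfree, hrk⟩ := ssm_tw_inst K (E := E) R
  haveI := hD
  haveI := hF
  have hinj : Function.Injective (algebraMap R E) := by
    rw [IsScalarTower.algebraMap_eq R K E]
    exact (algebraMap K E).injective.comp (IsFractionRing.injective R K)
  obtain ⟨π, hπ⟩ := IsDiscreteValuationRing.exists_irreducible R
  have hπQ : algebraMap R ↥(integralClosure R E) π ∈ Q := by
    have : π ∈ Q.comap (algebraMap R ↥(integralClosure R E)) := by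
      rw [hQc]; exact (mem_maximalIdeal _).2 hπ.not_isUnit
    exact this
  have hQ0 : Q ≠ ⊥ := by
    intro h0
    rw [h0, Ideal.mem_bot] at hπQ
    have h2 : algebraMap R E π = 0 := congrArg Subtype.val hπQ
    exact hπ.ne_zero (hinj (by rw [h2, map_zero]))
  let v : IsDedekindDomain.HeightOneSpectrum ↥(integralClosure R E) := ⟨Q, hQ, hQ0⟩
  let V : ValuationSubring E := (v.valuation E).valuationSubring
  have hmemV : ∀ a : E, a ∈ V ↔ v.valuation E a ≤ 1 := fun a => Iff.rfl
  have hS : ∀ s : ↥(integralClosure R E), (s : E) ∈ V := fun s => by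
    rw [hmemV]
    exact v.valuation_le_one s
  have hnonunits : ∀ a : E, a ∈ V.nonunits ↔ v.valuation E a < 1 := by
    intro a
    rw [ssm_tw_nonunits_iff, hmemV, hmemV]
    by_cases ha : a = 0
    · subst ha; simp
    · have hv : v.valuation E a ≠ 0 := (Valuation.ne_zero_iff _).2 ha
      rw [map_inv₀, inv_le_one₀ (zero_lt_iff.2 hv)]
      constructor
      · rintro ⟨h1, h2 | h2⟩
        · exact absurd h2 ha
        · exact not_le.1 h2
      · intro h; exact ⟨h.le, Or.inr (not_le.2 h)⟩
  have hcentre : ∀ s : ↥(integralClosure R E), (s : E) ∈ V.nonunits ↔ s ∈ Q := by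
    intro s
    rw [hnonunits]
    exact v.valuation_lt_one_iff_mem s
  have hover : ssm_tw_Over K R V := by
    intro z
    constructor
    · intro hz
      by_cases hz0 : z = 0
      · exact ⟨0, by rw [hz0, map_zero]⟩
      -- `z = u π ^ n`
      obtain ⟨a, b, hb, hab⟩ := IsFractionRing.div_surjective (A := R) z
      have hb0 : b ≠ 0 := nonZeroDivisors.ne_zero hb
      have ha0 : a ≠ 0 := by
        rintro rfl
        rw [map_zero, zero_div] at hab
        exact hz0 hab.symm
      obtain ⟨m, u, hu⟩ := IsDiscreteValuationRing.eq_unit_mul_pow_irreducible ha0 hπ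
      obtain ⟨n, w, hw⟩ := IsDiscreteValuationRing.eq_unit_mul_pow_irreducible hb0 hπ
      rcases le_or_gt n m with hnm | hnm
      · refine ⟨(u * w⁻¹ : Rˣ) * π ^ (m - n), ?_⟩
        rw [← hab, hu, hw, eq_div_iff ((map_ne_zero_iff _ (IsFractionRing.injective R K)).2
          (hw ▸ hb0)), ← map_mul]
        congr 1
        have : π ^ m = π ^ (m - n) * π ^ n := by rw [← pow_add, Nat.sub_add_cancel hnm]
        rw [this, Units.val_mul]
        have hw1 : ((w⁻¹ : Rˣ) : R) * (w : R) = 1 := Units.inv_mul w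
        linear_combination (u : R) * π ^ (m - n) * π ^ n * hw1
      · exfalso
        -- `z⁻¹ = (w u⁻¹) π ^ (n - m)` lies in `𝔪_R`, so `z⁻¹ ∈ 𝔪(V)`, contradiction
        have hzinv : algebraMap K E z⁻¹ =
            algebraMap R E ((w * u⁻¹ : Rˣ) * π ^ (n - m)) := by
          rw [IsScalarTower.algebraMap_apply R K E]
          congr 1
          rw [← hab, inv_div, hu, hw, div_eq_iff ((map_ne_zero_iff _
            (IsFractionRing.injective R K)).2 (hu ▸ ha0)), ← map_mul]
          congr 1
          have : π ^ n = π ^ (n - m) * π ^ m := by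
            rw [← pow_add, Nat.sub_add_cancel hnm.le]
          rw [this, Units.val_mul]
          have hu1 : ((u⁻¹ : Rˣ) : R) * (u : R) = 1 := Units.inv_mul u
          linear_combination (-(w : R) * π ^ (n - m) * π ^ m) * hu1
        have hmem : ((w * u⁻¹ : Rˣ) : R) * π ^ (n - m) ∈ maximalIdeal R := by
          refine Ideal.mul_mem_left _ _ ?_
          have hpos : n - m ≠ 0 := by omega
          exact Ideal.pow_mem_of_mem _ ((mem_maximalIdeal _).2 hπ.not_isUnit) _
            (Nat.pos_of_ne_zero hpos)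
        have h3 : algebraMap K E z⁻¹ ∈ V.nonunits := by
          rw [hzinv]
          have h4 : algebraMap R ↥(integralClosure R E) (((w * u⁻¹ : Rˣ) : R) * π ^ (n - m)) ∈ Q := by
            have : ((w * u⁻¹ : Rˣ) : R) * π ^ (n - m) ∈
                Q.comap (algebraMap R ↥(integralClosure R E)) := by rw [hQc]; exact hmem
            exact this
          exact (hcentre _).2 h4
        rw [map_inv₀, hnonunits, map_inv₀] at h3
        have hz1 : v.valuation E (algebraMap K E z) ≤ 1 := hz
        have hzne : v.valuation E (algebraMap K E z) ≠ 0 :=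
          (Valuation.ne_zero_iff _).2 ((map_ne_zero_iff _ (algebraMap K E).injective).2 hz0)
        have := (inv_lt_one₀ (zero_lt_iff.2 hzne)).1 h3
        exact absurd hz1 (not_le.2 this)
    · rintro ⟨s, rfl⟩
      rw [← IsScalarTower.algebraMap_apply R K E]
      exact hS (algebraMap R ↥(integralClosure R E) s)
  refine ⟨V, hover, ?_⟩
  ext s
  rw [ssm_tw_mem_centre, hcentre]

variable {K R}

variable (K' : Type*) [Field K'] [Algebra K' E] [FiniteDimensional K' E]
  [Algebra.IsSeparable K' E]
  (RG : Type*) [CommRing RG] [IsDomain RG] [IsDiscreteValuationRing RG] [Algebra RG K']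
  [IsFractionRing RG K'] [Algebra RG E] [IsScalarTower RG K' E]

variable {K' RG} {q : ℕ} {VA : ValuationSubring E} {t : E} {r : RG}

include K K' in
/-- **[V3-INST] (i), ideal form** = the hypothesis `hz` of `s36v_main` for
`S = integralClosure R E` (`R = VF`, a DVR of `K = E₁`). -/
theorem s36i_third_ideal (D : s36i_Data K' RG q VA t r) (hVA : ssm_tw_Over K R VA)
    (hqR : (q : R) ∈ maximalIdeal R) {lam lam1 lam2 : E}
    (hlam : IsIntegral R lam) (hlam2 : IsIntegral R lam2)
    (h1 : ∀ V : ValuationSubring E, ssm_tw_Over K R V → lam1 - lam ^ q ∈ V.nonunits)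
    (hcases : ∀ V : ValuationSubring E, ssm_tw_Over K R V →
      ssm_tw_Over K' RG V ∨ lam1 - lam2 ^ q ∈ V.nonunits)
    (z : ↥(integralClosure R E)) (hz : (z : E) = lam2 - lam)
    (Q : Ideal ↥(integralClosure R E)) (hQ : Q.IsPrime)
    (hQc : Q.comap (algebraMap R ↥(integralClosure R E)) = maximalIdeal R)
    (hne : Q ≠ ssm_tw_centre K R VA hVA) : z ∈ Q := by
  obtain ⟨V, hV, hVQ⟩ := s36i_exists_val_of_prime K R Q hQc
  have hVne : V ≠ VA := by
    rintro rfl
    exact hne hVQ.symm
  have hqV : (q : E) ∈ V.nonunits := by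
    have h2 := (ssm_tw_over_nonunits hV (q : R)).2 hqR
    rwa [map_natCast] at h2
  have h3 := s36i_third D V hqV (ssm_tw_le hV lam hlam) (ssm_tw_le hV lam2 hlam2) (h1 V hV)
    (hcases V hV) hVne
  rw [← hVQ, ssm_tw_mem_centre, hz]
  exact h3

end Prime

end Fermat.Agent.S36
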