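/-
Project S36 (Carayol), cell [V3-INST](i), INSTANCE layer, abstract part (helper26; prefix `s36i_`):
TRANSPORT of the hypotheses `ssm_tw_Data` of S34's TWO-valuations lemma (`SS/Model/TwoValW.lean`)
along a compatible triple of ring isomorphisms `wR : R ≃+* R'`, `w0 : K ≃+* K'`, `w : E ≃+* E'`.

* `s36i_range_iff`        : `w0 z ∈ range (R' → K') ↔ z ∈ range (R → K)`;
* `s36i_twdata_transport` : `ssm_tw_Data K R q V1 W lam →
                             ssm_tw_Data K' R' q (V1.comap w⁻¹) (w W w⁻¹) (wR lam)`.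

Application (S36/Ins1/ThirdLeg.lean): the two-valuations theorem of level `N' q` transported by
`β = (X ↦ X^q)` to the tower `β E₀ ≤ β E₁`.
-/
import Mathlib
import Fermat.Agent.S36.Ins1.Transport

set_option autoImplicit false
set_option linter.unusedSectionVars false
set_option linter.style.haveILetI false

open Fermat.Agent.JT3 Fermat.Agent.SS IsLocalRing

namespace Fermat.Agent.S36

section TwTransport

variable {K E R : Type*} [Field K] [Field E] [Algebra K E]
  [CommRing R] [IsDomain R] [IsDiscreteValuationRing R] [Algebra R K] [Algebra R E]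
  [IsScalarTower R K E]
variable {K' E' R' : Type*} [Field K'] [Field E'] [Algebra K' E']
  [CommRing R'] [IsDomain R'] [IsDiscreteValuationRing R'] [Algebra R' K'] [Algebra R' E']
  [IsScalarTower R' K' E']

omit [IsDomain R] [IsDiscreteValuationRing R] [IsDomain R'] [IsDiscreteValuationRing R'] in
theorem s36i_range_iff (w0 : K ≃+* K') (wR : R ≃+* R')
    (hw : ∀ r : R, w0 (algebraMap R K r) = algebraMap R' K' (wR r)) (z : K) :
    w0 z ∈ (algebraMap R' K').range ↔ z ∈ (algebraMap R K).range := by
  constructor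
  · rintro ⟨s, hs⟩
    refine ⟨wR.symm s, ?_⟩
    apply w0.injective
    rw [hw, RingEquiv.apply_symm_apply, hs]
  · rintro ⟨s, rfl⟩
    exact ⟨wR s, (hw s).symm⟩

/-- **transport of `ssm_tw_Data`** along compatible ring isomorphisms. -/
theorem s36i_twdata_transport (w : E ≃+* E') (w0 : K ≃+* K') (wR : R ≃+* R')
    (hW : ∀ x : K, w (algebraMap K E x) = algebraMap K' E' (w0 x))
    (hw : ∀ r : R, w0 (algebraMap R K r) = algebraMap R' K' (wR r))
    {q : ℕ} {V1 : ValuationSubring E} {W : E ≃+* E} {lam : R}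
    (D : ssm_tw_Data K R q V1 W lam) :
    ssm_tw_Data K' R' q (V1.comap (w.symm : E' →+* E)) (w.symm.trans (W.trans w)) (wR lam) := by
  have hWR : ∀ r : R, algebraMap R' E' (wR r) = w (algebraMap R E r) := by
    intro r
    rw [IsScalarTower.algebraMap_apply R K E, hW, hw, ← IsScalarTower.algebraMap_apply R' K' E']
  have hW' : ∀ a : E, (w.symm.trans (W.trans w)) (w a) = w (W a) := by
    intro a
    simp only [RingEquiv.trans_apply, RingEquiv.symm_apply_apply]
  refine ⟨D.q_prime, ?_, ?_, ?_, ?_, ?_, ?_, ?_, ?_⟩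
  · -- q ∈ 𝔪_R'
    rw [mem_maximalIdeal, mem_nonunits_iff]
    intro hu
    have h1 : IsUnit (wR.symm (q : R')) := hu.map wR.symm
    rw [map_natCast] at h1
    have h2 := D.q_mem
    rw [mem_maximalIdeal, mem_nonunits_iff] at h2
    exact h2 h1
  · -- degree
    rw [← D.finrank_eq]
    refine (Algebra.finrank_eq_of_equiv_equiv w0 w ?_).symm
    ext x
    exact (hW x).symm
  · -- involution
    intro x
    simp only [RingEquiv.trans_apply, RingEquiv.symm_apply_apply, D.invol,
      RingEquiv.apply_symm_apply]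
  · -- over1
    intro z'
    obtain ⟨z, rfl⟩ := w0.surjective z'
    rw [ValuationSubring.mem_comap, s36i_range_iff w0 wR hw, ← D.over1 z, ← hW]
    show w.symm (w (algebraMap K E z)) ∈ V1 ↔ _
    rw [RingEquiv.symm_apply_apply]
  · -- over2
    intro z'
    obtain ⟨z, rfl⟩ := w0.surjective z'
    rw [ValuationSubring.mem_comap, s36i_range_iff w0 wR hw, ← D.over2 z, ← hW, hW']
    show w.symm (w (W (algebraMap K E z))) ∈ V1 ↔ _
    rw [RingEquiv.symm_apply_apply]
  · -- frob
    rw [s36i_nonunits_comap', hWR, hW', ← map_pow, ← map_sub, RingEquiv.symm_apply_apply]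
    exact D.frob
  · -- nfrob
    rw [s36i_nonunits_comap', hWR, hW', ← map_pow, ← map_sub, RingEquiv.symm_apply_apply]
    exact D.nfrob
  · -- nres
    intro z'
    obtain ⟨z, rfl⟩ := wR.surjective z'
    rw [s36i_nonunits_comap', hWR, hWR, hW', ← map_sub, RingEquiv.symm_apply_apply]
    exact D.nres z

end TwTransport

end Fermat.Agent.S36
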