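/-
Project S36 (Carayol), cell [V3-INST](i), INSTANCE layer, generic Gauss part (helper26; prefix
`s36i_`): the hypotheses of `s36i_third` (S36/Ins1/Third.lean) discharged for a tower of fields
`E0 ≤ E1 ≤ E2 ≤ Quot(O((X)))` inside `L((X))` with `β E0 ≤ E1`, `β E1 ≤ E2`
(`β = (X ↦ X^q)`), given

* `D01` : S34's two-valuations data `ssm_tw_Data ↥E0 Gauss(E0) q Gauss(E1) W₁ lam0` of the lower
  step (`W₁ z = z(X^q)` on `E0`),
* `DA`  : the one-valuation data `s36i_Data ↥(β E1) Gauss(β E1) q Gauss(E2) t r` of the upper step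
  on the `β`-side.

Conclusion (`s36i_gauss_third`): for every valuation subring `V` of `E2` over `Gauss(E1)` other than
`Gauss(E2)`:  `lam0(X^{q q}) - lam0 ∈ 𝔪(V)`.

Steps: `s36i_gauss_twdata` (the two-valuations data transported by `β` to `β E0 ≤ β E1`),
`s36i_gauss_cases` (`V ∩ β E1` is `Gauss(β E1)` or its conjugate `RU`).
-/
import Mathlib
import Fermat.Agent.SS.Model.TwoPrimesInst
import Fermat.Agent.S36.Ins1.Third
import Fermat.Agent.S36.Ins1.TwTransport

set_option autoImplicit false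
set_option linter.unusedSectionVars false
set_option linter.unusedVariables false
set_option linter.style.haveILetI false

noncomputable section

open ModularCurve IntermediateField IsLocalRing
open Fermat.Agent.JT3 Fermat.Agent.SS

namespace Fermat.Agent.S36

section Hom

variable {F F' : Type*} [Field F] [Field F']

/-- nonunits of the pull-back of a valuation subring along a field homomorphism. -/
theorem s36i_nonunits_comap_hom (A : ValuationSubring F') (f : F →+* F') (a : F) :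
    a ∈ (A.comap f).nonunits ↔ f a ∈ A.nonunits := by
  rw [ssm_tw_nonunits_iff, ssm_tw_nonunits_iff, ValuationSubring.mem_comap,
    ValuationSubring.mem_comap]
  simp only [map_inv₀, map_eq_zero]

end Hom

section Gauss

variable {L : Type*} [Field L] [CharZero L] (O : ValuationSubring L) [IsDiscreteValuationRing O]
  {π : O} (hπ : Irreducible π)
variable (q : ℕ) [NeZero q] [hq : Fact q.Prime] [CharP (ResidueField O) q]
variable (E0 E1 E2 : IntermediateField L (LaurentSeries L))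

/-- `β : E ≃ β E`. -/
abbrev s36i_bEquiv (E : IntermediateField L (LaurentSeries L)) :
    ↥E ≃+* ↥(E.map (qExpandAlgHomC L q)) :=
  (IntermediateField.equivMap E (qExpandAlgHomC L q)).toRingEquiv

theorem s36i_coe_bEquiv (E : IntermediateField L (LaurentSeries L)) (y : ↥E) :
    ((s36i_bEquiv q E y : ↥(E.map (qExpandAlgHomC L q))) : LaurentSeries L) =
      qExpand L q (y : LaurentSeries L) := rfl

theorem s36i_coe_bEquiv_symm (E : IntermediateField L (LaurentSeries L))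
    (z : ↥(E.map (qExpandAlgHomC L q))) :
    qExpand L q (((s36i_bEquiv q E).symm z : ↥E) : LaurentSeries L) = (z : LaurentSeries L) := by
  rw [← s36i_coe_bEquiv, RingEquiv.apply_symm_apply]

theorem s36i_map_le_quot (E : IntermediateField L (LaurentSeries L))
    (hE : E ≤ gq_quotField O L) : E.map (qExpandAlgHomC L q) ≤ gq_quotField O L := by
  rintro _ ⟨z, hz, rfl⟩
  exact ssm_ga_beta_isQuot q (hE hz)

/-- `β` matches the Gauss rings of `E` and `β E`. -/
theorem s36i_mem_gauss_iff (E : IntermediateField L (LaurentSeries L))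
    (hE : E ≤ gq_quotField O L) (hbE : E.map (qExpandAlgHomC L q) ≤ gq_quotField O L)
    (z : ↥E) :
    z ∈ gq_valSubOf π hπ.ne_zero hπ.maximalIdeal_eq E hE ↔
      s36i_bEquiv q E z ∈
        gq_valSubOf π hπ.ne_zero hπ.maximalIdeal_eq (E.map (qExpandAlgHomC L q)) hbE := by
  rw [gq_mem_valSubOf, gq_mem_valSubOf, s36i_coe_bEquiv]
  exact (ssm_ga_beta_isBdd_iff q π hπ.ne_zero hπ.maximalIdeal_eq (hE z.2)).symm

/-- the isomorphism of Gauss rings induced by `β`. -/
def s36i_bEquivV (E : IntermediateField L (LaurentSeries L))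
    (hE : E ≤ gq_quotField O L) (hbE : E.map (qExpandAlgHomC L q) ≤ gq_quotField O L) :
    ↥(gq_valSubOf π hπ.ne_zero hπ.maximalIdeal_eq E hE) ≃+*
      ↥(gq_valSubOf π hπ.ne_zero hπ.maximalIdeal_eq (E.map (qExpandAlgHomC L q)) hbE) :=
  s36i_valEquiv _ _ (s36i_bEquiv q E) (s36i_mem_gauss_iff O hπ q E hE hbE)

/-- `β(Gauss(E)) = Gauss(β E)` as valuation subrings of `β E`. -/
theorem s36i_comap_gauss (E : IntermediateField L (LaurentSeries L))
    (hE : E ≤ gq_quotField O L) (hbE : E.map (qExpandAlgHomC L q) ≤ gq_quotField O L) :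
    (gq_valSubOf π hπ.ne_zero hπ.maximalIdeal_eq E hE).comap
        ((s36i_bEquiv q E).symm : ↥(E.map (qExpandAlgHomC L q)) →+* ↥E) =
      gq_valSubOf π hπ.ne_zero hπ.maximalIdeal_eq (E.map (qExpandAlgHomC L q)) hbE := by
  ext z
  rw [ValuationSubring.mem_comap]
  show (s36i_bEquiv q E).symm z ∈ _ ↔ _
  rw [s36i_mem_gauss_iff O hπ q E hE hbE, RingEquiv.apply_symm_apply]

variable (h01 : E0 ≤ E1) (hE1 : E1 ≤ gq_quotField O L)

/-- the conjugate of `W₁` by `β`. -/
abbrev s36i_Wb (W1 : ↥E1 ≃+* ↥E1) :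
    ↥(E1.map (qExpandAlgHomC L q)) ≃+* ↥(E1.map (qExpandAlgHomC L q)) :=
  (s36i_bEquiv q E1).symm.trans (W1.trans (s36i_bEquiv q E1))

/-- **the two-valuations data of the lower step transported by `β`.** -/
theorem s36i_gauss_twdata (W1 : ↥E1 ≃+* ↥E1)
    (lam0 : ↥(gq_valSubOf π hπ.ne_zero hπ.maximalIdeal_eq E0 (h01.trans hE1)))
    (D01 :
      letI := ssm_gi_algebra h01
      letI := ssm_gi_algebraV h01 (gq_valSubOf π hπ.ne_zero hπ.maximalIdeal_eq E0 (h01.trans hE1))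
      ssm_tw_Data ↥E0 ↥(gq_valSubOf π hπ.ne_zero hπ.maximalIdeal_eq E0 (h01.trans hE1)) q
        (gq_valSubOf π hπ.ne_zero hπ.maximalIdeal_eq E1 hE1) W1 lam0) :
    letI := ssm_gi_algebra (IntermediateField.map_mono (qExpandAlgHomC L q) h01)
    letI := ssm_gi_algebraV (IntermediateField.map_mono (qExpandAlgHomC L q) h01)
      (gq_valSubOf π hπ.ne_zero hπ.maximalIdeal_eq (E0.map (qExpandAlgHomC L q))
        (s36i_map_le_quot O q E0 (h01.trans hE1)))
    ssm_tw_Data ↥(E0.map (qExpandAlgHomC L q))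
      ↥(gq_valSubOf π hπ.ne_zero hπ.maximalIdeal_eq (E0.map (qExpandAlgHomC L q))
        (s36i_map_le_quot O q E0 (h01.trans hE1))) q
      (gq_valSubOf π hπ.ne_zero hπ.maximalIdeal_eq (E1.map (qExpandAlgHomC L q))
        (s36i_map_le_quot O q E1 hE1))
      (s36i_Wb q E1 W1)
      (s36i_bEquivV O hπ q E0 (h01.trans hE1) (s36i_map_le_quot O q E0 (h01.trans hE1)) lam0) := by
  letI := ssm_gi_algebra h01
  letI := ssm_gi_algebraV h01 (gq_valSubOf π hπ.ne_zero hπ.maximalIdeal_eq E0 (h01.trans hE1))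
  haveI := ssm_gi_isScalarTower h01
    (gq_valSubOf π hπ.ne_zero hπ.maximalIdeal_eq E0 (h01.trans hE1))
  letI := ssm_gi_algebra (IntermediateField.map_mono (qExpandAlgHomC L q) h01)
  letI := ssm_gi_algebraV (IntermediateField.map_mono (qExpandAlgHomC L q) h01)
    (gq_valSubOf π hπ.ne_zero hπ.maximalIdeal_eq (E0.map (qExpandAlgHomC L q))
      (s36i_map_le_quot O q E0 (h01.trans hE1)))
  haveI := ssm_gi_isScalarTower (IntermediateField.map_mono (qExpandAlgHomC L q) h01)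
    (gq_valSubOf π hπ.ne_zero hπ.maximalIdeal_eq (E0.map (qExpandAlgHomC L q))
      (s36i_map_le_quot O q E0 (h01.trans hE1)))
  have h := s36i_twdata_transport (s36i_bEquiv q E1) (s36i_bEquiv q E0)
    (s36i_bEquivV O hπ q E0 (h01.trans hE1) (s36i_map_le_quot O q E0 (h01.trans hE1)))
    (fun x => Subtype.ext rfl) (fun r => rfl) D01
  rw [s36i_comap_gauss O hπ q E1 hE1 (s36i_map_le_quot O q E1 hE1)] at h
  exact h

variable (h12 : E1 ≤ E2) (hE2 : E2 ≤ gq_quotField O L)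
  (hb01 : E0.map (qExpandAlgHomC L q) ≤ E1) (hb12 : E1.map (qExpandAlgHomC L q) ≤ E2)

/-- `Gauss(E2)` lies over `Gauss(E1)` (inclusion algebras). -/
theorem s36i_gauss_over :
    letI := ssm_gi_algebra h12
    letI := ssm_gi_algebraV h12 (gq_valSubOf π hπ.ne_zero hπ.maximalIdeal_eq E1 (h12.trans hE2))
    ssm_tw_Over ↥E1 ↥(gq_valSubOf π hπ.ne_zero hπ.maximalIdeal_eq E1 (h12.trans hE2))
      (gq_valSubOf π hπ.ne_zero hπ.maximalIdeal_eq E2 hE2) := by
  letI := ssm_gi_algebra h12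
  letI := ssm_gi_algebraV h12 (gq_valSubOf π hπ.ne_zero hπ.maximalIdeal_eq E1 (h12.trans hE2))
  haveI := ssm_gi_isScalarTower h12
    (gq_valSubOf π hπ.ne_zero hπ.maximalIdeal_eq E1 (h12.trans hE2))
  exact ssm_gi_over1 O hπ E1 E2 h12 hE2 (fun _ => rfl)

include hb01 in
/-- for `V` over `Gauss(E1)`, the trace `V ∩ β E1` lies over `Gauss(β E0)`. -/
theorem s36i_gauss_overb (V : ValuationSubring ↥E2)
    (hV :
      letI := ssm_gi_algebra h12
      letI := ssm_gi_algebraV h12 (gq_valSubOf π hπ.ne_zero hπ.maximalIdeal_eq E1 (h12.trans hE2))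
      ssm_tw_Over ↥E1 ↥(gq_valSubOf π hπ.ne_zero hπ.maximalIdeal_eq E1 (h12.trans hE2)) V) :
    letI := ssm_gi_algebra (IntermediateField.map_mono (qExpandAlgHomC L q) h01)
    ssm_tw_Over ↥(E0.map (qExpandAlgHomC L q))
      ↥(gq_valSubOf π hπ.ne_zero hπ.maximalIdeal_eq (E0.map (qExpandAlgHomC L q))
        (s36i_map_le_quot O q E0 (h01.trans (h12.trans hE2))))
      (V.comap (IntermediateField.inclusion hb12).toRingHom) := by
  letI := ssm_gi_algebra h12
  letI := ssm_gi_algebraV h12 (gq_valSubOf π hπ.ne_zero hπ.maximalIdeal_eq E1 (h12.trans hE2))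
  letI := ssm_gi_algebra (IntermediateField.map_mono (qExpandAlgHomC L q) h01)
  intro z
  rw [ssm_gi_mem_range, ValuationSubring.mem_comap]
  have e : (IntermediateField.inclusion hb12).toRingHom
      (algebraMap ↥(E0.map (qExpandAlgHomC L q)) ↥(E1.map (qExpandAlgHomC L q)) z) =
      algebraMap ↥E1 ↥E2 ⟨(z : LaurentSeries L), hb01 z.2⟩ := Subtype.ext rfl
  rw [e, hV ⟨(z : LaurentSeries L), hb01 z.2⟩, ssm_gi_mem_range]
  exact Iff.rfl

include hb01 in
/-- **[V3-INST](i), generic Gauss form**: for every valuation subring `V ≠ Gauss(E2)` of `E2` over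
`Gauss(E1)`: `lam0(X^{q q}) - lam0 ∈ 𝔪(V)`. -/
theorem s36i_gauss_third (W1 : ↥E1 ≃+* ↥E1)
    (hW1 : ∀ z : ↥E0, ((W1 (IntermediateField.inclusion h01 z) : ↥E1) : LaurentSeries L) =
      qExpand L q (z : LaurentSeries L))
    (lam0 : ↥(gq_valSubOf π hπ.ne_zero hπ.maximalIdeal_eq E0 (h01.trans (h12.trans hE2))))
    (D01 :
      letI := ssm_gi_algebra h01
      letI := ssm_gi_algebraV h01
        (gq_valSubOf π hπ.ne_zero hπ.maximalIdeal_eq E0 (h01.trans (h12.trans hE2)))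
      ssm_tw_Data ↥E0 ↥(gq_valSubOf π hπ.ne_zero hπ.maximalIdeal_eq E0 (h01.trans (h12.trans hE2)))
        q (gq_valSubOf π hπ.ne_zero hπ.maximalIdeal_eq E1 (h12.trans hE2)) W1 lam0)
    {t : ↥E2}
    {r : ↥(gq_valSubOf π hπ.ne_zero hπ.maximalIdeal_eq (E1.map (qExpandAlgHomC L q))
      (hb12.trans hE2))}
    (DA :
      letI := ssm_gi_algebra hb12
      letI := ssm_gi_algebraV hb12
        (gq_valSubOf π hπ.ne_zero hπ.maximalIdeal_eq (E1.map (qExpandAlgHomC L q))
          (hb12.trans hE2))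
      s36i_Data ↥(E1.map (qExpandAlgHomC L q))
        ↥(gq_valSubOf π hπ.ne_zero hπ.maximalIdeal_eq (E1.map (qExpandAlgHomC L q))
          (hb12.trans hE2)) q
        (gq_valSubOf π hπ.ne_zero hπ.maximalIdeal_eq E2 hE2) t r)
    (V : ValuationSubring ↥E2)
    (hV :
      letI := ssm_gi_algebra h12
      letI := ssm_gi_algebraV h12 (gq_valSubOf π hπ.ne_zero hπ.maximalIdeal_eq E1 (h12.trans hE2))
      ssm_tw_Over ↥E1 ↥(gq_valSubOf π hπ.ne_zero hπ.maximalIdeal_eq E1 (h12.trans hE2)) V)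
    (hne : V ≠ gq_valSubOf π hπ.ne_zero hπ.maximalIdeal_eq E2 hE2)
    (lam lam2 : ↥E2)
    (hlam : (lam : LaurentSeries L) = ((lam0 : ↥E0) : LaurentSeries L))
    (hlam2 : (lam2 : LaurentSeries L) =
      qExpand L q (qExpand L q ((lam0 : ↥E0) : LaurentSeries L))) :
    lam2 - lam ∈ V.nonunits := by
  -- the four towers
  letI a01 := ssm_gi_algebra h01
  letI aV01 := ssm_gi_algebraV h01
    (gq_valSubOf π hπ.ne_zero hπ.maximalIdeal_eq E0 (h01.trans (h12.trans hE2)))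
  haveI t01 := ssm_gi_isScalarTower h01
    (gq_valSubOf π hπ.ne_zero hπ.maximalIdeal_eq E0 (h01.trans (h12.trans hE2)))
  letI a12 := ssm_gi_algebra h12
  letI aV12 := ssm_gi_algebraV h12
    (gq_valSubOf π hπ.ne_zero hπ.maximalIdeal_eq E1 (h12.trans hE2))
  haveI t12 := ssm_gi_isScalarTower h12
    (gq_valSubOf π hπ.ne_zero hπ.maximalIdeal_eq E1 (h12.trans hE2))
  letI ab12 := ssm_gi_algebra hb12
  letI aVb12 := ssm_gi_algebraV hb12
    (gq_valSubOf π hπ.ne_zero hπ.maximalIdeal_eq (E1.map (qExpandAlgHomC L q)) (hb12.trans hE2))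
  haveI tb12 := ssm_gi_isScalarTower hb12
    (gq_valSubOf π hπ.ne_zero hπ.maximalIdeal_eq (E1.map (qExpandAlgHomC L q)) (hb12.trans hE2))
  letI ab01 := ssm_gi_algebra (IntermediateField.map_mono (qExpandAlgHomC L q) h01)
  letI aVb01 := ssm_gi_algebraV (IntermediateField.map_mono (qExpandAlgHomC L q) h01)
    (gq_valSubOf π hπ.ne_zero hπ.maximalIdeal_eq (E0.map (qExpandAlgHomC L q))
      (s36i_map_le_quot O q E0 (h01.trans (h12.trans hE2))))
  haveI tb01 := ssm_gi_isScalarTower (IntermediateField.map_mono (qExpandAlgHomC L q) h01)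
    (gq_valSubOf π hπ.ne_zero hπ.maximalIdeal_eq (E0.map (qExpandAlgHomC L q))
      (s36i_map_le_quot O q E0 (h01.trans (h12.trans hE2))))
  have Dβ := s36i_gauss_twdata O hπ q E0 E1 h01 (h12.trans hE2) W1 lam0 D01
  haveI : FiniteDimensional ↥(E0.map (qExpandAlgHomC L q)) ↥(E1.map (qExpandAlgHomC L q)) :=
    ssm_gi_finiteDimensional Dβ.finrank_eq
  haveI : Algebra.IsSeparable ↥(E0.map (qExpandAlgHomC L q)) ↥(E1.map (qExpandAlgHomC L q)) :=
    ssm_gi_isSeparable
  haveI : FiniteDimensional ↥(E1.map (qExpandAlgHomC L q)) ↥E2 :=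
    Module.finite_of_finrank_pos (by rw [DA.finrank_eq]; exact DA.q_prime.pos)
  haveI : Algebra.IsSeparable ↥(E1.map (qExpandAlgHomC L q)) ↥E2 := ssm_gi_isSeparable
  have hV' := s36i_gauss_overb O hπ q E0 E1 E2 h01 h12 hE2 hb01 hb12 V hV
  have hcases := ssm_tw_cases Dβ _ hV'
  -- the elements
  obtain ⟨l1, hl1⟩ : ∃ l1 : ↥E1, l1 = algebraMap
    ↥(gq_valSubOf π hπ.ne_zero hπ.maximalIdeal_eq E0 (h01.trans (h12.trans hE2))) ↥E1 lam0 :=
    ⟨_, rfl⟩
  obtain ⟨lamb, hlamb⟩ : ∃ lamb : ↥(E1.map (qExpandAlgHomC L q)), lamb = algebraMap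
      ↥(gq_valSubOf π hπ.ne_zero hπ.maximalIdeal_eq (E0.map (qExpandAlgHomC L q))
        (s36i_map_le_quot O q E0 (h01.trans (h12.trans hE2)))) ↥(E1.map (qExpandAlgHomC L q))
      (s36i_bEquivV O hπ q E0 (h01.trans (h12.trans hE2))
        (s36i_map_le_quot O q E0 (h01.trans (h12.trans hE2))) lam0) := ⟨_, rfl⟩
  have hcoe_l1 : (l1 : LaurentSeries L) = ((lam0 : ↥E0) : LaurentSeries L) := by
    rw [hl1]; rfl
  have hcoe_lamb : (lamb : LaurentSeries L) =
      qExpand L q ((lam0 : ↥E0) : LaurentSeries L) := by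
    rw [hlamb]; rfl
  have hcoe_W1 : ((W1 l1 : ↥E1) : LaurentSeries L) =
      qExpand L q ((lam0 : ↥E0) : LaurentSeries L) := by
    rw [hl1]; exact hW1 (lam0 : ↥E0)
  have hsymm : (s36i_bEquiv q E1).symm lamb = l1 := by
    rw [RingEquiv.symm_apply_eq]
    apply Subtype.ext
    rw [s36i_coe_bEquiv, hcoe_l1, hcoe_lamb]
  have hWb : s36i_Wb q E1 W1 lamb = s36i_bEquiv q E1 (W1 l1) := by
    rw [← hsymm]; rfl
  have hcoe_Wb : ((s36i_Wb q E1 W1 lamb : ↥(E1.map (qExpandAlgHomC L q))) : LaurentSeries L) =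
      qExpand L q (qExpand L q ((lam0 : ↥E0) : LaurentSeries L)) := by
    rw [hWb, s36i_coe_bEquiv, hcoe_W1]
  have e_lam : lam = algebraMap ↥E1 ↥E2 l1 := Subtype.ext (hlam.trans hcoe_l1.symm)
  have e_lam1 : algebraMap ↥(E1.map (qExpandAlgHomC L q)) ↥E2 lamb =
      algebraMap ↥E1 ↥E2 (W1 l1) := Subtype.ext (hcoe_lamb.trans hcoe_W1.symm)
  have e_lam2 : lam2 = algebraMap ↥(E1.map (qExpandAlgHomC L q)) ↥E2 (s36i_Wb q E1 W1 lamb) :=
    Subtype.ext (hlam2.trans hcoe_Wb.symm)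
  -- the easy inputs of `s36i_third`
  have hqV : ((q : ℕ) : ↥E2) ∈ V.nonunits := by
    have h := (ssm_tw_over_nonunits hV
      ((q : ℕ) : ↥(gq_valSubOf π hπ.ne_zero hπ.maximalIdeal_eq E1 (h12.trans hE2)))).2
      (ssm_gi_q_mem O hπ q E1 (h12.trans hE2))
    rwa [map_natCast] at h
  have hlamV : lam ∈ V := by
    have h := ssm_tw_over_mem hV
      (⟨l1, by
        rw [gq_mem_valSubOf, hcoe_l1]
        exact (gq_mem_valSubOf π hπ.ne_zero hπ.maximalIdeal_eq E0 _ (lam0 : ↥E0)).1 lam0.2⟩ :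
        ↥(gq_valSubOf π hπ.ne_zero hπ.maximalIdeal_eq E1 (h12.trans hE2)))
    rw [e_lam]
    exact h
  have hfrob : algebraMap ↥E1 ↥E2 (W1 l1) - lam ^ q ∈ V.nonunits := by
    have hf := D01.frob
    rw [← hl1] at hf
    obtain ⟨ha, hm⟩ := ValuationSubring.mem_nonunits_iff_exists_mem_maximalIdeal.1 hf
    have h := (ssm_tw_over_nonunits hV
      (⟨W1 l1 - l1 ^ q, ha⟩ :
        ↥(gq_valSubOf π hπ.ne_zero hπ.maximalIdeal_eq E1 (h12.trans hE2)))).2 hm
    rw [e_lam, ← map_pow, ← map_sub]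
    exact h
  have hmemV : ∀ z : ↥(E1.map (qExpandAlgHomC L q)),
      z ∈ V.comap (IntermediateField.inclusion hb12).toRingHom ↔
        algebraMap ↥(E1.map (qExpandAlgHomC L q)) ↥E2 z ∈ V := fun z => Iff.rfl
  have hlambRG : lamb ∈ gq_valSubOf π hπ.ne_zero hπ.maximalIdeal_eq
      (E1.map (qExpandAlgHomC L q)) (s36i_map_le_quot O q E1 (h12.trans hE2)) := by
    rw [hlamb]
    exact ssm_tw_over_mem Dβ.over1 _
  rcases hcases with h | h
  · -- `V ∩ β E1 = Gauss(β E1)`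
    have hlam2V : lam2 ∈ V := by
      rw [e_lam2, ← hmemV, h, gq_mem_valSubOf, hcoe_Wb, ← hcoe_lamb]
      exact ssm_ga_beta_isBdd q
        ((gq_mem_valSubOf π hπ.ne_zero hπ.maximalIdeal_eq _ _ lamb).1 hlambRG)
    refine s36i_third DA V hqV hlamV hlam2V hfrob (Or.inl ?_) hne
    intro z
    rw [ssm_gi_mem_range, ← hmemV, h]
  · -- `V ∩ β E1 = RU`
    have hlam2V : lam2 ∈ V := by
      rw [e_lam2, ← hmemV, h, ValuationSubring.mem_comap]
      show s36i_Wb q E1 W1 (s36i_Wb q E1 W1 lamb) ∈ _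
      rw [Dβ.invol]
      exact hlambRG
    refine s36i_third DA V hqV hlamV hlam2V hfrob (Or.inr ?_) hne
    have hf := ssm_tw_frob2 Dβ
    rw [← hlamb, ← h, s36i_nonunits_comap_hom] at hf
    rw [e_lam2, ← e_lam1, ← map_pow, ← map_sub]
    exact hf

end Gauss

end Fermat.Agent.S36
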