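/-
Project S36 (Carayol), cell [V3-INST](i), INSTANCE, LEGENDRE tower (helper26; prefix `s36i_`):
the hypothesis `hz` of `s36vv_main` / `s36v_main` as a CLOSED statement.

Context [LEG-CTX] (`q ∤ 2 N'`), `E₁ = lg_E L (N' q) ≤ E₂ = lg_E L (N' q q)`, `VF = ssm_gl_V1` the
Gauss valuation subring of `E₁`, `VA = s36i_VA` the Gauss valuation subring of `E₂`:

* `s36i_leg_overA`  : `VA` lies over `VF`;
* `s36i_leg_q_mem`  : `q ∈ 𝔪(VF)`;
* `s36i_leg_third`  : for EVERY valuation subring `V ≠ VA` of `E₂` over `VF`: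
                      `λ(X^{q q}) - λ ∈ 𝔪(V)`;
* `s36i_leg_third_ideal` : the ideal form (`hz` of `s36v_main` for `S = integralClosure VF E₂`).
-/
import Mathlib
import Fermat.Agent.S36.Ins1.LegB
import Fermat.Agent.S36.Ins1.ThirdGauss

set_option autoImplicit false
set_option linter.unusedSectionVars false
set_option linter.unusedVariables false
set_option linter.style.haveILetI false

noncomputable section

open ModularCurve IntermediateField IsLocalRing
open Fermat.Agent.JT3 Fermat.Agent.SS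

namespace Fermat.Agent.S36

section ThirdLeg

variable {L : Type*} [Field L] [CharZero L] [Algebra L (AlgebraicClosure ℚ)]
  (O : ValuationSubring L) [IsDiscreteValuationRing O] {π : O} (hπ : Irreducible π)
variable (N' q : ℕ) [NeZero N'] [NeZero q] [hq : Fact q.Prime] [CharP (ResidueField O) q]
  (hq2 : ¬ 2 ∣ q) (hqN' : ¬ q ∣ N')

/-- `VA` lies over `VF`. -/
theorem s36i_leg_overA :
    letI := ssm_gi_algebra (ssm_al_E_le L (N' * q) q)
    letI := ssm_gi_algebraV (ssm_al_E_le L (N' * q) q) (ssm_gl_V1 O hπ N' q)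
    ssm_tw_Over ↥(lg_E L (N' * q)) ↥(ssm_gl_V1 O hπ N' q) (s36i_VA O hπ (N' * q) q) :=
  s36i_gauss_over O hπ (lg_E L (N' * q)) (lg_E L (N' * q * q)) (ssm_al_E_le L (N' * q) q)
    (ssm_ga_E_le_quotField O (N' * q * q))

/-- `q ∈ 𝔪(VF)`. -/
theorem s36i_leg_q_mem :
    ((q : ℕ) : ↥(ssm_gl_V1 O hπ N' q)) ∈ maximalIdeal ↥(ssm_gl_V1 O hπ N' q) :=
  ssm_gi_q_mem O hπ q (lg_E L (N' * q)) (ssm_ga_E_le_quotField O (N' * q))

include hqN' in
/-- **[V3-INST](i), Legendre**: `λ(X^{q q}) - λ` lies in the maximal ideal of every valuation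
subring of `E₂` over `VF` except the Gauss valuation `VA`. -/
theorem s36i_leg_third (V : ValuationSubring ↥(lg_E L (N' * q * q)))
    (hV :
      letI := ssm_gi_algebra (ssm_al_E_le L (N' * q) q)
      letI := ssm_gi_algebraV (ssm_al_E_le L (N' * q) q) (ssm_gl_V1 O hπ N' q)
      ssm_tw_Over ↥(lg_E L (N' * q)) ↥(ssm_gl_V1 O hπ N' q) V)
    (hne : V ≠ s36i_VA O hπ (N' * q) q) :
    s36i_lam2 L N' q hq2 - lg_lamE (N' * q * q) ∈ V.nonunits :=
  s36i_gauss_third O hπ q (lg_E L N') (lg_E L (N' * q)) (lg_E L (N' * q * q))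
    (ssm_al_E_le L N' q) (ssm_al_E_le L (N' * q) q) (ssm_ga_E_le_quotField O (N' * q * q))
    (ssm_al_E_beta_le L N' q hq2) (ssm_al_E_beta_le L (N' * q) q hq2)
    (ssm_gl_W L N' q hq2 hqN')
    (fun z => ssm_al_coe_WE_of_mem L N' q hq.out hq2 hqN' z.2 _)
    (ssm_gl_lam O hπ N' q) (ssm_gl_data O hπ N' q hq2 hqN')
    (s36i_leg_dataA O hπ (N' * q) q hq2 (Dvd.intro_left N' rfl)) V hV hne
    (lg_lamE (N' * q * q)) (s36i_lam2 L N' q hq2) rfl rfl

end ThirdLeg

end Fermat.Agent.S36
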