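/-
Project S36 (Carayol), cell [M2] / [L2], abstract part (helper26; prefix `s36i_`):
TRANSPORT OF ONE SIDE OF THE TOWER (`s36at_Side`, S36/ATower/Side.lean) along a compatible
quadruple of ring isomorphisms `W : E ≃+* E₂`, `w0 : K ≃+* K₂`, `wR : R ≃+* R₂`,
`wR' : R' ≃+* R₂'`.

* `s36i_over_transport`   : `V` over `R` ⟹ `V.comap W⁻¹` over `R₂`;
* `s36i_icEquiv`          : `integralClosure R E ≃+* integralClosure R₂ E₂`;
* `s36i_centre_map`       : the image of the centre of `V` is the centre of `V.comap W⁻¹`;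
* `s36i_norm_transport`   : `N_{E₂/K₂}(W z) = w0 (N_{E/K} z)`;
* `s36i_side_transport`   : `s36at_Side K R R' q VX VY VC π π' z t r →
      s36at_Side K₂ R₂ R₂' q (VX.comap W⁻¹) (VY.comap W⁻¹) (VC.comap W⁻¹) (wR π) (wR' π') (W z) (W t)
        (wR' r)`.

Application: side 2 of `s36at_Tower` is the `W₂`-mirror of side 1
(`(K, R, R') = (E₁, VF, VV)`, `(K₂, R₂, R₂') = (β E₁, RU, RG)`, `W = W₂`).
-/
import Mathlib
import Fermat.Agent.S36.ATower.Side
import Fermat.Agent.S36.Val3Hyp
import Fermat.Agent.S36.Ins1.TwTransport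

set_option autoImplicit false
set_option linter.unusedSectionVars false
set_option linter.unusedVariables false
set_option linter.style.haveILetI false

open Fermat.Agent.JT3 Fermat.Agent.SS IsLocalRing

namespace Fermat.Agent.S36

section SideTransport

variable {K E R : Type*} [Field K] [Field E] [Algebra K E]
  [CommRing R] [IsDomain R] [IsDiscreteValuationRing R] [Algebra R K] [IsFractionRing R K]
  [Algebra R E] [IsScalarTower R K E]
variable {K₂ E₂ R₂ : Type*} [Field K₂] [Field E₂] [Algebra K₂ E₂]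
  [CommRing R₂] [IsDomain R₂] [IsDiscreteValuationRing R₂] [Algebra R₂ K₂] [IsFractionRing R₂ K₂]
  [Algebra R₂ E₂] [IsScalarTower R₂ K₂ E₂]

/-- membership in the push-forward `V.comap W⁻¹` of a valuation subring. -/
theorem s36i_mem_comap_symm (W : E ≃+* E₂) (V : ValuationSubring E) (a : E) :
    W a ∈ V.comap (W.symm : E₂ →+* E) ↔ a ∈ V := by
  rw [ValuationSubring.mem_comap]
  show W.symm (W a) ∈ V ↔ _
  rw [RingEquiv.symm_apply_apply]

/-- the maximal ideal of the push-forward `V.comap W⁻¹`. -/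
theorem s36i_nonunits_comap_symm (W : E ≃+* E₂) (V : ValuationSubring E) (a : E) :
    W a ∈ (V.comap (W.symm : E₂ →+* E)).nonunits ↔ a ∈ V.nonunits := by
  rw [s36i_nonunits_comap', RingEquiv.symm_apply_apply]

/-- the compatibility `R → E` from the two compatibilities `R → K → E`. -/
theorem s36i_compat_RE (W : E ≃+* E₂) (w0 : K ≃+* K₂) (wR : R ≃+* R₂)
    (hW : ∀ x : K, W (algebraMap K E x) = algebraMap K₂ E₂ (w0 x))
    (hw : ∀ r : R, w0 (algebraMap R K r) = algebraMap R₂ K₂ (wR r)) (r : R) :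
    W (algebraMap R E r) = algebraMap R₂ E₂ (wR r) := by
  rw [IsScalarTower.algebraMap_apply R K E, hW, hw, ← IsScalarTower.algebraMap_apply R₂ K₂ E₂]

/-- `V` over `R` ⟹ `V.comap W⁻¹` over `R₂`. -/
theorem s36i_over_transport (W : E ≃+* E₂) (w0 : K ≃+* K₂) (wR : R ≃+* R₂)
    (hW : ∀ x : K, W (algebraMap K E x) = algebraMap K₂ E₂ (w0 x))
    (hw : ∀ r : R, w0 (algebraMap R K r) = algebraMap R₂ K₂ (wR r))
    {V : ValuationSubring E} (hV : ssm_tw_Over K R V) :
    ssm_tw_Over K₂ R₂ (V.comap (W.symm : E₂ →+* E)) := by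
  intro z'
  obtain ⟨z, rfl⟩ := w0.surjective z'
  rw [s36i_range_iff w0 wR hw, ← hV z, ← hW, s36i_mem_comap_symm]

/-- the isomorphism of the integral closures. -/
noncomputable def s36i_icEquiv (W : E ≃+* E₂) (wR : R ≃+* R₂)
    (hWR : ∀ r : R, W (algebraMap R E r) = algebraMap R₂ E₂ (wR r)) :
    ↥(integralClosure R E) ≃+* ↥(integralClosure R₂ E₂) where
  toFun x := ⟨W x.1, IsIntegral.map_of_comp_eq (wR : R →+* R₂) (W : E →+* E₂)
    (by ext r; exact (hWR r).symm) x.2⟩
  invFun y := ⟨W.symm y.1, IsIntegral.map_of_comp_eq (wR.symm : R₂ →+* R) (W.symm : E₂ →+* E)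
    (by
      ext r
      show algebraMap R E (wR.symm r) = W.symm (algebraMap R₂ E₂ r)
      apply W.injective
      rw [hWR, RingEquiv.apply_symm_apply, RingEquiv.apply_symm_apply]) y.2⟩
  left_inv x := Subtype.ext (W.symm_apply_apply x.1)
  right_inv y := Subtype.ext (W.apply_symm_apply y.1)
  map_mul' x y := Subtype.ext (map_mul W x.1 y.1)
  map_add' x y := Subtype.ext (map_add W x.1 y.1)

@[simp] theorem s36i_coe_icEquiv (W : E ≃+* E₂) (wR : R ≃+* R₂)
    (hWR : ∀ r : R, W (algebraMap R E r) = algebraMap R₂ E₂ (wR r))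
    (x : ↥(integralClosure R E)) :
    ((s36i_icEquiv W wR hWR x : ↥(integralClosure R₂ E₂)) : E₂) = W x.1 := rfl

/-- the image of `𝔪_R` is `𝔪_{R₂}`. -/
theorem s36i_map_maximalIdeal (wR : R ≃+* R₂) :
    (maximalIdeal R).map (wR : R →+* R₂) = maximalIdeal R₂ := by
  ext y
  show y ∈ Ideal.map wR (maximalIdeal R) ↔ _
  rw [Ideal.mem_map_of_equiv]
  constructor
  · rintro ⟨x, hx, rfl⟩
    rw [mem_maximalIdeal, mem_nonunits_iff] at hx ⊢
    intro hu
    apply hx
    have := hu.map wR.symm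
    rwa [RingEquiv.symm_apply_apply] at this
  · intro hy
    refine ⟨wR.symm y, ?_, wR.apply_symm_apply y⟩
    rw [mem_maximalIdeal, mem_nonunits_iff] at hy ⊢
    intro hu
    apply hy
    have := hu.map wR
    rwa [RingEquiv.apply_symm_apply] at this

end SideTransport

section SideTransport2

variable {K E R : Type*} [Field K] [Field E] [Algebra K E] [FiniteDimensional K E]
  [Algebra.IsSeparable K E]
  [CommRing R] [IsDomain R] [IsDiscreteValuationRing R] [Algebra R K] [IsFractionRing R K]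
  [Algebra R E] [IsScalarTower R K E]
variable {K₂ E₂ R₂ : Type*} [Field K₂] [Field E₂] [Algebra K₂ E₂] [FiniteDimensional K₂ E₂]
  [Algebra.IsSeparable K₂ E₂]
  [CommRing R₂] [IsDomain R₂] [IsDiscreteValuationRing R₂] [Algebra R₂ K₂] [IsFractionRing R₂ K₂]
  [Algebra R₂ E₂] [IsScalarTower R₂ K₂ E₂]

/-- **the image of the centre of `V` is the centre of `V.comap W⁻¹`.** -/
theorem s36i_centre_map (W : E ≃+* E₂) (w0 : K ≃+* K₂) (wR : R ≃+* R₂)
    (hW : ∀ x : K, W (algebraMap K E x) = algebraMap K₂ E₂ (w0 x))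
    (hw : ∀ r : R, w0 (algebraMap R K r) = algebraMap R₂ K₂ (wR r))
    {V : ValuationSubring E} (hV : ssm_tw_Over K R V)
    (hV' : ssm_tw_Over K₂ R₂ (V.comap (W.symm : E₂ →+* E))) :
    (ssm_tw_centre K R V hV).map (s36i_icEquiv W wR (s36i_compat_RE W w0 wR hW hw)) =
      ssm_tw_centre K₂ R₂ (V.comap (W.symm : E₂ →+* E)) hV' := by
  ext y
  rw [Ideal.mem_map_of_equiv, ssm_tw_mem_centre]
  constructor
  · rintro ⟨x, hx, rfl⟩
    rw [s36i_coe_icEquiv, s36i_nonunits_comap_symm]
    exact (ssm_tw_mem_centre hV x).1 hx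
  · intro hy
    refine ⟨(s36i_icEquiv W wR (s36i_compat_RE W w0 wR hW hw)).symm y, ?_,
      RingEquiv.apply_symm_apply _ y⟩
    rw [ssm_tw_mem_centre]
    have e : (y : E₂) = W (((s36i_icEquiv W wR (s36i_compat_RE W w0 wR hW hw)).symm y :
        ↥(integralClosure R E)) : E) := by
      rw [← s36i_coe_icEquiv W wR (s36i_compat_RE W w0 wR hW hw), RingEquiv.apply_symm_apply]
    rw [e, s36i_nonunits_comap_symm] at hy
    exact hy

/-- the image of `𝔪_R S` is `𝔪_{R₂} S₂`. -/
theorem s36i_map_map_maximalIdeal (W : E ≃+* E₂) (wR : R ≃+* R₂)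
    (hWR : ∀ r : R, W (algebraMap R E r) = algebraMap R₂ E₂ (wR r)) :
    ((maximalIdeal R).map (algebraMap R ↥(integralClosure R E))).map
        (s36i_icEquiv W wR hWR) =
      (maximalIdeal R₂).map (algebraMap R₂ ↥(integralClosure R₂ E₂)) := by
  rw [← s36i_map_maximalIdeal wR]
  show Ideal.map ((s36i_icEquiv W wR hWR : ↥(integralClosure R E) →+* ↥(integralClosure R₂ E₂)))
    (Ideal.map (algebraMap R ↥(integralClosure R E)) (maximalIdeal R)) = _
  rw [Ideal.map_map, Ideal.map_map]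
  congr 1
  ext r
  exact hWR r

/-- `N_{E₂/K₂}(W z) = w0 (N_{E/K} z)`. -/
theorem s36i_norm_transport (W : E ≃+* E₂) (w0 : K ≃+* K₂)
    (hW : ∀ x : K, W (algebraMap K E x) = algebraMap K₂ E₂ (w0 x)) (z : E) :
    Algebra.norm K₂ (W z) = w0 (Algebra.norm K z) := by
  have h := Algebra.norm_eq_of_equiv_equiv w0 W (by ext x; exact (hW x).symm) z
  rw [h, RingEquiv.apply_symm_apply]

/-- `v(u) = 1 ↔ u ∈ V ∖ 𝔪(V)`. -/
theorem s36i_val_one_iff (V : ValuationSubring E) (u : E) :
    V.valuation u = 1 ↔ u ∈ V ∧ u ∉ V.nonunits := by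
  rw [ValuationSubring.mem_nonunits_iff, ← V.valuation_le_one_iff, not_lt]
  exact ⟨fun h => ⟨h.le, h.ge⟩, fun h => le_antisymm h.1 h.2⟩

/-- units of the push-forward. -/
theorem s36i_val_one_comap_symm (W : E ≃+* E₂) (V : ValuationSubring E) (u : E) :
    (V.comap (W.symm : E₂ →+* E)).valuation (W u) = 1 ↔ V.valuation u = 1 := by
  rw [s36i_val_one_iff, s36i_val_one_iff, s36i_mem_comap_symm, s36i_nonunits_comap_symm]

variable {R' : Type*} [CommRing R'] [IsDomain R'] [IsDiscreteValuationRing R'] [Algebra R' K]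
  [IsFractionRing R' K] [Algebra R' E] [IsScalarTower R' K E]
variable {R₂' : Type*} [CommRing R₂'] [IsDomain R₂'] [IsDiscreteValuationRing R₂']
  [Algebra R₂' K₂] [IsFractionRing R₂' K₂] [Algebra R₂' E₂] [IsScalarTower R₂' K₂ E₂]

/-- **transport of one side of the tower** along compatible ring isomorphisms. -/
theorem s36i_side_transport (W : E ≃+* E₂) (w0 : K ≃+* K₂) (wR : R ≃+* R₂) (wR' : R' ≃+* R₂')
    (hW : ∀ x : K, W (algebraMap K E x) = algebraMap K₂ E₂ (w0 x))
    (hw : ∀ r : R, w0 (algebraMap R K r) = algebraMap R₂ K₂ (wR r))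
    (hw' : ∀ r : R', w0 (algebraMap R' K r) = algebraMap R₂' K₂ (wR' r))
    {q : ℕ} {VX VY VC : ValuationSubring E} {π : R} {π' : R'} {z t : E} {r : R'}
    (S : s36at_Side K R R' q VX VY VC π π' z t r) :
    s36at_Side K₂ R₂ R₂' q (VX.comap (W.symm : E₂ →+* E)) (VY.comap (W.symm : E₂ →+* E))
      (VC.comap (W.symm : E₂ →+* E)) (wR π) (wR' π') (W z) (W t) (wR' r) := by
  have hWR := s36i_compat_RE W w0 wR hW hw
  have hX' := s36i_over_transport W w0 wR hW hw S.overX
  have hC' := s36i_over_transport W w0 wR hW hw S.overC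
  have hcX := s36i_centre_map W w0 wR hW hw S.overX hX'
  have hcC := s36i_centre_map W w0 wR hW hw S.overC hC'
  have hWs : ∀ x : K₂, W.symm (algebraMap K₂ E₂ x) = algebraMap K E (w0.symm x) := by
    intro x
    apply W.injective
    rw [RingEquiv.apply_symm_apply, hW, RingEquiv.apply_symm_apply]
  have hws : ∀ r : R₂', w0.symm (algebraMap R₂' K₂ r) = algebraMap R' K (wR'.symm r) := by
    intro r
    apply w0.injective
    rw [RingEquiv.apply_symm_apply, hw', RingEquiv.apply_symm_apply]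
  have hres : ∀ {V : ValuationSubring E},
      (∀ a ∈ V, ∃ r0 : R, a - algebraMap R E r0 ∈ V.nonunits) →
      ∀ a ∈ V.comap (W.symm : E₂ →+* E), ∃ r0 : R₂,
        a - algebraMap R₂ E₂ r0 ∈ (V.comap (W.symm : E₂ →+* E)).nonunits := by
    intro V h a ha
    obtain ⟨r0, hr0⟩ := h (W.symm a) ha
    refine ⟨wR r0, ?_⟩
    have e : a - algebraMap R₂ E₂ (wR r0) = W (W.symm a - algebraMap R E r0) := by
      rw [map_sub, RingEquiv.apply_symm_apply, hWR]
    rw [e, s36i_nonunits_comap_symm]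
    exact hr0
  refine
    { two_le := S.two_le
      finrank_eq := ?_
      irr := (MulEquiv.irreducible_iff wR).2 S.irr
      irr' := (MulEquiv.irreducible_iff wR').2 S.irr'
      overX := hX'
      overC := hC'
      ne := ?_
      map_eq := ?_
      fX := s36vh_inertiaDeg_one hX' (hres S.resX)
      fC := s36vh_inertiaDeg_one hC' (hres S.resC)
      dataY := s36i_data_transport W.symm w0.symm wR'.symm hWs hws S.dataY (W t)
        (W.symm_apply_apply t) (wR' r) (wR'.symm_apply_apply r)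
      unifC := ⟨?_, (s36i_nonunits_comap_symm W VC z).2 S.unifC.mem, ?_⟩
      zX := (s36i_val_one_comap_symm W VX z).2 S.zX
      ram := ?_
      normz := ?_ }
  · rw [← S.finrank_eq]
    refine (Algebra.finrank_eq_of_equiv_equiv w0 W ?_).symm
    ext x
    exact (hW x).symm
  · intro h
    apply S.ne_XC
    have h2 := ssm_tw_eq_of_centre_eq hX' hC' h
    ext a
    rw [← s36i_mem_comap_symm W VX a, ← s36i_mem_comap_symm W VC a, h2]
  · rw [← hcX, ← hcC, ← Ideal.map_pow, ← Ideal.map_mul, ← S.map_eq,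
      s36i_map_map_maximalIdeal]
  · intro h0
    exact S.unifC.ne_zero ((map_eq_zero_iff W W.injective).1 h0)
  · intro a ha
    rw [s36i_nonunits_comap'] at ha
    obtain ⟨b, hb, hab⟩ := S.unifC.gen _ ha
    refine ⟨W b, (s36i_mem_comap_symm W VC b).2 hb, ?_⟩
    rw [← map_mul, ← hab]
    exact (W.apply_symm_apply a).symm
  · obtain ⟨u, hu, hπu⟩ := S.ram
    refine ⟨W u, (s36i_val_one_comap_symm W VC u).2 hu, ?_⟩
    rw [← hWR, hπu, map_mul, map_pow]
  · obtain ⟨c, w, hc, hcw⟩ := S.normz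
    refine ⟨wR c, wR w, ?_, ?_⟩
    · intro hmem
      apply hc
      have hirr₂ : Irreducible (wR π) := (MulEquiv.irreducible_iff wR).2 S.irr
      rw [hirr₂.maximalIdeal_eq, Ideal.span_singleton_pow, Ideal.mem_span_singleton,
        ← map_pow, map_dvd_iff] at hmem
      rw [S.irr.maximalIdeal_eq, Ideal.span_singleton_pow, Ideal.mem_span_singleton]
      exact hmem
    · rw [s36i_norm_transport W w0 hW, ← hw, ← hw, ← map_mul, hcw]

omit [FiniteDimensional K₂ E₂] [Algebra.IsSeparable K₂ E₂] in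
/-- `VY ≠ VC`: the residue field of `VY` is bigger than that of `R'`, that of `VC` is that of
`R`. -/
theorem s36i_side_ne_YC {q : ℕ} {VX VY VC : ValuationSubring E} {π : R} {π' : R'} {z t : E}
    {r : R'} (S : s36at_Side K R R' q VX VY VC π π' z t r) : VY ≠ VC := by
  intro h
  have D := S.dataY
  have htC : t ∈ VC := by rw [← h]; exact D.t_mem
  obtain ⟨r0, hr0⟩ := S.resC t htC
  have h1 : algebraMap K E (algebraMap R K r0) ∈ VY := by
    rw [h, ← IsScalarTower.algebraMap_apply R K E]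
    exact ssm_tw_over_mem S.overC r0
  obtain ⟨r1, hr1⟩ := (D.overR _).1 h1
  apply D.nres r1
  rw [IsScalarTower.algebraMap_apply R' K E, hr1, ← IsScalarTower.algebraMap_apply R K E, h]
  exact hr0

/-- an involution is its own inverse. -/
theorem s36i_symm_eq_of_invol {F : Type*} [Field F] (W : F ≃+* F) (h : ∀ y, W (W y) = y) :
    W.symm = W := by
  ext y
  apply W.injective
  rw [RingEquiv.apply_symm_apply, h]

end SideTransport2

end Fermat.Agent.S36
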