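/-
Project S36 (Carayol), cell [M2] / [L2], INSTANCE layer, generic Gauss part (helper26; prefix
`s36i_`): SIDE 2 OF THE TOWER IS THE `W₂`-MIRROR OF SIDE 1.

Context of `S36/Ins1/RestrGauss.lean` (mirror section): `E1 ≤ E2 ≤ Quot(O((X)))` inside `L((X))`,
`β E1 ≤ E2`, `W₁` an involution of `E1`, `W₂` an involution of `E2` with
`W₂ y = (W₁ y)(X^q)` on `E1`.  `VF = Gauss(E1)`, `VV = W₁(VF)` on `E1`; `RG = Gauss(β E1)`,
`RU = s36i_gRU = β(VV)` on `β E1`; `VA = Gauss(E2)`, `VB = W₂(VA)`.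

* `s36i_gw0`   : `E1 ≃ β E1`, `y ↦ (W₁ y)(X^q)` (the restriction of `W₂`);
* `s36i_gwRF`  : `VF ≃ RU`;   `s36i_gwRV` : `VV ≃ RG`   (restrictions of `s36i_gw0`);
* `s36i_gauss_side2` : from side 1 `s36at_Side E1 VF VV q VA VB VC …`, the uniqueness
  `∀ V over VF, V = VA ∨ V = VC` and `VC` over `RU`:
  side 2 `s36at_Side (β E1) RU RG q VB VA VC …`.
-/
import Mathlib
import Fermat.Agent.S36.Ins1.SideTransport
import Fermat.Agent.S36.Ins1.RestrGauss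

set_option autoImplicit false
set_option linter.unusedSectionVars false
set_option linter.unusedVariables false
set_option linter.style.haveILetI false

noncomputable section

open ModularCurve IntermediateField IsLocalRing
open Fermat.Agent.JT3 Fermat.Agent.SS

namespace Fermat.Agent.S36

section Mirror

variable {L : Type*} [Field L] [CharZero L] (O : ValuationSubring L) [IsDiscreteValuationRing O]
  {π : O} (hπ : Irreducible π)
variable (q : ℕ) [NeZero q] [hq : Fact q.Prime] [CharP (ResidueField O) q]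
variable (E1 E2 : IntermediateField L (LaurentSeries L))
variable (h12 : E1 ≤ E2) (hE2 : E2 ≤ gq_quotField O L)
  (hb12 : E1.map (qExpandAlgHomC L q) ≤ E2)
variable (W1 : ↥E1 ≃+* ↥E1) (hW1W1 : ∀ y, W1 (W1 y) = y)
  (W2 : ↥E2 ≃+* ↥E2) (hW2W2 : ∀ y, W2 (W2 y) = y)
  (hW2 : ∀ y : ↥E1, ((W2 (IntermediateField.inclusion h12 y) : ↥E2) : LaurentSeries L) =
    qExpand L q ((W1 y : ↥E1) : LaurentSeries L))

/-- `E1 ≃ β E1`, `y ↦ (W₁ y)(X^q)`. -/
abbrev s36i_gw0 : ↥E1 ≃+* ↥(E1.map (qExpandAlgHomC L q)) := W1.trans (s36i_bEquiv q E1)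

include hW1W1 in
/-- `y ∈ VF ↔ (W₁ y)(X^q) ∈ RU`. -/
theorem s36i_mem_gF_iff (hE1 : E1 ≤ gq_quotField O L) (y : ↥E1) :
    y ∈ gq_valSubOf π hπ.ne_zero hπ.maximalIdeal_eq E1 hE1 ↔
      s36i_gw0 q E1 W1 y ∈ s36i_gRU O hπ q E1 hE1 W1 := by
  rw [s36i_mem_gRU, gq_mem_valSubOf]
  show _ ↔ gq_IsBdd (↥O) L
    ((W1 ((s36i_bEquiv q E1).symm (s36i_bEquiv q E1 (W1 y))) : ↥E1) : LaurentSeries L)
  rw [RingEquiv.symm_apply_apply, hW1W1]

/-- `y ∈ VV ↔ (W₁ y)(X^q) ∈ RG`. -/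
theorem s36i_mem_gV_iff (hE1 : E1 ≤ gq_quotField O L) (y : ↥E1) :
    y ∈ (gq_valSubOf π hπ.ne_zero hπ.maximalIdeal_eq E1 hE1).comap (W1 : ↥E1 →+* ↥E1) ↔
      s36i_gw0 q E1 W1 y ∈ gq_valSubOf π hπ.ne_zero hπ.maximalIdeal_eq
        (E1.map (qExpandAlgHomC L q)) (s36i_map_le_quot O q E1 hE1) := by
  rw [ValuationSubring.mem_comap]
  exact s36i_mem_gauss_iff O hπ q E1 hE1 (s36i_map_le_quot O q E1 hE1) (W1 y)

/-- `VF ≃ RU`. -/
def s36i_gwRF (hE1 : E1 ≤ gq_quotField O L) :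
    ↥(gq_valSubOf π hπ.ne_zero hπ.maximalIdeal_eq E1 hE1) ≃+* ↥(s36i_gRU O hπ q E1 hE1 W1) :=
  s36i_valEquiv _ _ (s36i_gw0 q E1 W1) (s36i_mem_gF_iff O hπ q E1 W1 hW1W1 hE1)

/-- `VV ≃ RG`. -/
def s36i_gwRV (hE1 : E1 ≤ gq_quotField O L) :
    ↥((gq_valSubOf π hπ.ne_zero hπ.maximalIdeal_eq E1 hE1).comap (W1 : ↥E1 →+* ↥E1)) ≃+*
      ↥(gq_valSubOf π hπ.ne_zero hπ.maximalIdeal_eq (E1.map (qExpandAlgHomC L q))
        (s36i_map_le_quot O q E1 hE1)) :=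
  s36i_valEquiv _ _ (s36i_gw0 q E1 W1) (s36i_mem_gV_iff O hπ q E1 W1 hE1)

include hW2 in
/-- the compatibility of `W₂` with `s36i_gw0`. -/
theorem s36i_gw0_compat (x : ↥E1) :
    letI := ssm_gi_algebra h12
    letI := ssm_gi_algebra hb12
    W2 (algebraMap ↥E1 ↥E2 x) =
      algebraMap ↥(E1.map (qExpandAlgHomC L q)) ↥E2 (s36i_gw0 q E1 W1 x) :=
  Subtype.ext (hW2 x)

include hW1W1 hW2W2 hW2 in
/-- `W₂(VC) = VC` for the third valuation subring. -/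
theorem s36i_gauss_W2_VC (VC : ValuationSubring ↥E2)
    (hVCU :
      letI := ssm_gi_algebra hb12
      letI := ssm_gi_algebraV hb12 (s36i_gRU O hπ q E1 (h12.trans hE2) W1)
      ssm_tw_Over ↥(E1.map (qExpandAlgHomC L q)) ↥(s36i_gRU O hπ q E1 (h12.trans hE2) W1) VC)
    (honly :
      letI := ssm_gi_algebra h12
      letI := ssm_gi_algebraV h12 (gq_valSubOf π hπ.ne_zero hπ.maximalIdeal_eq E1 (h12.trans hE2))
      ∀ V : ValuationSubring ↥E2,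
        ssm_tw_Over ↥E1 ↥(gq_valSubOf π hπ.ne_zero hπ.maximalIdeal_eq E1 (h12.trans hE2)) V →
        V = gq_valSubOf π hπ.ne_zero hπ.maximalIdeal_eq E2 hE2 ∨ V = VC)
    (hneB : VC ≠ (gq_valSubOf π hπ.ne_zero hπ.maximalIdeal_eq E2 hE2).comap
      (W2 : ↥E2 →+* ↥E2)) :
    VC.comap (W2 : ↥E2 →+* ↥E2) = VC := by
  have h1 := s36i_gauss_comap_W2' O hπ q E1 E2 h12 hE2 hb12 W1 hW1W1 W2 hW2 VC hVCU
  rcases honly _ h1 with h | h
  · exfalso
    apply hneB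
    rw [← h]
    ext a
    rw [ValuationSubring.mem_comap, ValuationSubring.mem_comap]
    show _ ↔ W2 (W2 a) ∈ VC
    rw [hW2W2]
  · exact h

include hW1W1 hW2W2 hW2 in
/-- **side 2 of the tower from side 1**, generic Gauss form. -/
theorem s36i_gauss_side2 {VC : ValuationSubring ↥E2}
    {πF : ↥(gq_valSubOf π hπ.ne_zero hπ.maximalIdeal_eq E1 (h12.trans hE2))}
    {πV : ↥((gq_valSubOf π hπ.ne_zero hπ.maximalIdeal_eq E1 (h12.trans hE2)).comap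
      (W1 : ↥E1 →+* ↥E1))}
    {z t : ↥E2}
    {r : ↥((gq_valSubOf π hπ.ne_zero hπ.maximalIdeal_eq E1 (h12.trans hE2)).comap
      (W1 : ↥E1 →+* ↥E1))} :
    letI := ssm_gi_algebra h12
    letI := ssm_gi_algebraV h12 (gq_valSubOf π hπ.ne_zero hπ.maximalIdeal_eq E1 (h12.trans hE2))
    letI := ssm_gi_algebraV h12
      ((gq_valSubOf π hπ.ne_zero hπ.maximalIdeal_eq E1 (h12.trans hE2)).comap
        (W1 : ↥E1 →+* ↥E1))
    letI := ssm_gi_algebra hb12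
    letI := ssm_gi_algebraV hb12 (s36i_gRU O hπ q E1 (h12.trans hE2) W1)
    letI := ssm_gi_algebraV hb12
      (gq_valSubOf π hπ.ne_zero hπ.maximalIdeal_eq (E1.map (qExpandAlgHomC L q))
        (s36i_map_le_quot O q E1 (h12.trans hE2)))
    haveI := ssm_gi_isScalarTower h12
      (gq_valSubOf π hπ.ne_zero hπ.maximalIdeal_eq E1 (h12.trans hE2))
    haveI := ssm_gi_isScalarTower h12
      ((gq_valSubOf π hπ.ne_zero hπ.maximalIdeal_eq E1 (h12.trans hE2)).comap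
        (W1 : ↥E1 →+* ↥E1))
    haveI := ssm_gi_isScalarTower hb12 (s36i_gRU O hπ q E1 (h12.trans hE2) W1)
    haveI := ssm_gi_isScalarTower hb12
      (gq_valSubOf π hπ.ne_zero hπ.maximalIdeal_eq (E1.map (qExpandAlgHomC L q))
        (s36i_map_le_quot O q E1 (h12.trans hE2)))
    haveI : IsDiscreteValuationRing
        ↥((gq_valSubOf π hπ.ne_zero hπ.maximalIdeal_eq E1 (h12.trans hE2)).comap
          (W1 : ↥E1 →+* ↥E1)) := s36i_comap_isDVR _ W1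
    haveI : IsDiscreteValuationRing ↥(s36i_gRU O hπ q E1 (h12.trans hE2) W1) :=
      s36i_gRU_isDVR O hπ q E1 (h12.trans hE2) W1
    ∀ [FiniteDimensional ↥E1 ↥E2] [Algebra.IsSeparable ↥E1 ↥E2]
      [FiniteDimensional ↥(E1.map (qExpandAlgHomC L q)) ↥E2]
      [Algebra.IsSeparable ↥(E1.map (qExpandAlgHomC L q)) ↥E2],
      s36at_Side ↥E1 ↥(gq_valSubOf π hπ.ne_zero hπ.maximalIdeal_eq E1 (h12.trans hE2))
        ↥((gq_valSubOf π hπ.ne_zero hπ.maximalIdeal_eq E1 (h12.trans hE2)).comap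
          (W1 : ↥E1 →+* ↥E1)) q
        (gq_valSubOf π hπ.ne_zero hπ.maximalIdeal_eq E2 hE2)
        ((gq_valSubOf π hπ.ne_zero hπ.maximalIdeal_eq E2 hE2).comap (W2 : ↥E2 →+* ↥E2))
        VC πF πV z t r →
      (∀ V : ValuationSubring ↥E2,
        ssm_tw_Over ↥E1 ↥(gq_valSubOf π hπ.ne_zero hπ.maximalIdeal_eq E1 (h12.trans hE2)) V →
        V = gq_valSubOf π hπ.ne_zero hπ.maximalIdeal_eq E2 hE2 ∨ V = VC) →
      ssm_tw_Over ↥(E1.map (qExpandAlgHomC L q)) ↥(s36i_gRU O hπ q E1 (h12.trans hE2) W1) VC →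
      s36at_Side ↥(E1.map (qExpandAlgHomC L q)) ↥(s36i_gRU O hπ q E1 (h12.trans hE2) W1)
        ↥(gq_valSubOf π hπ.ne_zero hπ.maximalIdeal_eq (E1.map (qExpandAlgHomC L q))
          (s36i_map_le_quot O q E1 (h12.trans hE2))) q
        ((gq_valSubOf π hπ.ne_zero hπ.maximalIdeal_eq E2 hE2).comap (W2 : ↥E2 →+* ↥E2))
        (gq_valSubOf π hπ.ne_zero hπ.maximalIdeal_eq E2 hE2)
        VC (s36i_gwRF O hπ q E1 W1 hW1W1 (h12.trans hE2) πF)
        (s36i_gwRV O hπ q E1 W1 (h12.trans hE2) πV) (W2 z) (W2 t)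
        (s36i_gwRV O hπ q E1 W1 (h12.trans hE2) r) := by
  letI := ssm_gi_algebra h12
  letI := ssm_gi_algebraV h12 (gq_valSubOf π hπ.ne_zero hπ.maximalIdeal_eq E1 (h12.trans hE2))
  letI := ssm_gi_algebraV h12
    ((gq_valSubOf π hπ.ne_zero hπ.maximalIdeal_eq E1 (h12.trans hE2)).comap
      (W1 : ↥E1 →+* ↥E1))
  letI := ssm_gi_algebra hb12
  letI := ssm_gi_algebraV hb12 (s36i_gRU O hπ q E1 (h12.trans hE2) W1)
  letI := ssm_gi_algebraV hb12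
    (gq_valSubOf π hπ.ne_zero hπ.maximalIdeal_eq (E1.map (qExpandAlgHomC L q))
      (s36i_map_le_quot O q E1 (h12.trans hE2)))
  haveI := ssm_gi_isScalarTower h12
    (gq_valSubOf π hπ.ne_zero hπ.maximalIdeal_eq E1 (h12.trans hE2))
  haveI := ssm_gi_isScalarTower h12
    ((gq_valSubOf π hπ.ne_zero hπ.maximalIdeal_eq E1 (h12.trans hE2)).comap
      (W1 : ↥E1 →+* ↥E1))
  haveI := ssm_gi_isScalarTower hb12 (s36i_gRU O hπ q E1 (h12.trans hE2) W1)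
  haveI := ssm_gi_isScalarTower hb12
    (gq_valSubOf π hπ.ne_zero hπ.maximalIdeal_eq (E1.map (qExpandAlgHomC L q))
      (s36i_map_le_quot O q E1 (h12.trans hE2)))
  haveI : IsDiscreteValuationRing
      ↥((gq_valSubOf π hπ.ne_zero hπ.maximalIdeal_eq E1 (h12.trans hE2)).comap
        (W1 : ↥E1 →+* ↥E1)) := s36i_comap_isDVR _ W1
  haveI : IsDiscreteValuationRing ↥(s36i_gRU O hπ q E1 (h12.trans hE2) W1) :=
    s36i_gRU_isDVR O hπ q E1 (h12.trans hE2) W1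
  intro _ _ _ _ S1 honly hVCU
  have S2 := s36i_side_transport W2 (s36i_gw0 q E1 W1)
    (s36i_gwRF O hπ q E1 W1 hW1W1 (h12.trans hE2)) (s36i_gwRV O hπ q E1 W1 (h12.trans hE2))
    (s36i_gw0_compat q E1 E2 h12 hb12 W1 W2 hW2) (fun _ => rfl) (fun _ => rfl) S1
  have hs : W2.symm = W2 := s36i_symm_eq_of_invol W2 hW2W2
  rw [hs] at S2
  -- `W₂(VB) = VA`
  have e2 : ((gq_valSubOf π hπ.ne_zero hπ.maximalIdeal_eq E2 hE2).comap
      (W2 : ↥E2 →+* ↥E2)).comap (W2 : ↥E2 →+* ↥E2) =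
      gq_valSubOf π hπ.ne_zero hπ.maximalIdeal_eq E2 hE2 := by
    ext a
    rw [ValuationSubring.mem_comap, ValuationSubring.mem_comap]
    show W2 (W2 a) ∈ gq_valSubOf π hπ.ne_zero hπ.maximalIdeal_eq E2 hE2 ↔ _
    rw [hW2W2]
  -- `W₂(VC) = VC`
  have e3 : VC.comap (W2 : ↥E2 →+* ↥E2) = VC := by
    have h1 := s36i_gauss_comap_W2' O hπ q E1 E2 h12 hE2 hb12 W1 hW1W1 W2 hW2 VC hVCU
    rcases honly _ h1 with h | h
    · exfalso
      apply s36i_side_ne_YC S1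
      rw [← h]
      ext a
      rw [ValuationSubring.mem_comap, ValuationSubring.mem_comap]
      show W2 (W2 a) ∈ VC ↔ _
      rw [hW2W2]
    · exact h
  rw [e2, e3] at S2
  exact S2

end Mirror

end Fermat.Agent.S36
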