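/-
Project S36 (Carayol), cell [M2], INSTANCE layer, "same restriction" facts on the `β`-side, generic
Gauss part (helper26; prefix `s36i_`).  Context of `S36/Ins1/ThirdGauss.lean`: a tower
`E0 ≤ E1 ≤ E2 ≤ Quot(O((X)))` inside `L((X))`, `β E0 ≤ E1`, `β E1 ≤ E2`, `W₁` an involution of `E1`
with `W₁ z = z(X^q)` on `E0`, `W₂` an involution of `E2` with `W₂ y = (W₁ y)(X^q)` on `E1`.

* `s36i_gRU`             : `RU := β(W₁ Gauss(E1))`, the second valuation subring of `β E1`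
                           (a DVR, `s36i_gRU_isDVR`);
* `s36i_gauss_cases`     : for `V` over `Gauss(E1)`: `V ∩ β E1` is `Gauss(β E1)` or `RU`;
* `s36i_gauss_overU`     : for `V ≠ Gauss(E2)` over `Gauss(E1)`: `V` lies over `RU`;
* `s36i_gauss_comap_W2`  : `V` over `Gauss(E1)` ⟹ `W₂(V)` over `RU`;
* `s36i_gauss_comap_W2'` : `V` over `RU` ⟹ `W₂(V)` over `Gauss(E1)`;
* `s36i_gauss_overB_U`   : `VB = W₂(Gauss(E2))` lies over `RU`.
-/
import Mathlib
import Fermat.Agent.S36.Ins1.ThirdGauss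

set_option autoImplicit false
set_option linter.unusedSectionVars false
set_option linter.unusedVariables false
set_option linter.style.haveILetI false

noncomputable section

open ModularCurve IntermediateField IsLocalRing
open Fermat.Agent.JT3 Fermat.Agent.SS

namespace Fermat.Agent.S36

section Restr

variable {L : Type*} [Field L] [CharZero L] (O : ValuationSubring L) [IsDiscreteValuationRing O]
  {π : O} (hπ : Irreducible π)
variable (q : ℕ) [NeZero q] [hq : Fact q.Prime] [CharP (ResidueField O) q]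
variable (E0 E1 E2 : IntermediateField L (LaurentSeries L))
variable (h01 : E0 ≤ E1) (h12 : E1 ≤ E2) (hE2 : E2 ≤ gq_quotField O L)
  (hb01 : E0.map (qExpandAlgHomC L q) ≤ E1) (hb12 : E1.map (qExpandAlgHomC L q) ≤ E2)

/-- `RU := β(W₁ Gauss(E1))`, the second valuation subring of `β E1`. -/
abbrev s36i_gRU (hE1 : E1 ≤ gq_quotField O L) (W1 : ↥E1 ≃+* ↥E1) :
    ValuationSubring ↥(E1.map (qExpandAlgHomC L q)) :=
  (gq_valSubOf π hπ.ne_zero hπ.maximalIdeal_eq (E1.map (qExpandAlgHomC L q))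
    (s36i_map_le_quot O q E1 hE1)).comap
    (s36i_Wb q E1 W1 : ↥(E1.map (qExpandAlgHomC L q)) →+* ↥(E1.map (qExpandAlgHomC L q)))

/-- `RU` is a discrete valuation ring. -/
theorem s36i_gRU_isDVR (hE1 : E1 ≤ gq_quotField O L) (W1 : ↥E1 ≃+* ↥E1) :
    IsDiscreteValuationRing ↥(s36i_gRU O hπ q E1 hE1 W1) :=
  s36i_comap_isDVR _ (s36i_Wb q E1 W1)

/-- membership in `RU`. -/
theorem s36i_mem_gRU (hE1 : E1 ≤ gq_quotField O L) (W1 : ↥E1 ≃+* ↥E1)
    (z : ↥(E1.map (qExpandAlgHomC L q))) :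
    z ∈ s36i_gRU O hπ q E1 hE1 W1 ↔
      gq_IsBdd (↥O) L ((W1 ((s36i_bEquiv q E1).symm z) : ↥E1) : LaurentSeries L) := by
  rw [ValuationSubring.mem_comap]
  show s36i_Wb q E1 W1 z ∈ _ ↔ _
  rw [gq_mem_valSubOf]
  show gq_IsBdd (↥O) L (((s36i_bEquiv q E1) (W1 ((s36i_bEquiv q E1).symm z)) :
    ↥(E1.map (qExpandAlgHomC L q))) : LaurentSeries L) ↔ _
  rw [s36i_coe_bEquiv]
  exact ssm_ga_beta_isBdd_iff q π hπ.ne_zero hπ.maximalIdeal_eq
    (hE1 (W1 ((s36i_bEquiv q E1).symm z)).2)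

include hb01 in
/-- for `V` over `Gauss(E1)`: `V ∩ β E1` is `Gauss(β E1)` or `RU`. -/
theorem s36i_gauss_cases (W1 : ↥E1 ≃+* ↥E1)
    (lam0 : ↥(gq_valSubOf π hπ.ne_zero hπ.maximalIdeal_eq E0 (h01.trans (h12.trans hE2))))
    (D01 :
      letI := ssm_gi_algebra h01
      letI := ssm_gi_algebraV h01
        (gq_valSubOf π hπ.ne_zero hπ.maximalIdeal_eq E0 (h01.trans (h12.trans hE2)))
      ssm_tw_Data ↥E0 ↥(gq_valSubOf π hπ.ne_zero hπ.maximalIdeal_eq E0 (h01.trans (h12.trans hE2)))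
        q (gq_valSubOf π hπ.ne_zero hπ.maximalIdeal_eq E1 (h12.trans hE2)) W1 lam0)
    (V : ValuationSubring ↥E2)
    (hV :
      letI := ssm_gi_algebra h12
      letI := ssm_gi_algebraV h12 (gq_valSubOf π hπ.ne_zero hπ.maximalIdeal_eq E1 (h12.trans hE2))
      ssm_tw_Over ↥E1 ↥(gq_valSubOf π hπ.ne_zero hπ.maximalIdeal_eq E1 (h12.trans hE2)) V) :
    V.comap (IntermediateField.inclusion hb12).toRingHom =
        gq_valSubOf π hπ.ne_zero hπ.maximalIdeal_eq (E1.map (qExpandAlgHomC L q))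
          (s36i_map_le_quot O q E1 (h12.trans hE2)) ∨
      V.comap (IntermediateField.inclusion hb12).toRingHom =
        s36i_gRU O hπ q E1 (h12.trans hE2) W1 := by
  letI a01 := ssm_gi_algebra h01
  letI aV01 := ssm_gi_algebraV h01
    (gq_valSubOf π hπ.ne_zero hπ.maximalIdeal_eq E0 (h01.trans (h12.trans hE2)))
  haveI t01 := ssm_gi_isScalarTower h01
    (gq_valSubOf π hπ.ne_zero hπ.maximalIdeal_eq E0 (h01.trans (h12.trans hE2)))
  letI ab01 := ssm_gi_algebra (IntermediateField.map_mono (qExpandAlgHomC L q) h01)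
  letI aVb01 := ssm_gi_algebraV (IntermediateField.map_mono (qExpandAlgHomC L q) h01)
    (gq_valSubOf π hπ.ne_zero hπ.maximalIdeal_eq (E0.map (qExpandAlgHomC L q))
      (s36i_map_le_quot O q E0 (h01.trans (h12.trans hE2))))
  haveI tb01 := ssm_gi_isScalarTower (IntermediateField.map_mono (qExpandAlgHomC L q) h01)
    (gq_valSubOf π hπ.ne_zero hπ.maximalIdeal_eq (E0.map (qExpandAlgHomC L q))
      (s36i_map_le_quot O q E0 (h01.trans (h12.trans hE2))))
  have Dβ := s36i_gauss_twdata O hπ q E0 E1 h01 (h12.trans hE2) W1 lam0 D01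
  haveI : FiniteDimensional ↥(E0.map (qExpandAlgHomC L q)) ↥(E1.map (qExpandAlgHomC L q)) :=
    ssm_gi_finiteDimensional Dβ.finrank_eq
  haveI : Algebra.IsSeparable ↥(E0.map (qExpandAlgHomC L q)) ↥(E1.map (qExpandAlgHomC L q)) :=
    ssm_gi_isSeparable
  exact ssm_tw_cases Dβ _ (s36i_gauss_overb O hπ q E0 E1 E2 h01 h12 hE2 hb01 hb12 V hV)

include hb01 in
/-- **for `V ≠ Gauss(E2)` over `Gauss(E1)`: `V ∩ β E1 = RU`.** -/
theorem s36i_gauss_overU (W1 : ↥E1 ≃+* ↥E1)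
    (lam0 : ↥(gq_valSubOf π hπ.ne_zero hπ.maximalIdeal_eq E0 (h01.trans (h12.trans hE2))))
    (D01 :
      letI := ssm_gi_algebra h01
      letI := ssm_gi_algebraV h01
        (gq_valSubOf π hπ.ne_zero hπ.maximalIdeal_eq E0 (h01.trans (h12.trans hE2)))
      ssm_tw_Data ↥E0 ↥(gq_valSubOf π hπ.ne_zero hπ.maximalIdeal_eq E0 (h01.trans (h12.trans hE2)))
        q (gq_valSubOf π hπ.ne_zero hπ.maximalIdeal_eq E1 (h12.trans hE2)) W1 lam0)
    {t : ↥E2}
    {r : ↥(gq_valSubOf π hπ.ne_zero hπ.maximalIdeal_eq (E1.map (qExpandAlgHomC L q))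
      (hb12.trans hE2))}
    (DA :
      letI := ssm_gi_algebra hb12
      letI := ssm_gi_algebraV hb12
        (gq_valSubOf π hπ.ne_zero hπ.maximalIdeal_eq (E1.map (qExpandAlgHomC L q))
          (hb12.trans hE2))
      s36i_Data ↥(E1.map (qExpandAlgHomC L q))
        ↥(gq_valSubOf π hπ.ne_zero hπ.maximalIdeal_eq (E1.map (qExpandAlgHomC L q))
          (hb12.trans hE2)) q
        (gq_valSubOf π hπ.ne_zero hπ.maximalIdeal_eq E2 hE2) t r)
    (V : ValuationSubring ↥E2)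
    (hV :
      letI := ssm_gi_algebra h12
      letI := ssm_gi_algebraV h12 (gq_valSubOf π hπ.ne_zero hπ.maximalIdeal_eq E1 (h12.trans hE2))
      ssm_tw_Over ↥E1 ↥(gq_valSubOf π hπ.ne_zero hπ.maximalIdeal_eq E1 (h12.trans hE2)) V)
    (hne : V ≠ gq_valSubOf π hπ.ne_zero hπ.maximalIdeal_eq E2 hE2) :
    letI := ssm_gi_algebra hb12
    letI := ssm_gi_algebraV hb12 (s36i_gRU O hπ q E1 (h12.trans hE2) W1)
    ssm_tw_Over ↥(E1.map (qExpandAlgHomC L q)) ↥(s36i_gRU O hπ q E1 (h12.trans hE2) W1) V := by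
  letI ab12 := ssm_gi_algebra hb12
  letI aVb12 := ssm_gi_algebraV hb12
    (gq_valSubOf π hπ.ne_zero hπ.maximalIdeal_eq (E1.map (qExpandAlgHomC L q)) (hb12.trans hE2))
  haveI tb12 := ssm_gi_isScalarTower hb12
    (gq_valSubOf π hπ.ne_zero hπ.maximalIdeal_eq (E1.map (qExpandAlgHomC L q)) (hb12.trans hE2))
  haveI : FiniteDimensional ↥(E1.map (qExpandAlgHomC L q)) ↥E2 :=
    Module.finite_of_finrank_pos (by rw [DA.finrank_eq]; exact DA.q_prime.pos)
  haveI : Algebra.IsSeparable ↥(E1.map (qExpandAlgHomC L q)) ↥E2 := ssm_gi_isSeparable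
  letI aVU := ssm_gi_algebraV hb12 (s36i_gRU O hπ q E1 (h12.trans hE2) W1)
  have hmemV : ∀ z : ↥(E1.map (qExpandAlgHomC L q)),
      z ∈ V.comap (IntermediateField.inclusion hb12).toRingHom ↔
        algebraMap ↥(E1.map (qExpandAlgHomC L q)) ↥E2 z ∈ V := fun z => Iff.rfl
  rcases s36i_gauss_cases O hπ q E0 E1 E2 h01 h12 hE2 hb01 hb12 W1 lam0 D01 V hV with h | h
  · exfalso
    apply hne
    refine s36i_unique DA V ?_
    intro z
    rw [ssm_gi_mem_range, ← hmemV, h]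
  · intro z
    rw [ssm_gi_mem_range, ← hmemV, h]

/-! ### the mirror `W₂` -/

variable (W1 : ↥E1 ≃+* ↥E1) (hW1W1 : ∀ y, W1 (W1 y) = y)
  (W2 : ↥E2 ≃+* ↥E2) (hW2W2 : ∀ y, W2 (W2 y) = y)
  (hW2 : ∀ y : ↥E1, ((W2 (IntermediateField.inclusion h12 y) : ↥E2) : LaurentSeries L) =
    qExpand L q ((W1 y : ↥E1) : LaurentSeries L))

include hW1W1 hW2W2 hW2 in
/-- `W₂ (y(X^q)) = W₁ y` for `y ∈ E1`. -/
theorem s36i_W2_beta (z : ↥(E1.map (qExpandAlgHomC L q))) :
    W2 (IntermediateField.inclusion hb12 z) =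
      IntermediateField.inclusion h12 (W1 ((s36i_bEquiv q E1).symm z)) := by
  have e : W2 (IntermediateField.inclusion h12 (W1 ((s36i_bEquiv q E1).symm z))) =
      IntermediateField.inclusion hb12 z := by
    apply Subtype.ext
    rw [hW2, hW1W1, s36i_coe_bEquiv_symm]
    rfl
  rw [← e, hW2W2]

include hW2 in
/-- `W₂ y = (W₁ y)(X^q)` for `y ∈ E1`, as an element of `β E1`. -/
theorem s36i_W2_alpha (y : ↥E1) :
    W2 (IntermediateField.inclusion h12 y) =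
      IntermediateField.inclusion hb12 (s36i_bEquiv q E1 (W1 y)) :=
  Subtype.ext (hW2 y)

include hW1W1 hW2W2 hW2 in
/-- `V` over `Gauss(E1)` ⟹ `W₂(V)` over `RU`. -/
theorem s36i_gauss_comap_W2 (V : ValuationSubring ↥E2)
    (hV :
      letI := ssm_gi_algebra h12
      letI := ssm_gi_algebraV h12 (gq_valSubOf π hπ.ne_zero hπ.maximalIdeal_eq E1 (h12.trans hE2))
      ssm_tw_Over ↥E1 ↥(gq_valSubOf π hπ.ne_zero hπ.maximalIdeal_eq E1 (h12.trans hE2)) V) :
    letI := ssm_gi_algebra hb12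
    letI := ssm_gi_algebraV hb12 (s36i_gRU O hπ q E1 (h12.trans hE2) W1)
    ssm_tw_Over ↥(E1.map (qExpandAlgHomC L q)) ↥(s36i_gRU O hπ q E1 (h12.trans hE2) W1)
      (V.comap (W2 : ↥E2 →+* ↥E2)) := by
  letI := ssm_gi_algebra h12
  letI := ssm_gi_algebraV h12 (gq_valSubOf π hπ.ne_zero hπ.maximalIdeal_eq E1 (h12.trans hE2))
  letI := ssm_gi_algebra hb12
  letI := ssm_gi_algebraV hb12 (s36i_gRU O hπ q E1 (h12.trans hE2) W1)
  intro z
  rw [ssm_gi_mem_range, ValuationSubring.mem_comap]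
  show W2 (IntermediateField.inclusion hb12 z) ∈ V ↔ _
  rw [s36i_W2_beta q E1 E2 h12 hb12 W1 hW1W1 W2 hW2W2 hW2, s36i_mem_gRU]
  have h := hV (W1 ((s36i_bEquiv q E1).symm z))
  rw [ssm_gi_mem_range] at h
  exact h

include hW1W1 hW2 in
/-- `V` over `RU` ⟹ `W₂(V)` over `Gauss(E1)`. -/
theorem s36i_gauss_comap_W2' (V : ValuationSubring ↥E2)
    (hV :
      letI := ssm_gi_algebra hb12
      letI := ssm_gi_algebraV hb12 (s36i_gRU O hπ q E1 (h12.trans hE2) W1)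
      ssm_tw_Over ↥(E1.map (qExpandAlgHomC L q)) ↥(s36i_gRU O hπ q E1 (h12.trans hE2) W1) V) :
    letI := ssm_gi_algebra h12
    letI := ssm_gi_algebraV h12 (gq_valSubOf π hπ.ne_zero hπ.maximalIdeal_eq E1 (h12.trans hE2))
    ssm_tw_Over ↥E1 ↥(gq_valSubOf π hπ.ne_zero hπ.maximalIdeal_eq E1 (h12.trans hE2))
      (V.comap (W2 : ↥E2 →+* ↥E2)) := by
  letI := ssm_gi_algebra h12
  letI := ssm_gi_algebraV h12 (gq_valSubOf π hπ.ne_zero hπ.maximalIdeal_eq E1 (h12.trans hE2))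
  letI := ssm_gi_algebra hb12
  letI := ssm_gi_algebraV hb12 (s36i_gRU O hπ q E1 (h12.trans hE2) W1)
  intro y
  rw [ssm_gi_mem_range, ValuationSubring.mem_comap]
  show W2 (IntermediateField.inclusion h12 y) ∈ V ↔ _
  rw [s36i_W2_alpha q E1 E2 h12 hb12 W1 W2 hW2]
  have h := hV (s36i_bEquiv q E1 (W1 y))
  rw [ssm_gi_mem_range, s36i_mem_gRU, RingEquiv.symm_apply_apply, hW1W1] at h
  exact h

include hW1W1 hW2W2 hW2 in
/-- `VB = W₂(Gauss(E2))` lies over `RU`. -/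
theorem s36i_gauss_overB_U :
    letI := ssm_gi_algebra hb12
    letI := ssm_gi_algebraV hb12 (s36i_gRU O hπ q E1 (h12.trans hE2) W1)
    ssm_tw_Over ↥(E1.map (qExpandAlgHomC L q)) ↥(s36i_gRU O hπ q E1 (h12.trans hE2) W1)
      ((gq_valSubOf π hπ.ne_zero hπ.maximalIdeal_eq E2 hE2).comap (W2 : ↥E2 →+* ↥E2)) :=
  s36i_gauss_comap_W2 O hπ q E1 E2 h12 hE2 hb12 W1 hW1W1 W2 hW2W2 hW2 _
    (s36i_gauss_over O hπ E1 E2 h12 hE2)

end Restr

end Fermat.Agent.S36
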