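/-
Project S36 (Carayol), cell [M2], INSTANCE layer, "same restriction" facts on the `β`-side,
LEGENDRE tower (helper26; prefix `s36i_`).  [LEG-CTX] (`q ∤ 2 N'`), `E₁ = lg_E L (N' q)`,
`E₂ = lg_E L (N' q q)`, `β E₁ = E₁(X^q) ≤ E₂`, `VF = ssm_gl_V1`, `VV = ssm_gl_V2` on `E₁`,
`RG = s36i_RG` (Gauss) on `β E₁`, `VA`, `VB = W₂(VA)` on `E₂`:

* `s36i_RU` : `= β(VV) = W₂(VF)`, the SECOND valuation subring of `β E₁` (a DVR);
* `s36i_leg_over_U`   : every valuation subring `V ≠ VA` of `E₂` over `VF` lies over `RU`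
                        (so `VC ∩ β E₁ = RU`);
* `s36i_leg_overB_U`  : `VB` lies over `RU`;
* `s36i_leg_comap_W2`, `s36i_leg_comap_W2'` : `W₂` exchanges "over `VF`" and "over `RU`";
* `s36i_leg_cases`    : for `V` over `VF`: `V ∩ β E₁ ∈ {RG, RU}`.
With `s36i_leg_overA` (`VA ∩ E₁ = VF`), `(I-A).overR` (`VA ∩ β E₁ = RG`), `(I-B).overR`
(`VB ∩ E₁ = VV`) these are all the restrictions of `VA, VB, VC` to `E₁` and `β E₁`.
-/
import Mathlib
import Fermat.Agent.S36.Ins1.ThirdLeg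
import Fermat.Agent.S36.Ins1.RestrGauss

set_option autoImplicit false
set_option linter.unusedSectionVars false
set_option linter.unusedVariables false
set_option linter.style.haveILetI false

noncomputable section

open ModularCurve IntermediateField IsLocalRing
open Fermat.Agent.JT3 Fermat.Agent.SS

namespace Fermat.Agent.S36

section RestrLeg

variable {L : Type*} [Field L] [CharZero L] [Algebra L (AlgebraicClosure ℚ)]
  (O : ValuationSubring L) [IsDiscreteValuationRing O] {π : O} (hπ : Irreducible π)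
variable (N' q : ℕ) [NeZero N'] [NeZero q] [hq : Fact q.Prime] [CharP (ResidueField O) q]
  (hq2 : ¬ 2 ∣ q) (hqN' : ¬ q ∣ N')

/-- `RU = β(VV) = W₂(VF)`, the second valuation subring of `β E₁`. -/
abbrev s36i_RU : ValuationSubring ↥((lg_E L (N' * q)).map (qExpandAlgHomC L q)) :=
  s36i_gRU O hπ q (lg_E L (N' * q)) (ssm_ga_E_le_quotField O (N' * q)) (ssm_gl_W L N' q hq2 hqN')

/-- `RU` is a discrete valuation ring. -/
instance s36i_RU_isDVR : IsDiscreteValuationRing ↥(s36i_RU O hπ N' q hq2 hqN') :=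
  s36i_gRU_isDVR O hπ q (lg_E L (N' * q)) (ssm_ga_E_le_quotField O (N' * q))
    (ssm_gl_W L N' q hq2 hqN')

/-- for `V` over `VF`: `V ∩ β E₁` is `RG` or `RU`. -/
theorem s36i_leg_cases (V : ValuationSubring ↥(lg_E L (N' * q * q)))
    (hV :
      letI := ssm_gi_algebra (ssm_al_E_le L (N' * q) q)
      letI := ssm_gi_algebraV (ssm_al_E_le L (N' * q) q) (ssm_gl_V1 O hπ N' q)
      ssm_tw_Over ↥(lg_E L (N' * q)) ↥(ssm_gl_V1 O hπ N' q) V) :
    V.comap (IntermediateField.inclusion (ssm_al_E_beta_le L (N' * q) q hq2)).toRingHom =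
        s36i_RG O hπ (N' * q) q hq2 ∨
      V.comap (IntermediateField.inclusion (ssm_al_E_beta_le L (N' * q) q hq2)).toRingHom =
        s36i_RU O hπ N' q hq2 hqN' :=
  s36i_gauss_cases O hπ q (lg_E L N') (lg_E L (N' * q)) (lg_E L (N' * q * q))
    (ssm_al_E_le L N' q) (ssm_al_E_le L (N' * q) q) (ssm_ga_E_le_quotField O (N' * q * q))
    (ssm_al_E_beta_le L N' q hq2) (ssm_al_E_beta_le L (N' * q) q hq2)
    (ssm_gl_W L N' q hq2 hqN') (ssm_gl_lam O hπ N' q) (ssm_gl_data O hπ N' q hq2 hqN') V hV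

/-- **every valuation subring `V ≠ VA` of `E₂` over `VF` lies over `RU`.** -/
theorem s36i_leg_over_U (V : ValuationSubring ↥(lg_E L (N' * q * q)))
    (hV :
      letI := ssm_gi_algebra (ssm_al_E_le L (N' * q) q)
      letI := ssm_gi_algebraV (ssm_al_E_le L (N' * q) q) (ssm_gl_V1 O hπ N' q)
      ssm_tw_Over ↥(lg_E L (N' * q)) ↥(ssm_gl_V1 O hπ N' q) V)
    (hne : V ≠ s36i_VA O hπ (N' * q) q) :
    letI := ssm_gi_algebra (ssm_al_E_beta_le L (N' * q) q hq2)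
    letI := ssm_gi_algebraV (ssm_al_E_beta_le L (N' * q) q hq2) (s36i_RU O hπ N' q hq2 hqN')
    ssm_tw_Over ↥((lg_E L (N' * q)).map (qExpandAlgHomC L q)) ↥(s36i_RU O hπ N' q hq2 hqN') V :=
  s36i_gauss_overU O hπ q (lg_E L N') (lg_E L (N' * q)) (lg_E L (N' * q * q))
    (ssm_al_E_le L N' q) (ssm_al_E_le L (N' * q) q) (ssm_ga_E_le_quotField O (N' * q * q))
    (ssm_al_E_beta_le L N' q hq2) (ssm_al_E_beta_le L (N' * q) q hq2)
    (ssm_gl_W L N' q hq2 hqN') (ssm_gl_lam O hπ N' q) (ssm_gl_data O hπ N' q hq2 hqN')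
    (s36i_leg_dataA O hπ (N' * q) q hq2 (Dvd.intro_left N' rfl)) V hV hne

/-- `V` over `VF` ⟹ `W₂(V)` over `RU`. -/
theorem s36i_leg_comap_W2 (V : ValuationSubring ↥(lg_E L (N' * q * q)))
    (hV :
      letI := ssm_gi_algebra (ssm_al_E_le L (N' * q) q)
      letI := ssm_gi_algebraV (ssm_al_E_le L (N' * q) q) (ssm_gl_V1 O hπ N' q)
      ssm_tw_Over ↥(lg_E L (N' * q)) ↥(ssm_gl_V1 O hπ N' q) V) :
    letI := ssm_gi_algebra (ssm_al_E_beta_le L (N' * q) q hq2)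
    letI := ssm_gi_algebraV (ssm_al_E_beta_le L (N' * q) q hq2) (s36i_RU O hπ N' q hq2 hqN')
    ssm_tw_Over ↥((lg_E L (N' * q)).map (qExpandAlgHomC L q)) ↥(s36i_RU O hπ N' q hq2 hqN')
      (V.comap (s36i_W2 L N' q hq2 hqN' :
        ↥(lg_E L (N' * q * q)) →+* ↥(lg_E L (N' * q * q)))) :=
  s36i_gauss_comap_W2 O hπ q (lg_E L (N' * q)) (lg_E L (N' * q * q))
    (ssm_al_E_le L (N' * q) q) (ssm_ga_E_le_quotField O (N' * q * q))
    (ssm_al_E_beta_le L (N' * q) q hq2) (ssm_gl_W L N' q hq2 hqN')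
    (ssm_al_WE_WE L N' q hq.out hq2 hqN') (s36i_W2 L N' q hq2 hqN')
    (s36w_WE_WE L N' q hq.out hq2 hqN')
    (fun y => s36w_coe_WE_alpha L N' q hq.out hq2 hqN' y _) V hV

/-- `V` over `RU` ⟹ `W₂(V)` over `VF`. -/
theorem s36i_leg_comap_W2' (V : ValuationSubring ↥(lg_E L (N' * q * q)))
    (hV :
      letI := ssm_gi_algebra (ssm_al_E_beta_le L (N' * q) q hq2)
      letI := ssm_gi_algebraV (ssm_al_E_beta_le L (N' * q) q hq2) (s36i_RU O hπ N' q hq2 hqN')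
      ssm_tw_Over ↥((lg_E L (N' * q)).map (qExpandAlgHomC L q)) ↥(s36i_RU O hπ N' q hq2 hqN') V) :
    letI := ssm_gi_algebra (ssm_al_E_le L (N' * q) q)
    letI := ssm_gi_algebraV (ssm_al_E_le L (N' * q) q) (ssm_gl_V1 O hπ N' q)
    ssm_tw_Over ↥(lg_E L (N' * q)) ↥(ssm_gl_V1 O hπ N' q)
      (V.comap (s36i_W2 L N' q hq2 hqN' :
        ↥(lg_E L (N' * q * q)) →+* ↥(lg_E L (N' * q * q)))) :=
  s36i_gauss_comap_W2' O hπ q (lg_E L (N' * q)) (lg_E L (N' * q * q))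
    (ssm_al_E_le L (N' * q) q) (ssm_ga_E_le_quotField O (N' * q * q))
    (ssm_al_E_beta_le L (N' * q) q hq2) (ssm_gl_W L N' q hq2 hqN')
    (ssm_al_WE_WE L N' q hq.out hq2 hqN') (s36i_W2 L N' q hq2 hqN')
    (fun y => s36w_coe_WE_alpha L N' q hq.out hq2 hqN' y _) V hV

/-- **`VB` lies over `RU`.** -/
theorem s36i_leg_overB_U :
    letI := ssm_gi_algebra (ssm_al_E_beta_le L (N' * q) q hq2)
    letI := ssm_gi_algebraV (ssm_al_E_beta_le L (N' * q) q hq2) (s36i_RU O hπ N' q hq2 hqN')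
    ssm_tw_Over ↥((lg_E L (N' * q)).map (qExpandAlgHomC L q)) ↥(s36i_RU O hπ N' q hq2 hqN')
      (s36i_VB O hπ N' q hq2 hqN') :=
  s36i_gauss_overB_U O hπ q (lg_E L (N' * q)) (lg_E L (N' * q * q))
    (ssm_al_E_le L (N' * q) q) (ssm_ga_E_le_quotField O (N' * q * q))
    (ssm_al_E_beta_le L (N' * q) q hq2) (ssm_gl_W L N' q hq2 hqN')
    (ssm_al_WE_WE L N' q hq.out hq2 hqN') (s36i_W2 L N' q hq2 hqN')
    (s36w_WE_WE L N' q hq.out hq2 hqN')
    (fun y => s36w_coe_WE_alpha L N' q hq.out hq2 hqN' y _)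

end RestrLeg

end Fermat.Agent.S36
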