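/-
Project S36 (Carayol), cell [M2] / [L2], INSTANCE layer, LEGENDRE tower (helper26; prefix
`s36i_`): SIDE 2 OF `s36at_Tower` IS THE `W₂`-MIRROR OF SIDE 1.  [LEG-CTX] (`q ∤ 2 N'`),
`E₁ = lg_E L (N' q)`, `E₂ = lg_E L (N' q q)`, `β E₁ = E₁(X^q) ≤ E₂`, `VF = ssm_gl_V1`,
`VV = ssm_gl_V2 = s36i_VV` on `E₁`; `RU = s36i_RU`, `RG = s36i_RG` on `β E₁`; `VA = s36i_VA`,
`VB = s36i_VB = W₂(VA)` on `E₂`; `W₂ = s36i_W2`.

* `s36i_wRF`        : `VF ≃ RU` (restriction of `W₂`; `VV ≃ RG` is `s36i_wR` of `LegB.lean`);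
* `s36i_algebraMap_wRF`, `s36i_algebraMap_wR` : `algebraMap (wR x) = W₂ (algebraMap x)`;
* `s36i_leg_side2`  : side 1 `s36at_Side E₁ VF VV q VA VB VC πF πV z t r` + the uniqueness
  `∀ V over VF, V = VA ∨ V = VC` ⟹ side 2
  `s36at_Side (β E₁) RU RG q VB VA VC (wRF πF) (wR πV) (W₂ z) (W₂ t) (wR r)`;
* `s36i_leg_W2_VC`  : `W₂(VC) = VC`.
-/
import Mathlib
import Fermat.Agent.S36.Ins1.MirrorGauss
import Fermat.Agent.S36.Ins1.RestrLeg

set_option autoImplicit false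
set_option linter.unusedSectionVars false
set_option linter.unusedVariables false
set_option linter.style.haveILetI false

noncomputable section

open ModularCurve IntermediateField IsLocalRing
open Fermat.Agent.JT3 Fermat.Agent.SS

namespace Fermat.Agent.S36

section MirrorLeg

variable {L : Type*} [Field L] [CharZero L] [Algebra L (AlgebraicClosure ℚ)]
  (O : ValuationSubring L) [IsDiscreteValuationRing O] {π : O} (hπ : Irreducible π)
variable (N' q : ℕ) [NeZero N'] [NeZero q] [hq : Fact q.Prime] [CharP (ResidueField O) q]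
  (hq2 : ¬ 2 ∣ q) (hqN' : ¬ q ∣ N')

/-- `VF ≃ RU`, the restriction of `W₂`. -/
def s36i_wRF : ↥(ssm_gl_V1 O hπ N' q) ≃+* ↥(s36i_RU O hπ N' q hq2 hqN') :=
  s36i_gwRF O hπ q (lg_E L (N' * q)) (ssm_gl_W L N' q hq2 hqN')
    (ssm_al_WE_WE L N' q hq.out hq2 hqN') (ssm_ga_E_le_quotField O (N' * q))

/-- `algebraMap RU E₂ (wRF x) = W₂ (algebraMap VF E₂ x)`. -/
theorem s36i_algebraMap_wRF (x : ↥(ssm_gl_V1 O hπ N' q)) :
    letI := ssm_gi_algebraV (ssm_al_E_le L (N' * q) q) (ssm_gl_V1 O hπ N' q)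
    letI := ssm_gi_algebraV (ssm_al_E_beta_le L (N' * q) q hq2) (s36i_RU O hπ N' q hq2 hqN')
    algebraMap ↥(s36i_RU O hπ N' q hq2 hqN') ↥(lg_E L (N' * q * q))
        (s36i_wRF O hπ N' q hq2 hqN' x) =
      s36i_W2 L N' q hq2 hqN'
        (algebraMap ↥(ssm_gl_V1 O hπ N' q) ↥(lg_E L (N' * q * q)) x) :=
  (Subtype.ext (s36w_coe_WE_alpha L N' q hq.out hq2 hqN' (x : ↥(lg_E L (N' * q))) _)).symm

/-- `algebraMap RG E₂ (wR x) = W₂ (algebraMap VV E₂ x)`. -/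
theorem s36i_algebraMap_wR (x : ↥(s36i_VV O hπ N' q hq2 hqN')) :
    letI := ssm_gi_algebraV (ssm_al_E_le L (N' * q) q) (s36i_VV O hπ N' q hq2 hqN')
    letI := ssm_gi_algebraV (ssm_al_E_beta_le L (N' * q) q hq2) (s36i_RG O hπ (N' * q) q hq2)
    algebraMap ↥(s36i_RG O hπ (N' * q) q hq2) ↥(lg_E L (N' * q * q))
        (s36i_wR O hπ N' q hq2 hqN' x) =
      s36i_W2 L N' q hq2 hqN'
        (algebraMap ↥(s36i_VV O hπ N' q hq2 hqN') ↥(lg_E L (N' * q * q)) x) :=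
  (Subtype.ext (s36w_coe_WE_alpha L N' q hq.out hq2 hqN' (x : ↥(lg_E L (N' * q))) _)).symm

/-- a valuation subring of `E₂` over `VF` is not `VB`. -/
theorem s36i_leg_ne_CB (VC : ValuationSubring ↥(lg_E L (N' * q * q)))
    (hVC :
      letI := ssm_gi_algebra (ssm_al_E_le L (N' * q) q)
      letI := ssm_gi_algebraV (ssm_al_E_le L (N' * q) q) (ssm_gl_V1 O hπ N' q)
      ssm_tw_Over ↥(lg_E L (N' * q)) ↥(ssm_gl_V1 O hπ N' q) VC) :
    VC ≠ s36i_VB O hπ N' q hq2 hqN' := by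
  letI := ssm_gi_algebra (ssm_al_E_le L N' q)
  letI := ssm_gi_algebraV (ssm_al_E_le L N' q)
    (gq_valSubOf π hπ.ne_zero hπ.maximalIdeal_eq (lg_E L N') (ssm_ga_E_le_quotField O N'))
  haveI := ssm_gi_isScalarTower (ssm_al_E_le L N' q)
    (gq_valSubOf π hπ.ne_zero hπ.maximalIdeal_eq (lg_E L N') (ssm_ga_E_le_quotField O N'))
  letI := ssm_gi_algebra (ssm_al_E_le L (N' * q) q)
  letI := ssm_gi_algebraV (ssm_al_E_le L (N' * q) q) (ssm_gl_V1 O hπ N' q)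
  letI := ssm_gi_algebraV (ssm_al_E_le L (N' * q) q) (s36i_VV O hπ N' q hq2 hqN')
  intro h
  have DB := s36i_leg_dataB O hπ N' q hq2 hqN'
  have D01 := ssm_gl_data O hπ N' q hq2 hqN'
  haveI : FiniteDimensional ↥(lg_E L N') ↥(lg_E L (N' * q)) :=
    ssm_gi_finiteDimensional D01.finrank_eq
  haveI : Algebra.IsSeparable ↥(lg_E L N') ↥(lg_E L (N' * q)) := ssm_gi_isSeparable
  apply ssm_tw_ne D01
  ext y
  have h1 := hVC y
  have h2 := DB.overR y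
  rw [ssm_gi_mem_range] at h1 h2
  rw [← h1, h, h2]

/-- **`W₂(VC) = VC`** for the third valuation subring of `E₂` over `VF`. -/
theorem s36i_leg_W2_VC (VC : ValuationSubring ↥(lg_E L (N' * q * q)))
    (hVC :
      letI := ssm_gi_algebra (ssm_al_E_le L (N' * q) q)
      letI := ssm_gi_algebraV (ssm_al_E_le L (N' * q) q) (ssm_gl_V1 O hπ N' q)
      ssm_tw_Over ↥(lg_E L (N' * q)) ↥(ssm_gl_V1 O hπ N' q) VC)
    (hneA : VC ≠ s36i_VA O hπ (N' * q) q)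
    (honly :
      letI := ssm_gi_algebra (ssm_al_E_le L (N' * q) q)
      letI := ssm_gi_algebraV (ssm_al_E_le L (N' * q) q) (ssm_gl_V1 O hπ N' q)
      ∀ V : ValuationSubring ↥(lg_E L (N' * q * q)),
        ssm_tw_Over ↥(lg_E L (N' * q)) ↥(ssm_gl_V1 O hπ N' q) V →
        V = s36i_VA O hπ (N' * q) q ∨ V = VC) :
    VC.comap (s36i_W2 L N' q hq2 hqN' :
      ↥(lg_E L (N' * q * q)) →+* ↥(lg_E L (N' * q * q))) = VC :=
  s36i_gauss_W2_VC O hπ q (lg_E L (N' * q)) (lg_E L (N' * q * q))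
    (ssm_al_E_le L (N' * q) q) (ssm_ga_E_le_quotField O (N' * q * q))
    (ssm_al_E_beta_le L (N' * q) q hq2) (ssm_gl_W L N' q hq2 hqN')
    (ssm_al_WE_WE L N' q hq.out hq2 hqN') (s36i_W2 L N' q hq2 hqN')
    (s36w_WE_WE L N' q hq.out hq2 hqN')
    (fun y => s36w_coe_WE_alpha L N' q hq.out hq2 hqN' y _) VC
    (s36i_leg_over_U O hπ N' q hq2 hqN' VC hVC hneA) honly
    (s36i_leg_ne_CB O hπ N' q hq2 hqN' VC hVC)

/-- **side 2 of the tower from side 1**, Legendre. -/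
theorem s36i_leg_side2 {VC : ValuationSubring ↥(lg_E L (N' * q * q))}
    {πF : ↥(ssm_gl_V1 O hπ N' q)} {πV : ↥(s36i_VV O hπ N' q hq2 hqN')}
    {z t : ↥(lg_E L (N' * q * q))} {r : ↥(s36i_VV O hπ N' q hq2 hqN')} :
    letI := ssm_gi_algebra (ssm_al_E_le L (N' * q) q)
    letI := ssm_gi_algebraV (ssm_al_E_le L (N' * q) q) (ssm_gl_V1 O hπ N' q)
    letI := ssm_gi_algebraV (ssm_al_E_le L (N' * q) q) (s36i_VV O hπ N' q hq2 hqN')
    letI := ssm_gi_algebra (ssm_al_E_beta_le L (N' * q) q hq2)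
    letI := ssm_gi_algebraV (ssm_al_E_beta_le L (N' * q) q hq2) (s36i_RU O hπ N' q hq2 hqN')
    letI := ssm_gi_algebraV (ssm_al_E_beta_le L (N' * q) q hq2) (s36i_RG O hπ (N' * q) q hq2)
    haveI := ssm_gi_isScalarTower (ssm_al_E_le L (N' * q) q) (ssm_gl_V1 O hπ N' q)
    haveI := ssm_gi_isScalarTower (ssm_al_E_le L (N' * q) q) (s36i_VV O hπ N' q hq2 hqN')
    haveI := ssm_gi_isScalarTower (ssm_al_E_beta_le L (N' * q) q hq2)
      (s36i_RU O hπ N' q hq2 hqN')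
    haveI := ssm_gi_isScalarTower (ssm_al_E_beta_le L (N' * q) q hq2)
      (s36i_RG O hπ (N' * q) q hq2)
    ∀ [FiniteDimensional ↥(lg_E L (N' * q)) ↥(lg_E L (N' * q * q))]
      [Algebra.IsSeparable ↥(lg_E L (N' * q)) ↥(lg_E L (N' * q * q))]
      [FiniteDimensional ↥((lg_E L (N' * q)).map (qExpandAlgHomC L q)) ↥(lg_E L (N' * q * q))]
      [Algebra.IsSeparable ↥((lg_E L (N' * q)).map (qExpandAlgHomC L q))
        ↥(lg_E L (N' * q * q))],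
      s36at_Side ↥(lg_E L (N' * q)) ↥(ssm_gl_V1 O hπ N' q) ↥(s36i_VV O hπ N' q hq2 hqN') q
        (s36i_VA O hπ (N' * q) q) (s36i_VB O hπ N' q hq2 hqN') VC πF πV z t r →
      (∀ V : ValuationSubring ↥(lg_E L (N' * q * q)),
        ssm_tw_Over ↥(lg_E L (N' * q)) ↥(ssm_gl_V1 O hπ N' q) V →
        V = s36i_VA O hπ (N' * q) q ∨ V = VC) →
      s36at_Side ↥((lg_E L (N' * q)).map (qExpandAlgHomC L q)) ↥(s36i_RU O hπ N' q hq2 hqN')
        ↥(s36i_RG O hπ (N' * q) q hq2) q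
        (s36i_VB O hπ N' q hq2 hqN') (s36i_VA O hπ (N' * q) q) VC
        (s36i_wRF O hπ N' q hq2 hqN' πF) (s36i_wR O hπ N' q hq2 hqN' πV)
        (s36i_W2 L N' q hq2 hqN' z) (s36i_W2 L N' q hq2 hqN' t)
        (s36i_wR O hπ N' q hq2 hqN' r) := by
  letI := ssm_gi_algebra (ssm_al_E_le L (N' * q) q)
  letI := ssm_gi_algebraV (ssm_al_E_le L (N' * q) q) (ssm_gl_V1 O hπ N' q)
  letI := ssm_gi_algebraV (ssm_al_E_le L (N' * q) q) (s36i_VV O hπ N' q hq2 hqN')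
  letI := ssm_gi_algebra (ssm_al_E_beta_le L (N' * q) q hq2)
  letI := ssm_gi_algebraV (ssm_al_E_beta_le L (N' * q) q hq2) (s36i_RU O hπ N' q hq2 hqN')
  letI := ssm_gi_algebraV (ssm_al_E_beta_le L (N' * q) q hq2) (s36i_RG O hπ (N' * q) q hq2)
  haveI := ssm_gi_isScalarTower (ssm_al_E_le L (N' * q) q) (ssm_gl_V1 O hπ N' q)
  haveI := ssm_gi_isScalarTower (ssm_al_E_le L (N' * q) q) (s36i_VV O hπ N' q hq2 hqN')
  haveI := ssm_gi_isScalarTower (ssm_al_E_beta_le L (N' * q) q hq2)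
    (s36i_RU O hπ N' q hq2 hqN')
  haveI := ssm_gi_isScalarTower (ssm_al_E_beta_le L (N' * q) q hq2)
    (s36i_RG O hπ (N' * q) q hq2)
  intro _ _ _ _ S1 honly
  exact s36i_gauss_side2 O hπ q (lg_E L (N' * q)) (lg_E L (N' * q * q))
    (ssm_al_E_le L (N' * q) q) (ssm_ga_E_le_quotField O (N' * q * q))
    (ssm_al_E_beta_le L (N' * q) q hq2) (ssm_gl_W L N' q hq2 hqN')
    (ssm_al_WE_WE L N' q hq.out hq2 hqN') (s36i_W2 L N' q hq2 hqN')
    (s36w_WE_WE L N' q hq.out hq2 hqN')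
    (fun y => s36w_coe_WE_alpha L N' q hq.out hq2 hqN' y _) S1 honly
    (s36i_leg_over_U O hπ N' q hq2 hqN' VC S1.overC S1.ne_XC.symm)

end MirrorLeg

end Fermat.Agent.S36
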