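/-
Project S36 (Carayol), cell [INS1], INSTANCE layer, HESSE tower, `β`-side (I-A)-H
(helper26; prefix `s36ih_`): `q ≠ 3` a prime (in the application `q = 2`), `O ⊆ L` a DVR of residue
characteristic `q` with `3 ∈ Oˣ`, `E₁ = hs_E L h3 N`, `E₂ = hs_E L h3 (N q)` (`q ∣ N`),
`β E₁ = E₁(X^q) ≤ E₂` (`ssm_alh_E_beta_le`), coordinate `x = μ - 1` ("Option M" of S34):

* `s36ih_VA`  : the Gauss valuation subring of `E₂`;
* `s36ih_RG`  : the Gauss valuation subring of `β E₁` (a DVR);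
* `s36ih_xB`  : `(μ - 1)(X^q)` as an element of `s36ih_RG`;
* `s36ih_hes_dataA` : `s36i_Data ↥(β E₁) ↥RG q VA (μ - 1) ((μ - 1)(X^q))`.

Hesse twin of `S36/Ins1/Leg.lean`.
-/
import Mathlib
import Fermat.Agent.SS.Model.FactsHesse
import Fermat.Agent.S36.PEquiv2.DegE
import Fermat.Agent.S36.Ins1.Gauss

set_option autoImplicit false
set_option linter.unusedSectionVars false
set_option linter.unusedVariables false
set_option linter.style.haveILetI false

noncomputable section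

open ModularCurve IntermediateField IsLocalRing
open Fermat.Agent.JT3 Fermat.Agent.SS

namespace Fermat.Agent.S36

section Hesse

variable {L : Type*} [Field L] [CharZero L] [Algebra L (AlgebraicClosure ℚ)] (h3 : (3 : L) ≠ 0)
  (O : ValuationSubring L) [IsDiscreteValuationRing O] (h3O : IsUnit (3 : O)) {π : O}
  (hπ : Irreducible π)
variable (N q : ℕ) [NeZero N] [NeZero q] [hq : Fact q.Prime] [CharP (ResidueField O) q]
  (hq3 : ¬ 3 ∣ q) (hqN : q ∣ N)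

/-- the Gauss valuation subring of `E₂ = hs_E L h3 (N q)`. -/
abbrev s36ih_VA : ValuationSubring ↥(hs_E L h3 (N * q)) :=
  gq_valSubOf π hπ.ne_zero hπ.maximalIdeal_eq (hs_E L h3 (N * q))
    (hsa_E_le_quotField h3 O (N * q) h3O)

/-- the Gauss valuation subring of `β E₁ = (hs_E L h3 N)(X^q)`. -/
abbrev s36ih_RG : ValuationSubring ↥((hs_E L h3 N).map (qExpandAlgHomC L q)) :=
  gq_valSubOf π hπ.ne_zero hπ.maximalIdeal_eq ((hs_E L h3 N).map (qExpandAlgHomC L q))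
    ((ssm_alh_E_beta_le L h3 (ssm_fh_hF9 h3) N q hq3).trans
      (hsa_E_le_quotField h3 O (N * q) h3O))

/-- `(μ - 1)(X^q)` as an element of `β E₁`. -/
def s36ih_xB0 : ↥((hs_E L h3 N).map (qExpandAlgHomC L q)) :=
  ⟨qExpand L q (hs_mu L h3 - 1),
    ⟨hs_mu L h3 - 1, (hs_muE h3 N - 1 : ↥(hs_E L h3 N)).2, rfl⟩⟩

theorem s36ih_coe_xB0 :
    ((s36ih_xB0 h3 N q : ↥((hs_E L h3 N).map (qExpandAlgHomC L q))) : LaurentSeries L) =
      qExpand L q (coeffMap (algebraMap O L) (hm_mu O h3O - 1)) := by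
  rw [← ssm_glh_eq_iota h3 O h3O]
  rfl

/-- `(μ - 1)(X^q)` as an element of the Gauss ring of `β E₁`. -/
abbrev s36ih_xB : ↥(s36ih_RG h3 O h3O hπ N q hq3) :=
  s36i_gauss_r O hπ q ((hs_E L h3 N).map (qExpandAlgHomC L q)) (hs_E L h3 (N * q))
    (ssm_alh_E_beta_le L h3 (ssm_fh_hF9 h3) N q hq3) (hsa_E_le_quotField h3 O (N * q) h3O)
    (hm_mu O h3O - 1) (s36ih_xB0 h3 N q) (s36ih_coe_xB0 h3 O h3O N q)

include hqN in
/-- **(I-A)-H**: the data of the one-valuation lemma for `E₂ / β E₁` with the Gauss valuations,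
Hesse tower. -/
theorem s36ih_hes_dataA :
    letI := ssm_gi_algebra (ssm_alh_E_beta_le L h3 (ssm_fh_hF9 h3) N q hq3)
    letI := ssm_gi_algebraV (ssm_alh_E_beta_le L h3 (ssm_fh_hF9 h3) N q hq3)
      (s36ih_RG h3 O h3O hπ N q hq3)
    s36i_Data ↥((hs_E L h3 N).map (qExpandAlgHomC L q)) ↥(s36ih_RG h3 O h3O hπ N q hq3) q
      (s36ih_VA h3 O h3O hπ N q) (hs_muE h3 (N * q) - 1) (s36ih_xB h3 O h3O hπ N q hq3) := by
  refine s36i_gauss_data O hπ q ((hs_E L h3 N).map (qExpandAlgHomC L q)) (hs_E L h3 (N * q))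
    (ssm_alh_E_beta_le L h3 (ssm_fh_hF9 h3) N q hq3) (hsa_E_le_quotField h3 O (N * q) h3O) ?_
    (s36pe_relfinrank_EH_beta L h3 N q hq.out hq3 hqN) (hm_mu O h3O - 1)
    (ssm_glh_frobFixed O h3O q) (-1) (ssm_gh_not_dvd_neg_one q) (ssm_glh_coeff O h3O)
    (hs_muE h3 (N * q) - 1) (ssm_glh_coe_x h3 O h3O (N * q)) (s36ih_xB0 h3 N q)
    (s36ih_coe_xB0 h3 O h3O N q)
  rintro ⟨z, z', hz', rfl⟩
  exact ⟨z', hsa_E_le_quotField h3 O N h3O hz', rfl⟩

end Hesse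

end Fermat.Agent.S36
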