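/-
Project S36 (Carayol), cell [INS1], INSTANCE layer, HESSE tower, `α`-side (I-B)-H
(helper26; prefix `s36ih_`): `q ≠ 3` a prime, `q ∤ N'` (in the application `q = 2`), `O ⊆ L` a DVR
of residue characteristic `q` with `3 ∈ Oˣ`, `E₁ = hs_E L h3 (N' q) ≤ E₂ = hs_E L h3 (N' q q)`,
`W₁ = ssm_fh_W` (Atkin–Lehner at `q` on `E₁`), `W₂ = s36w_h_WE` (Atkin–Lehner at `q²` on `E₂`,
helper17), coordinate `x = μ - 1`:

* `s36ih_VV`  : `= ssm_fh_V2 = W₁(Gauss)`, the SECOND valuation subring of `E₁`; a DVR;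
* `s36ih_VB`  : `= W₂(VA)`;
* `s36ih_x2`  : `(μ - 1)(X^{q q}) ∈ E₂`;  `s36ih_x1V`: `(μ - 1)(X^q)` as an element of `VV`;
* `s36ih_hes_dataB` : `s36i_Data ↥E₁ ↥VV q VB ((μ - 1)(X^{q q})) ((μ - 1)(X^q))`.

Hesse twin of `S36/Ins1/LegB.lean`.
-/
import Mathlib
import Fermat.Agent.S36.AL2.CoverHesse
import Fermat.Agent.S36.Ins1.Hes
import Fermat.Agent.S36.Ins1.Transport

set_option autoImplicit false
set_option linter.unusedSectionVars false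
set_option linter.unusedVariables false
set_option linter.style.haveILetI false

noncomputable section

open ModularCurve IntermediateField IsLocalRing
open Fermat.Agent.JT3 Fermat.Agent.SS

namespace Fermat.Agent.S36

section HesseB

variable {L : Type*} [Field L] [CharZero L] [Algebra L (AlgebraicClosure ℚ)] (h3 : (3 : L) ≠ 0)
  (O : ValuationSubring L) [IsDiscreteValuationRing O] (h3O : IsUnit (3 : O)) {π : O}
  (hπ : Irreducible π)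
variable (N' q : ℕ) [NeZero N'] [NeZero q] [hq : Fact q.Prime] [CharP (ResidueField O) q]
  (hq3 : ¬ 3 ∣ q) (hqN' : ¬ q ∣ N')

/-- the second valuation subring `VV = W₁(Gauss)` of `E₁ = hs_E L h3 (N' q)`. -/
abbrev s36ih_VV : ValuationSubring ↥(hs_E L h3 (N' * q)) :=
  ssm_fh_V2 h3 O h3O hπ N' q hq3 hqN'

/-- `VV` is a discrete valuation ring. -/
instance s36ih_VV_isDVR : IsDiscreteValuationRing ↥(s36ih_VV h3 O h3O hπ N' q hq3 hqN') :=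
  s36i_comap_isDVR (ssm_fh_V1 h3 O h3O hπ N' q) (ssm_fh_W h3 N' q hq3 hqN')

/-- the Atkin–Lehner involution `W₂` of `E₂ = hs_E L h3 (N' q q)` as a ring automorphism. -/
abbrev s36ih_W2 : ↥(hs_E L h3 (N' * q * q)) ≃+* ↥(hs_E L h3 (N' * q * q)) :=
  (s36w_h_WE L h3 (ssm_fh_hF9 h3) N' q hq.out hq3 hqN').toRingEquiv

/-- the valuation subring `VB = W₂(VA)` of `E₂`. -/
abbrev s36ih_VB : ValuationSubring ↥(hs_E L h3 (N' * q * q)) :=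
  (s36ih_VA h3 O h3O hπ (N' * q) q).comap
    (s36ih_W2 h3 N' q hq3 hqN' : ↥(hs_E L h3 (N' * q * q)) →+* ↥(hs_E L h3 (N' * q * q)))

theorem s36ih_x_mem : hs_mu L h3 - 1 ∈ hs_E L h3 N' :=
  (hs_muE h3 N' - 1 : ↥(hs_E L h3 N')).2

include hq3 in
theorem s36ih_x1_mem : qExpand L q (hs_mu L h3 - 1) ∈ hs_E L h3 (N' * q) :=
  ssm_alh_E_beta_le L h3 (ssm_fh_hF9 h3) N' q hq3 ⟨hs_mu L h3 - 1, s36ih_x_mem h3 N', rfl⟩

include hq3 in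
theorem s36ih_x2_mem : qExpand L q (qExpand L q (hs_mu L h3 - 1)) ∈ hs_E L h3 (N' * q * q) :=
  ssm_alh_E_beta_le L h3 (ssm_fh_hF9 h3) (N' * q) q hq3
    ⟨qExpand L q (hs_mu L h3 - 1), s36ih_x1_mem h3 N' q hq3, rfl⟩

/-- `(μ - 1)(X^q) ∈ E₁`. -/
def s36ih_x1 : ↥(hs_E L h3 (N' * q)) :=
  ⟨qExpand L q (hs_mu L h3 - 1), s36ih_x1_mem h3 N' q hq3⟩

/-- `(μ - 1)(X^{q q}) ∈ E₂`. -/
def s36ih_x2 : ↥(hs_E L h3 (N' * q * q)) :=
  ⟨qExpand L q (qExpand L q (hs_mu L h3 - 1)), s36ih_x2_mem h3 N' q hq3⟩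

theorem s36ih_W1_x1 :
    ssm_fh_W h3 N' q hq3 hqN' (s36ih_x1 h3 N' q hq3) = hs_muE h3 (N' * q) - 1 :=
  Subtype.ext (ssm_alh_coe_WE_expand_of_mem L h3 (ssm_fh_hF9 h3) N' q hq.out hq3 hqN'
    (s36ih_x_mem h3 N') _)

theorem s36ih_W2_x2 :
    s36ih_W2 h3 N' q hq3 hqN' (s36ih_x2 h3 N' q hq3) = hs_muE h3 (N' * q * q) - 1 :=
  Subtype.ext (s36w_h_coe_WE_top_of_mem L h3 (ssm_fh_hF9 h3) N' q hq.out hq3 hqN'
    (s36ih_x_mem h3 N') _)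

theorem s36ih_x1_mem_VV : s36ih_x1 h3 N' q hq3 ∈ s36ih_VV h3 O h3O hπ N' q hq3 hqN' := by
  rw [ValuationSubring.mem_comap]
  show ssm_fh_W h3 N' q hq3 hqN' (s36ih_x1 h3 N' q hq3) ∈ _
  rw [s36ih_W1_x1, gq_mem_valSubOf, ssm_glh_coe_x h3 O h3O (N' * q)]
  exact gq_isBdd_iota _

/-- `(μ - 1)(X^q)` as an element of `VV`. -/
def s36ih_x1V : ↥(s36ih_VV h3 O h3O hπ N' q hq3 hqN') :=
  ⟨s36ih_x1 h3 N' q hq3, s36ih_x1_mem_VV h3 O h3O hπ N' q hq3 hqN'⟩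

/-- the isomorphism `E₁ ≃ β E₁`, `y ↦ (W₁ y)(X^q)` (the restriction of `W₂`). -/
def s36ih_w0 : ↥(hs_E L h3 (N' * q)) ≃+* ↥((hs_E L h3 (N' * q)).map (qExpandAlgHomC L q)) :=
  (ssm_fh_W h3 N' q hq3 hqN').trans
    (IntermediateField.equivMap (hs_E L h3 (N' * q)) (qExpandAlgHomC L q)).toRingEquiv

theorem s36ih_coe_w0 (y : ↥(hs_E L h3 (N' * q))) :
    ((s36ih_w0 h3 N' q hq3 hqN' y : ↥((hs_E L h3 (N' * q)).map (qExpandAlgHomC L q))) :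
      LaurentSeries L) =
      qExpand L q ((ssm_fh_W h3 N' q hq3 hqN' y : ↥(hs_E L h3 (N' * q))) : LaurentSeries L) :=
  rfl

theorem s36ih_mem_VV_iff (y : ↥(hs_E L h3 (N' * q))) :
    y ∈ s36ih_VV h3 O h3O hπ N' q hq3 hqN' ↔
      s36ih_w0 h3 N' q hq3 hqN' y ∈ s36ih_RG h3 O h3O hπ (N' * q) q hq3 := by
  have h1 : y ∈ s36ih_VV h3 O h3O hπ N' q hq3 hqN' ↔
      gq_IsBdd (↥O) L
        ((ssm_fh_W h3 N' q hq3 hqN' y : ↥(hs_E L h3 (N' * q))) : LaurentSeries L) := by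
    rw [ValuationSubring.mem_comap]
    exact gq_mem_valSubOf π hπ.ne_zero hπ.maximalIdeal_eq _ _ _
  have h2 : s36ih_w0 h3 N' q hq3 hqN' y ∈ s36ih_RG h3 O h3O hπ (N' * q) q hq3 ↔
      gq_IsBdd (↥O) L (qExpand L q
        ((ssm_fh_W h3 N' q hq3 hqN' y : ↥(hs_E L h3 (N' * q))) : LaurentSeries L)) := by
    rw [gq_mem_valSubOf, s36ih_coe_w0]
  rw [h1, h2]
  exact (ssm_ga_beta_isBdd_iff q π hπ.ne_zero hπ.maximalIdeal_eq
    (hsa_E_le_quotField h3 O (N' * q) h3O (ssm_fh_W h3 N' q hq3 hqN' y).2)).symm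

/-- the isomorphism `VV ≃ RG` induced by `y ↦ (W₁ y)(X^q)`. -/
def s36ih_wR : ↥(s36ih_VV h3 O h3O hπ N' q hq3 hqN') ≃+*
    ↥(s36ih_RG h3 O h3O hπ (N' * q) q hq3) :=
  s36i_valEquiv _ _ (s36ih_w0 h3 N' q hq3 hqN') (s36ih_mem_VV_iff h3 O h3O hπ N' q hq3 hqN')

/-- **(I-B)-H**: the data of the one-valuation lemma for `E₂ / E₁` with `VV` and `VB`, Hesse
tower. -/
theorem s36ih_hes_dataB :
    letI := ssm_gi_algebra (ssm_alh_E_le L h3 (ssm_fh_hF9 h3) (N' * q) q)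
    letI := ssm_gi_algebraV (ssm_alh_E_le L h3 (ssm_fh_hF9 h3) (N' * q) q)
      (s36ih_VV h3 O h3O hπ N' q hq3 hqN')
    s36i_Data ↥(hs_E L h3 (N' * q)) ↥(s36ih_VV h3 O h3O hπ N' q hq3 hqN') q
      (s36ih_VB h3 O h3O hπ N' q hq3 hqN') (s36ih_x2 h3 N' q hq3)
      (s36ih_x1V h3 O h3O hπ N' q hq3 hqN') := by
  letI := ssm_gi_algebra (ssm_alh_E_le L h3 (ssm_fh_hF9 h3) (N' * q) q)
  letI := ssm_gi_algebraV (ssm_alh_E_le L h3 (ssm_fh_hF9 h3) (N' * q) q)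
    (s36ih_VV h3 O h3O hπ N' q hq3 hqN')
  haveI := ssm_gi_isScalarTower (ssm_alh_E_le L h3 (ssm_fh_hF9 h3) (N' * q) q)
    (s36ih_VV h3 O h3O hπ N' q hq3 hqN')
  letI := ssm_gi_algebra (ssm_alh_E_beta_le L h3 (ssm_fh_hF9 h3) (N' * q) q hq3)
  letI := ssm_gi_algebraV (ssm_alh_E_beta_le L h3 (ssm_fh_hF9 h3) (N' * q) q hq3)
    (s36ih_RG h3 O h3O hπ (N' * q) q hq3)
  haveI := ssm_gi_isScalarTower (ssm_alh_E_beta_le L h3 (ssm_fh_hF9 h3) (N' * q) q hq3)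
    (s36ih_RG h3 O h3O hπ (N' * q) q hq3)
  have D' := s36ih_hes_dataA h3 O h3O hπ (N' * q) q hq3 (Dvd.intro_left N' rfl)
  refine s36i_data_transport (s36ih_W2 h3 N' q hq3 hqN') (s36ih_w0 h3 N' q hq3 hqN')
    (s36ih_wR h3 O h3O hπ N' q hq3 hqN') ?_ ?_ D' _ (s36ih_W2_x2 h3 N' q hq3 hqN') _ ?_
  · intro x
    apply Subtype.ext
    rw [ssm_gi_coe_algebraMap, s36ih_coe_w0]
    exact s36w_h_coe_WE_alpha L h3 (ssm_fh_hF9 h3) N' q hq.out hq3 hqN' x _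
  · intro r
    rfl
  · apply Subtype.ext
    apply Subtype.ext
    show qExpand L q ((ssm_fh_W h3 N' q hq3 hqN' (s36ih_x1 h3 N' q hq3) :
      ↥(hs_E L h3 (N' * q))) : LaurentSeries L) = qExpand L q (hs_mu L h3 - 1)
    rw [s36ih_W1_x1]
    rfl

end HesseB

end Fermat.Agent.S36
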