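/-
Project S36 (Carayol), cell [V3-INST](i), INSTANCE, HESSE tower (helper26; prefix `s36ih_`):
the hypothesis `hz` of `s36vv_main` / `s36v_main` as a CLOSED statement, coordinate `x = μ - 1`.

Context [HES-CTX] (`q ≠ 3` prime, `q ∤ N'`), `E₁ = hs_E L h3 (N' q) ≤ E₂ = hs_E L h3 (N' q q)`,
`VF = ssm_fh_V1` the Gauss valuation subring of `E₁`, `VA = s36ih_VA` that of `E₂`:

* `s36ih_hes_overA`  : `VA` lies over `VF`;
* `s36ih_hes_q_mem`  : `q ∈ 𝔪(VF)`;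
* `s36ih_hes_third`  : for EVERY valuation subring `V ≠ VA` of `E₂` over `VF`:
                       `(μ - 1)(X^{q q}) - (μ - 1) ∈ 𝔪(V)`.
Hesse twin of `S36/Ins1/ThirdLeg.lean`.
-/
import Mathlib
import Fermat.Agent.S36.Ins1.HesB
import Fermat.Agent.S36.Ins1.ThirdGauss

set_option autoImplicit false
set_option linter.unusedSectionVars false
set_option linter.unusedVariables false
set_option linter.style.haveILetI false

noncomputable section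

open ModularCurve IntermediateField IsLocalRing
open Fermat.Agent.JT3 Fermat.Agent.SS

namespace Fermat.Agent.S36

section ThirdHes

variable {L : Type*} [Field L] [CharZero L] [Algebra L (AlgebraicClosure ℚ)] (h3 : (3 : L) ≠ 0)
  (O : ValuationSubring L) [IsDiscreteValuationRing O] (h3O : IsUnit (3 : O)) {π : O}
  (hπ : Irreducible π)
variable (N' q : ℕ) [NeZero N'] [NeZero q] [hq : Fact q.Prime] [CharP (ResidueField O) q]
  (hq3 : ¬ 3 ∣ q) (hqN' : ¬ q ∣ N')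

/-- `VA` lies over `VF`. -/
theorem s36ih_hes_overA :
    letI := ssm_gi_algebra (ssm_alh_E_le L h3 (ssm_fh_hF9 h3) (N' * q) q)
    letI := ssm_gi_algebraV (ssm_alh_E_le L h3 (ssm_fh_hF9 h3) (N' * q) q)
      (ssm_fh_V1 h3 O h3O hπ N' q)
    ssm_tw_Over ↥(hs_E L h3 (N' * q)) ↥(ssm_fh_V1 h3 O h3O hπ N' q)
      (s36ih_VA h3 O h3O hπ (N' * q) q) :=
  s36i_gauss_over O hπ (hs_E L h3 (N' * q)) (hs_E L h3 (N' * q * q))
    (ssm_alh_E_le L h3 (ssm_fh_hF9 h3) (N' * q) q) (hsa_E_le_quotField h3 O (N' * q * q) h3O)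

/-- `q ∈ 𝔪(VF)`. -/
theorem s36ih_hes_q_mem :
    ((q : ℕ) : ↥(ssm_fh_V1 h3 O h3O hπ N' q)) ∈ maximalIdeal ↥(ssm_fh_V1 h3 O h3O hπ N' q) :=
  ssm_gi_q_mem O hπ q (hs_E L h3 (N' * q)) (hsa_E_le_quotField h3 O (N' * q) h3O)

/-- the coordinate `μ - 1` of `hs_E L h3 N` as a series. -/
theorem s36ih_coe_sub (N : ℕ) [NeZero N] :
    ((hs_muE h3 N - 1 : ↥(hs_E L h3 N)) : LaurentSeries L) = hs_mu L h3 - 1 := rfl

include hqN' in
/-- **[V3-INST](i), Hesse**: `(μ - 1)(X^{q q}) - (μ - 1)` lies in the maximal ideal of every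
valuation subring of `E₂` over `VF` except the Gauss valuation `VA`. -/
theorem s36ih_hes_third (V : ValuationSubring ↥(hs_E L h3 (N' * q * q)))
    (hV :
      letI := ssm_gi_algebra (ssm_alh_E_le L h3 (ssm_fh_hF9 h3) (N' * q) q)
      letI := ssm_gi_algebraV (ssm_alh_E_le L h3 (ssm_fh_hF9 h3) (N' * q) q)
        (ssm_fh_V1 h3 O h3O hπ N' q)
      ssm_tw_Over ↥(hs_E L h3 (N' * q)) ↥(ssm_fh_V1 h3 O h3O hπ N' q) V)
    (hne : V ≠ s36ih_VA h3 O h3O hπ (N' * q) q) :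
    s36ih_x2 h3 N' q hq3 - (hs_muE h3 (N' * q * q) - 1) ∈ V.nonunits :=
  s36i_gauss_third O hπ q (hs_E L h3 N') (hs_E L h3 (N' * q)) (hs_E L h3 (N' * q * q))
    (ssm_alh_E_le L h3 (ssm_fh_hF9 h3) N' q) (ssm_alh_E_le L h3 (ssm_fh_hF9 h3) (N' * q) q)
    (hsa_E_le_quotField h3 O (N' * q * q) h3O)
    (ssm_alh_E_beta_le L h3 (ssm_fh_hF9 h3) N' q hq3)
    (ssm_alh_E_beta_le L h3 (ssm_fh_hF9 h3) (N' * q) q hq3)
    (ssm_fh_W h3 N' q hq3 hqN')
    (fun z => ssm_alh_coe_WE_of_mem L h3 (ssm_fh_hF9 h3) N' q hq.out hq3 hqN' z.2 _)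
    (ssm_glh_x h3 O h3O hπ N' (N' * q) (ssm_alh_E_le L h3 (ssm_fh_hF9 h3) N' q))
    (ssm_fh_data h3 O h3O hπ N' q hq3 hqN')
    (s36ih_hes_dataA h3 O h3O hπ (N' * q) q hq3 (Dvd.intro_left N' rfl)) V hV hne
    (hs_muE h3 (N' * q * q) - 1) (s36ih_x2 h3 N' q hq3)
    ((s36ih_coe_sub h3 (N' * q * q)).trans (s36ih_coe_sub h3 N').symm)
    (congrArg (fun s => qExpand L q (qExpand L q s)) (s36ih_coe_sub h3 N').symm)

end ThirdHes

end Fermat.Agent.S36
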