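/-
Project S36 (Carayol), cell [M2], INSTANCE layer, "same restriction" facts on the `β`-side,
HESSE tower (helper26; prefix `s36ih_`).  [HES-CTX] (`q ≠ 3` prime, `q ∤ N'`),
`E₁ = hs_E L h3 (N' q)`, `E₂ = hs_E L h3 (N' q q)`, `β E₁ = E₁(X^q) ≤ E₂`, `VF = ssm_fh_V1`,
`VV = ssm_fh_V2` on `E₁`, `RG = s36ih_RG` (Gauss) on `β E₁`, `VA`, `VB = W₂(VA)` on `E₂`:

* `s36ih_RU` : `= β(VV) = W₂(VF)`, the SECOND valuation subring of `β E₁` (a DVR);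
* `s36ih_hes_over_U`, `s36ih_hes_overB_U`, `s36ih_hes_comap_W2`, `s36ih_hes_comap_W2'`,
  `s36ih_hes_cases`.
Hesse twin of `S36/Ins1/RestrLeg.lean`.
-/
import Mathlib
import Fermat.Agent.S36.Ins1.ThirdHes
import Fermat.Agent.S36.Ins1.RestrGauss

set_option autoImplicit false
set_option linter.unusedSectionVars false
set_option linter.unusedVariables false
set_option linter.style.haveILetI false

noncomputable section

open ModularCurve IntermediateField IsLocalRing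
open Fermat.Agent.JT3 Fermat.Agent.SS

namespace Fermat.Agent.S36

section RestrHes

variable {L : Type*} [Field L] [CharZero L] [Algebra L (AlgebraicClosure ℚ)] (h3 : (3 : L) ≠ 0)
  (O : ValuationSubring L) [IsDiscreteValuationRing O] (h3O : IsUnit (3 : O)) {π : O}
  (hπ : Irreducible π)
variable (N' q : ℕ) [NeZero N'] [NeZero q] [hq : Fact q.Prime] [CharP (ResidueField O) q]
  (hq3 : ¬ 3 ∣ q) (hqN' : ¬ q ∣ N')

/-- `RU = β(VV) = W₂(VF)`, the second valuation subring of `β E₁`. -/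
abbrev s36ih_RU : ValuationSubring ↥((hs_E L h3 (N' * q)).map (qExpandAlgHomC L q)) :=
  s36i_gRU O hπ q (hs_E L h3 (N' * q)) (hsa_E_le_quotField h3 O (N' * q) h3O)
    (ssm_fh_W h3 N' q hq3 hqN')

/-- `RU` is a discrete valuation ring. -/
instance s36ih_RU_isDVR : IsDiscreteValuationRing ↥(s36ih_RU h3 O h3O hπ N' q hq3 hqN') :=
  s36i_gRU_isDVR O hπ q (hs_E L h3 (N' * q)) (hsa_E_le_quotField h3 O (N' * q) h3O)
    (ssm_fh_W h3 N' q hq3 hqN')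

/-- for `V` over `VF`: `V ∩ β E₁` is `RG` or `RU`. -/
theorem s36ih_hes_cases (V : ValuationSubring ↥(hs_E L h3 (N' * q * q)))
    (hV :
      letI := ssm_gi_algebra (ssm_alh_E_le L h3 (ssm_fh_hF9 h3) (N' * q) q)
      letI := ssm_gi_algebraV (ssm_alh_E_le L h3 (ssm_fh_hF9 h3) (N' * q) q)
        (ssm_fh_V1 h3 O h3O hπ N' q)
      ssm_tw_Over ↥(hs_E L h3 (N' * q)) ↥(ssm_fh_V1 h3 O h3O hπ N' q) V) :
    V.comap (IntermediateField.inclusion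
        (ssm_alh_E_beta_le L h3 (ssm_fh_hF9 h3) (N' * q) q hq3)).toRingHom =
        s36ih_RG h3 O h3O hπ (N' * q) q hq3 ∨
      V.comap (IntermediateField.inclusion
        (ssm_alh_E_beta_le L h3 (ssm_fh_hF9 h3) (N' * q) q hq3)).toRingHom =
        s36ih_RU h3 O h3O hπ N' q hq3 hqN' :=
  s36i_gauss_cases O hπ q (hs_E L h3 N') (hs_E L h3 (N' * q)) (hs_E L h3 (N' * q * q))
    (ssm_alh_E_le L h3 (ssm_fh_hF9 h3) N' q) (ssm_alh_E_le L h3 (ssm_fh_hF9 h3) (N' * q) q)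
    (hsa_E_le_quotField h3 O (N' * q * q) h3O)
    (ssm_alh_E_beta_le L h3 (ssm_fh_hF9 h3) N' q hq3)
    (ssm_alh_E_beta_le L h3 (ssm_fh_hF9 h3) (N' * q) q hq3)
    (ssm_fh_W h3 N' q hq3 hqN')
    (ssm_glh_x h3 O h3O hπ N' (N' * q) (ssm_alh_E_le L h3 (ssm_fh_hF9 h3) N' q))
    (ssm_fh_data h3 O h3O hπ N' q hq3 hqN') V hV

/-- **every valuation subring `V ≠ VA` of `E₂` over `VF` lies over `RU`.** -/
theorem s36ih_hes_over_U (V : ValuationSubring ↥(hs_E L h3 (N' * q * q)))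
    (hV :
      letI := ssm_gi_algebra (ssm_alh_E_le L h3 (ssm_fh_hF9 h3) (N' * q) q)
      letI := ssm_gi_algebraV (ssm_alh_E_le L h3 (ssm_fh_hF9 h3) (N' * q) q)
        (ssm_fh_V1 h3 O h3O hπ N' q)
      ssm_tw_Over ↥(hs_E L h3 (N' * q)) ↥(ssm_fh_V1 h3 O h3O hπ N' q) V)
    (hne : V ≠ s36ih_VA h3 O h3O hπ (N' * q) q) :
    letI := ssm_gi_algebra (ssm_alh_E_beta_le L h3 (ssm_fh_hF9 h3) (N' * q) q hq3)
    letI := ssm_gi_algebraV (ssm_alh_E_beta_le L h3 (ssm_fh_hF9 h3) (N' * q) q hq3)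
      (s36ih_RU h3 O h3O hπ N' q hq3 hqN')
    ssm_tw_Over ↥((hs_E L h3 (N' * q)).map (qExpandAlgHomC L q))
      ↥(s36ih_RU h3 O h3O hπ N' q hq3 hqN') V :=
  s36i_gauss_overU O hπ q (hs_E L h3 N') (hs_E L h3 (N' * q)) (hs_E L h3 (N' * q * q))
    (ssm_alh_E_le L h3 (ssm_fh_hF9 h3) N' q) (ssm_alh_E_le L h3 (ssm_fh_hF9 h3) (N' * q) q)
    (hsa_E_le_quotField h3 O (N' * q * q) h3O)
    (ssm_alh_E_beta_le L h3 (ssm_fh_hF9 h3) N' q hq3)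
    (ssm_alh_E_beta_le L h3 (ssm_fh_hF9 h3) (N' * q) q hq3)
    (ssm_fh_W h3 N' q hq3 hqN')
    (ssm_glh_x h3 O h3O hπ N' (N' * q) (ssm_alh_E_le L h3 (ssm_fh_hF9 h3) N' q))
    (ssm_fh_data h3 O h3O hπ N' q hq3 hqN')
    (s36ih_hes_dataA h3 O h3O hπ (N' * q) q hq3 (Dvd.intro_left N' rfl)) V hV hne

/-- `V` over `VF` ⟹ `W₂(V)` over `RU`. -/
theorem s36ih_hes_comap_W2 (V : ValuationSubring ↥(hs_E L h3 (N' * q * q)))
    (hV :
      letI := ssm_gi_algebra (ssm_alh_E_le L h3 (ssm_fh_hF9 h3) (N' * q) q)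
      letI := ssm_gi_algebraV (ssm_alh_E_le L h3 (ssm_fh_hF9 h3) (N' * q) q)
        (ssm_fh_V1 h3 O h3O hπ N' q)
      ssm_tw_Over ↥(hs_E L h3 (N' * q)) ↥(ssm_fh_V1 h3 O h3O hπ N' q) V) :
    letI := ssm_gi_algebra (ssm_alh_E_beta_le L h3 (ssm_fh_hF9 h3) (N' * q) q hq3)
    letI := ssm_gi_algebraV (ssm_alh_E_beta_le L h3 (ssm_fh_hF9 h3) (N' * q) q hq3)
      (s36ih_RU h3 O h3O hπ N' q hq3 hqN')
    ssm_tw_Over ↥((hs_E L h3 (N' * q)).map (qExpandAlgHomC L q))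
      ↥(s36ih_RU h3 O h3O hπ N' q hq3 hqN')
      (V.comap (s36ih_W2 h3 N' q hq3 hqN' :
        ↥(hs_E L h3 (N' * q * q)) →+* ↥(hs_E L h3 (N' * q * q)))) :=
  s36i_gauss_comap_W2 O hπ q (hs_E L h3 (N' * q)) (hs_E L h3 (N' * q * q))
    (ssm_alh_E_le L h3 (ssm_fh_hF9 h3) (N' * q) q) (hsa_E_le_quotField h3 O (N' * q * q) h3O)
    (ssm_alh_E_beta_le L h3 (ssm_fh_hF9 h3) (N' * q) q hq3) (ssm_fh_W h3 N' q hq3 hqN')
    (ssm_fh_W_W h3 N' q hq3 hqN') (s36ih_W2 h3 N' q hq3 hqN')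
    (s36w_h_WE_WE L h3 (ssm_fh_hF9 h3) N' q hq.out hq3 hqN')
    (fun y => s36w_h_coe_WE_alpha L h3 (ssm_fh_hF9 h3) N' q hq.out hq3 hqN' y _) V hV

/-- `V` over `RU` ⟹ `W₂(V)` over `VF`. -/
theorem s36ih_hes_comap_W2' (V : ValuationSubring ↥(hs_E L h3 (N' * q * q)))
    (hV :
      letI := ssm_gi_algebra (ssm_alh_E_beta_le L h3 (ssm_fh_hF9 h3) (N' * q) q hq3)
      letI := ssm_gi_algebraV (ssm_alh_E_beta_le L h3 (ssm_fh_hF9 h3) (N' * q) q hq3)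
        (s36ih_RU h3 O h3O hπ N' q hq3 hqN')
      ssm_tw_Over ↥((hs_E L h3 (N' * q)).map (qExpandAlgHomC L q))
        ↥(s36ih_RU h3 O h3O hπ N' q hq3 hqN') V) :
    letI := ssm_gi_algebra (ssm_alh_E_le L h3 (ssm_fh_hF9 h3) (N' * q) q)
    letI := ssm_gi_algebraV (ssm_alh_E_le L h3 (ssm_fh_hF9 h3) (N' * q) q)
      (ssm_fh_V1 h3 O h3O hπ N' q)
    ssm_tw_Over ↥(hs_E L h3 (N' * q)) ↥(ssm_fh_V1 h3 O h3O hπ N' q)
      (V.comap (s36ih_W2 h3 N' q hq3 hqN' :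
        ↥(hs_E L h3 (N' * q * q)) →+* ↥(hs_E L h3 (N' * q * q)))) :=
  s36i_gauss_comap_W2' O hπ q (hs_E L h3 (N' * q)) (hs_E L h3 (N' * q * q))
    (ssm_alh_E_le L h3 (ssm_fh_hF9 h3) (N' * q) q) (hsa_E_le_quotField h3 O (N' * q * q) h3O)
    (ssm_alh_E_beta_le L h3 (ssm_fh_hF9 h3) (N' * q) q hq3) (ssm_fh_W h3 N' q hq3 hqN')
    (ssm_fh_W_W h3 N' q hq3 hqN') (s36ih_W2 h3 N' q hq3 hqN')
    (fun y => s36w_h_coe_WE_alpha L h3 (ssm_fh_hF9 h3) N' q hq.out hq3 hqN' y _) V hV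

/-- **`VB` lies over `RU`.** -/
theorem s36ih_hes_overB_U :
    letI := ssm_gi_algebra (ssm_alh_E_beta_le L h3 (ssm_fh_hF9 h3) (N' * q) q hq3)
    letI := ssm_gi_algebraV (ssm_alh_E_beta_le L h3 (ssm_fh_hF9 h3) (N' * q) q hq3)
      (s36ih_RU h3 O h3O hπ N' q hq3 hqN')
    ssm_tw_Over ↥((hs_E L h3 (N' * q)).map (qExpandAlgHomC L q))
      ↥(s36ih_RU h3 O h3O hπ N' q hq3 hqN') (s36ih_VB h3 O h3O hπ N' q hq3 hqN') :=
  s36i_gauss_overB_U O hπ q (hs_E L h3 (N' * q)) (hs_E L h3 (N' * q * q))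
    (ssm_alh_E_le L h3 (ssm_fh_hF9 h3) (N' * q) q) (hsa_E_le_quotField h3 O (N' * q * q) h3O)
    (ssm_alh_E_beta_le L h3 (ssm_fh_hF9 h3) (N' * q) q hq3) (ssm_fh_W h3 N' q hq3 hqN')
    (ssm_fh_W_W h3 N' q hq3 hqN') (s36ih_W2 h3 N' q hq3 hqN')
    (s36w_h_WE_WE L h3 (ssm_fh_hF9 h3) N' q hq.out hq3 hqN')
    (fun y => s36w_h_coe_WE_alpha L h3 (ssm_fh_hF9 h3) N' q hq.out hq3 hqN' y _)

end RestrHes

end Fermat.Agent.S36
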