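/-
Project S36 (Carayol), cell [M2] / [L2], INSTANCE layer, HESSE tower (helper26; prefix `s36ih_`):
SIDE 2 OF `s36at_Tower` IS THE `W₂`-MIRROR OF SIDE 1.  [HES-CTX] (`q ∤ 3 N'`),
`E₁ = hs_E L h3 (N' q)`, `E₂ = hs_E L h3 (N' q q)`, `β E₁ = E₁(X^q) ≤ E₂`, `VF = ssm_fh_V1`,
`VV = ssm_fh_V2 = s36ih_VV` on `E₁`; `RU = s36ih_RU`, `RG = s36ih_RG` on `β E₁`;
`VA = s36ih_VA`, `VB = s36ih_VB = W₂(VA)` on `E₂`; `W₂ = s36ih_W2`.

Hesse twin of `S36/Ins1/MirrorLeg.lean`: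
* `s36ih_wRF`        : `VF ≃ RU` (restriction of `W₂`; `VV ≃ RG` is `s36ih_wR` of `HesB.lean`);
* `s36ih_algebraMap_wRF`, `s36ih_algebraMap_wR` : `algebraMap (wR x) = W₂ (algebraMap x)`;
* `s36ih_hes_ne_CB`, `s36ih_hes_W2_VC` : `VC ≠ VB`, `W₂(VC) = VC`;
* `s36ih_hes_side2`  : side 1 + uniqueness ⟹ side 2.
-/
import Mathlib
import Fermat.Agent.S36.Ins1.MirrorGauss
import Fermat.Agent.S36.Ins1.RestrHes

set_option autoImplicit false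
set_option linter.unusedSectionVars false
set_option linter.unusedVariables false
set_option linter.style.haveILetI false

noncomputable section

open ModularCurve IntermediateField IsLocalRing
open Fermat.Agent.JT3 Fermat.Agent.SS

namespace Fermat.Agent.S36

section MirrorHes

variable {L : Type*} [Field L] [CharZero L] [Algebra L (AlgebraicClosure ℚ)] (h3 : (3 : L) ≠ 0)
  (O : ValuationSubring L) [IsDiscreteValuationRing O] (h3O : IsUnit (3 : O)) {π : O}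
  (hπ : Irreducible π)
variable (N' q : ℕ) [NeZero N'] [NeZero q] [hq : Fact q.Prime] [CharP (ResidueField O) q]
  (hq3 : ¬ 3 ∣ q) (hqN' : ¬ q ∣ N')

/-- `VF ≃ RU`, the restriction of `W₂`. -/
def s36ih_wRF : ↥(ssm_fh_V1 h3 O h3O hπ N' q) ≃+* ↥(s36ih_RU h3 O h3O hπ N' q hq3 hqN') :=
  s36i_gwRF O hπ q (hs_E L h3 (N' * q)) (ssm_fh_W h3 N' q hq3 hqN')
    (ssm_fh_W_W h3 N' q hq3 hqN') (hsa_E_le_quotField h3 O (N' * q) h3O)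

/-- `algebraMap RU E₂ (wRF x) = W₂ (algebraMap VF E₂ x)`. -/
theorem s36ih_algebraMap_wRF (x : ↥(ssm_fh_V1 h3 O h3O hπ N' q)) :
    letI := ssm_gi_algebraV (ssm_alh_E_le L h3 (ssm_fh_hF9 h3) (N' * q) q)
      (ssm_fh_V1 h3 O h3O hπ N' q)
    letI := ssm_gi_algebraV (ssm_alh_E_beta_le L h3 (ssm_fh_hF9 h3) (N' * q) q hq3)
      (s36ih_RU h3 O h3O hπ N' q hq3 hqN')
    algebraMap ↥(s36ih_RU h3 O h3O hπ N' q hq3 hqN') ↥(hs_E L h3 (N' * q * q))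
        (s36ih_wRF h3 O h3O hπ N' q hq3 hqN' x) =
      s36ih_W2 h3 N' q hq3 hqN'
        (algebraMap ↥(ssm_fh_V1 h3 O h3O hπ N' q) ↥(hs_E L h3 (N' * q * q)) x) :=
  (Subtype.ext (s36w_h_coe_WE_alpha L h3 (ssm_fh_hF9 h3) N' q hq.out hq3 hqN'
    (x : ↥(hs_E L h3 (N' * q))) _)).symm

/-- `algebraMap RG E₂ (wR x) = W₂ (algebraMap VV E₂ x)`. -/
theorem s36ih_algebraMap_wR (x : ↥(s36ih_VV h3 O h3O hπ N' q hq3 hqN')) :
    letI := ssm_gi_algebraV (ssm_alh_E_le L h3 (ssm_fh_hF9 h3) (N' * q) q)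
      (s36ih_VV h3 O h3O hπ N' q hq3 hqN')
    letI := ssm_gi_algebraV (ssm_alh_E_beta_le L h3 (ssm_fh_hF9 h3) (N' * q) q hq3)
      (s36ih_RG h3 O h3O hπ (N' * q) q hq3)
    algebraMap ↥(s36ih_RG h3 O h3O hπ (N' * q) q hq3) ↥(hs_E L h3 (N' * q * q))
        (s36ih_wR h3 O h3O hπ N' q hq3 hqN' x) =
      s36ih_W2 h3 N' q hq3 hqN'
        (algebraMap ↥(s36ih_VV h3 O h3O hπ N' q hq3 hqN') ↥(hs_E L h3 (N' * q * q)) x) :=
  (Subtype.ext (s36w_h_coe_WE_alpha L h3 (ssm_fh_hF9 h3) N' q hq.out hq3 hqN'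
    (x : ↥(hs_E L h3 (N' * q))) _)).symm

/-- a valuation subring of `E₂` over `VF` is not `VB`. -/
theorem s36ih_hes_ne_CB (VC : ValuationSubring ↥(hs_E L h3 (N' * q * q)))
    (hVC :
      letI := ssm_gi_algebra (ssm_alh_E_le L h3 (ssm_fh_hF9 h3) (N' * q) q)
      letI := ssm_gi_algebraV (ssm_alh_E_le L h3 (ssm_fh_hF9 h3) (N' * q) q)
        (ssm_fh_V1 h3 O h3O hπ N' q)
      ssm_tw_Over ↥(hs_E L h3 (N' * q)) ↥(ssm_fh_V1 h3 O h3O hπ N' q) VC) :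
    VC ≠ s36ih_VB h3 O h3O hπ N' q hq3 hqN' := by
  letI := ssm_gi_algebra (ssm_alh_E_le L h3 (ssm_fh_hF9 h3) N' q)
  letI := ssm_gi_algebraV (ssm_alh_E_le L h3 (ssm_fh_hF9 h3) N' q)
    (gq_valSubOf π hπ.ne_zero hπ.maximalIdeal_eq (hs_E L h3 N') (hsa_E_le_quotField h3 O N' h3O))
  haveI := ssm_gi_isScalarTower (ssm_alh_E_le L h3 (ssm_fh_hF9 h3) N' q)
    (gq_valSubOf π hπ.ne_zero hπ.maximalIdeal_eq (hs_E L h3 N') (hsa_E_le_quotField h3 O N' h3O))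
  letI := ssm_gi_algebra (ssm_alh_E_le L h3 (ssm_fh_hF9 h3) (N' * q) q)
  letI := ssm_gi_algebraV (ssm_alh_E_le L h3 (ssm_fh_hF9 h3) (N' * q) q)
    (ssm_fh_V1 h3 O h3O hπ N' q)
  letI := ssm_gi_algebraV (ssm_alh_E_le L h3 (ssm_fh_hF9 h3) (N' * q) q)
    (s36ih_VV h3 O h3O hπ N' q hq3 hqN')
  intro h
  have DB := s36ih_hes_dataB h3 O h3O hπ N' q hq3 hqN'
  have D01 := ssm_fh_data h3 O h3O hπ N' q hq3 hqN'
  haveI : FiniteDimensional ↥(hs_E L h3 N') ↥(hs_E L h3 (N' * q)) :=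
    ssm_gi_finiteDimensional D01.finrank_eq
  haveI : Algebra.IsSeparable ↥(hs_E L h3 N') ↥(hs_E L h3 (N' * q)) := ssm_gi_isSeparable
  apply ssm_tw_ne D01
  ext y
  have h1 := hVC y
  have h2 := DB.overR y
  rw [ssm_gi_mem_range] at h1 h2
  rw [← h1, h, h2]

/-- **`W₂(VC) = VC`** for the third valuation subring of `E₂` over `VF`. -/
theorem s36ih_hes_W2_VC (VC : ValuationSubring ↥(hs_E L h3 (N' * q * q)))
    (hVC :
      letI := ssm_gi_algebra (ssm_alh_E_le L h3 (ssm_fh_hF9 h3) (N' * q) q)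
      letI := ssm_gi_algebraV (ssm_alh_E_le L h3 (ssm_fh_hF9 h3) (N' * q) q)
        (ssm_fh_V1 h3 O h3O hπ N' q)
      ssm_tw_Over ↥(hs_E L h3 (N' * q)) ↥(ssm_fh_V1 h3 O h3O hπ N' q) VC)
    (hneA : VC ≠ s36ih_VA h3 O h3O hπ (N' * q) q)
    (honly :
      letI := ssm_gi_algebra (ssm_alh_E_le L h3 (ssm_fh_hF9 h3) (N' * q) q)
      letI := ssm_gi_algebraV (ssm_alh_E_le L h3 (ssm_fh_hF9 h3) (N' * q) q)
        (ssm_fh_V1 h3 O h3O hπ N' q)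
      ∀ V : ValuationSubring ↥(hs_E L h3 (N' * q * q)),
        ssm_tw_Over ↥(hs_E L h3 (N' * q)) ↥(ssm_fh_V1 h3 O h3O hπ N' q) V →
        V = s36ih_VA h3 O h3O hπ (N' * q) q ∨ V = VC) :
    VC.comap (s36ih_W2 h3 N' q hq3 hqN' :
      ↥(hs_E L h3 (N' * q * q)) →+* ↥(hs_E L h3 (N' * q * q))) = VC :=
  s36i_gauss_W2_VC O hπ q (hs_E L h3 (N' * q)) (hs_E L h3 (N' * q * q))
    (ssm_alh_E_le L h3 (ssm_fh_hF9 h3) (N' * q) q) (hsa_E_le_quotField h3 O (N' * q * q) h3O)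
    (ssm_alh_E_beta_le L h3 (ssm_fh_hF9 h3) (N' * q) q hq3) (ssm_fh_W h3 N' q hq3 hqN')
    (ssm_fh_W_W h3 N' q hq3 hqN') (s36ih_W2 h3 N' q hq3 hqN')
    (s36w_h_WE_WE L h3 (ssm_fh_hF9 h3) N' q hq.out hq3 hqN')
    (fun y => s36w_h_coe_WE_alpha L h3 (ssm_fh_hF9 h3) N' q hq.out hq3 hqN' y _) VC
    (s36ih_hes_over_U h3 O h3O hπ N' q hq3 hqN' VC hVC hneA) honly
    (s36ih_hes_ne_CB h3 O h3O hπ N' q hq3 hqN' VC hVC)

/-- **side 2 of the tower from side 1**, Hesse. -/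
theorem s36ih_hes_side2 {VC : ValuationSubring ↥(hs_E L h3 (N' * q * q))}
    {πF : ↥(ssm_fh_V1 h3 O h3O hπ N' q)} {πV : ↥(s36ih_VV h3 O h3O hπ N' q hq3 hqN')}
    {z t : ↥(hs_E L h3 (N' * q * q))} {r : ↥(s36ih_VV h3 O h3O hπ N' q hq3 hqN')} :
    letI := ssm_gi_algebra (ssm_alh_E_le L h3 (ssm_fh_hF9 h3) (N' * q) q)
    letI := ssm_gi_algebraV (ssm_alh_E_le L h3 (ssm_fh_hF9 h3) (N' * q) q)
      (ssm_fh_V1 h3 O h3O hπ N' q)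
    letI := ssm_gi_algebraV (ssm_alh_E_le L h3 (ssm_fh_hF9 h3) (N' * q) q)
      (s36ih_VV h3 O h3O hπ N' q hq3 hqN')
    letI := ssm_gi_algebra (ssm_alh_E_beta_le L h3 (ssm_fh_hF9 h3) (N' * q) q hq3)
    letI := ssm_gi_algebraV (ssm_alh_E_beta_le L h3 (ssm_fh_hF9 h3) (N' * q) q hq3)
      (s36ih_RU h3 O h3O hπ N' q hq3 hqN')
    letI := ssm_gi_algebraV (ssm_alh_E_beta_le L h3 (ssm_fh_hF9 h3) (N' * q) q hq3)
      (s36ih_RG h3 O h3O hπ (N' * q) q hq3)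
    haveI := ssm_gi_isScalarTower (ssm_alh_E_le L h3 (ssm_fh_hF9 h3) (N' * q) q)
      (ssm_fh_V1 h3 O h3O hπ N' q)
    haveI := ssm_gi_isScalarTower (ssm_alh_E_le L h3 (ssm_fh_hF9 h3) (N' * q) q)
      (s36ih_VV h3 O h3O hπ N' q hq3 hqN')
    haveI := ssm_gi_isScalarTower (ssm_alh_E_beta_le L h3 (ssm_fh_hF9 h3) (N' * q) q hq3)
      (s36ih_RU h3 O h3O hπ N' q hq3 hqN')
    haveI := ssm_gi_isScalarTower (ssm_alh_E_beta_le L h3 (ssm_fh_hF9 h3) (N' * q) q hq3)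
      (s36ih_RG h3 O h3O hπ (N' * q) q hq3)
    ∀ [FiniteDimensional ↥(hs_E L h3 (N' * q)) ↥(hs_E L h3 (N' * q * q))]
      [Algebra.IsSeparable ↥(hs_E L h3 (N' * q)) ↥(hs_E L h3 (N' * q * q))]
      [FiniteDimensional ↥((hs_E L h3 (N' * q)).map (qExpandAlgHomC L q))
        ↥(hs_E L h3 (N' * q * q))]
      [Algebra.IsSeparable ↥((hs_E L h3 (N' * q)).map (qExpandAlgHomC L q))
        ↥(hs_E L h3 (N' * q * q))],
      s36at_Side ↥(hs_E L h3 (N' * q)) ↥(ssm_fh_V1 h3 O h3O hπ N' q)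
        ↥(s36ih_VV h3 O h3O hπ N' q hq3 hqN') q
        (s36ih_VA h3 O h3O hπ (N' * q) q) (s36ih_VB h3 O h3O hπ N' q hq3 hqN') VC πF πV z t r →
      (∀ V : ValuationSubring ↥(hs_E L h3 (N' * q * q)),
        ssm_tw_Over ↥(hs_E L h3 (N' * q)) ↥(ssm_fh_V1 h3 O h3O hπ N' q) V →
        V = s36ih_VA h3 O h3O hπ (N' * q) q ∨ V = VC) →
      s36at_Side ↥((hs_E L h3 (N' * q)).map (qExpandAlgHomC L q))
        ↥(s36ih_RU h3 O h3O hπ N' q hq3 hqN') ↥(s36ih_RG h3 O h3O hπ (N' * q) q hq3) q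
        (s36ih_VB h3 O h3O hπ N' q hq3 hqN') (s36ih_VA h3 O h3O hπ (N' * q) q) VC
        (s36ih_wRF h3 O h3O hπ N' q hq3 hqN' πF) (s36ih_wR h3 O h3O hπ N' q hq3 hqN' πV)
        (s36ih_W2 h3 N' q hq3 hqN' z) (s36ih_W2 h3 N' q hq3 hqN' t)
        (s36ih_wR h3 O h3O hπ N' q hq3 hqN' r) := by
  letI := ssm_gi_algebra (ssm_alh_E_le L h3 (ssm_fh_hF9 h3) (N' * q) q)
  letI := ssm_gi_algebraV (ssm_alh_E_le L h3 (ssm_fh_hF9 h3) (N' * q) q)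
    (ssm_fh_V1 h3 O h3O hπ N' q)
  letI := ssm_gi_algebraV (ssm_alh_E_le L h3 (ssm_fh_hF9 h3) (N' * q) q)
    (s36ih_VV h3 O h3O hπ N' q hq3 hqN')
  letI := ssm_gi_algebra (ssm_alh_E_beta_le L h3 (ssm_fh_hF9 h3) (N' * q) q hq3)
  letI := ssm_gi_algebraV (ssm_alh_E_beta_le L h3 (ssm_fh_hF9 h3) (N' * q) q hq3)
    (s36ih_RU h3 O h3O hπ N' q hq3 hqN')
  letI := ssm_gi_algebraV (ssm_alh_E_beta_le L h3 (ssm_fh_hF9 h3) (N' * q) q hq3)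
    (s36ih_RG h3 O h3O hπ (N' * q) q hq3)
  haveI := ssm_gi_isScalarTower (ssm_alh_E_le L h3 (ssm_fh_hF9 h3) (N' * q) q)
    (ssm_fh_V1 h3 O h3O hπ N' q)
  haveI := ssm_gi_isScalarTower (ssm_alh_E_le L h3 (ssm_fh_hF9 h3) (N' * q) q)
    (s36ih_VV h3 O h3O hπ N' q hq3 hqN')
  haveI := ssm_gi_isScalarTower (ssm_alh_E_beta_le L h3 (ssm_fh_hF9 h3) (N' * q) q hq3)
    (s36ih_RU h3 O h3O hπ N' q hq3 hqN')
  haveI := ssm_gi_isScalarTower (ssm_alh_E_beta_le L h3 (ssm_fh_hF9 h3) (N' * q) q hq3)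
    (s36ih_RG h3 O h3O hπ (N' * q) q hq3)
  intro _ _ _ _ S1 honly
  exact s36i_gauss_side2 O hπ q (hs_E L h3 (N' * q)) (hs_E L h3 (N' * q * q))
    (ssm_alh_E_le L h3 (ssm_fh_hF9 h3) (N' * q) q) (hsa_E_le_quotField h3 O (N' * q * q) h3O)
    (ssm_alh_E_beta_le L h3 (ssm_fh_hF9 h3) (N' * q) q hq3) (ssm_fh_W h3 N' q hq3 hqN')
    (ssm_fh_W_W h3 N' q hq3 hqN') (s36ih_W2 h3 N' q hq3 hqN')
    (s36w_h_WE_WE L h3 (ssm_fh_hF9 h3) N' q hq.out hq3 hqN')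
    (fun y => s36w_h_coe_WE_alpha L h3 (ssm_fh_hF9 h3) N' q hq.out hq3 hqN' y _) S1 honly
    (s36ih_hes_over_U h3 O h3O hπ N' q hq3 hqN' VC S1.overC S1.ne_XC.symm)

end MirrorHes

end Fermat.Agent.S36
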