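/-
Project S36 (Carayol), cell [M2] / [L0] (helper26; prefixes `s36i_` / `s36ih_`): THE CONSTANTS OF
`VA`, `VB` ARE `O` (the fields `hVA`, `hVB` of `s36at_Tower`).

* `s36i_gauss_const_mem_iff` : for the Gauss valuation subring of ANY `E ≤ Quot(O((X)))`:
  `algebraMap L E c ∈ Gauss(E) ↔ c ∈ O`; `s36i_gauss_pi_mem_nonunits` : `π ∈ 𝔪(Gauss(E))`;
* `s36i_comap_const_mem_iff` : the same for `V.comap W`, `W` fixing the constants;
* `s36i_leg_hVA`, `s36i_leg_hVB`  (Legendre, [LEG-CTX]);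
  `s36ih_hes_hVA`, `s36ih_hes_hVB` (Hesse, [HES-CTX]).
-/
import Mathlib
import Fermat.Agent.S36.Ins1.LegB
import Fermat.Agent.S36.Ins1.HesB

set_option autoImplicit false
set_option linter.unusedSectionVars false
set_option linter.unusedVariables false
set_option linter.style.haveILetI false

noncomputable section

open ModularCurve IntermediateField IsLocalRing
open Fermat.Agent.JT3 Fermat.Agent.SS

namespace Fermat.Agent.S36

section Gauss

variable {L : Type*} [Field L] (O : ValuationSubring L) [IsDiscreteValuationRing O]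
  {π : O} (hπ : Irreducible π)
variable (E : IntermediateField L (LaurentSeries L)) (hE : E ≤ gq_quotField O L)

/-- the constants of `O` lie in the Gauss valuation subring. -/
theorem s36i_gauss_const_mem (a : ↥O) :
    algebraMap L ↥E (a : L) ∈ gq_valSubOf π hπ.ne_zero hπ.maximalIdeal_eq E hE := by
  rw [gq_mem_valSubOf]
  change gq_IsBdd (↥O) L (algebraMap L (LaurentSeries L) (algebraMap (↥O) L a))
  rw [← gq_coeffMap_algebraMap]
  exact gq_isBdd_iota _

/-- `π ∈ 𝔪(Gauss(E))`. -/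
theorem s36i_gauss_pi_mem_nonunits :
    algebraMap L ↥E (π : L) ∈ (gq_valSubOf π hπ.ne_zero hπ.maximalIdeal_eq E hE).nonunits := by
  have h : gq_unif π hπ.ne_zero hπ.maximalIdeal_eq E hE ∈
      maximalIdeal ↥(gq_valSubOf π hπ.ne_zero hπ.maximalIdeal_eq E hE) := by
    rw [gq_maximalIdeal_eq]
    exact Ideal.mem_span_singleton_self _
  exact ValuationSubring.coe_mem_nonunits_iff.2 h

/-- **the constants of the Gauss valuation subring are `O`.** -/
theorem s36i_gauss_const_mem_iff (c : L) :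
    algebraMap L ↥E c ∈ gq_valSubOf π hπ.ne_zero hπ.maximalIdeal_eq E hE ↔ c ∈ O := by
  constructor
  · intro hc
    by_contra hcO
    have hc0 : c ≠ 0 := fun h0 => hcO (h0 ▸ O.zero_mem)
    have h1 : c⁻¹ ∈ O.nonunits := (ValuationSubring.inv_mem_nonunits_iff O).2 (Or.inr hcO)
    obtain ⟨hci, hmax⟩ := ValuationSubring.mem_nonunits_iff_exists_mem_maximalIdeal.1 h1
    rw [hπ.maximalIdeal_eq, Ideal.mem_span_singleton] at hmax
    obtain ⟨t, ht⟩ := hmax
    have h2 : algebraMap L ↥E c⁻¹ ∈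
        (gq_valSubOf π hπ.ne_zero hπ.maximalIdeal_eq E hE).nonunits := by
      have e : algebraMap L ↥E c⁻¹ = algebraMap L ↥E (t : L) * algebraMap L ↥E (π : L) := by
        rw [← map_mul]
        congr 1
        have h3 : (c⁻¹ : L) = ((π * t : ↥O) : L) := congrArg (fun x : ↥O => (x : L)) ht
        rw [h3, mul_comm]
        rfl
      rw [e]
      exact ssm_tw_nonunits_mul _ (s36i_gauss_const_mem O hπ E hE t)
        (s36i_gauss_pi_mem_nonunits O hπ E hE)
    rw [map_inv₀, ValuationSubring.inv_mem_nonunits_iff] at h2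
    rcases h2 with h2 | h2
    · exact hc0 ((map_eq_zero _).1 h2)
    · exact h2 hc
  · intro hc
    exact s36i_gauss_const_mem O hπ E hE ⟨c, hc⟩

/-- the same for the pull-back along an automorphism fixing the constants. -/
theorem s36i_comap_const_mem_iff (W : ↥E ≃+* ↥E)
    (hW : ∀ c : L, W (algebraMap L ↥E c) = algebraMap L ↥E c) (c : L) :
    algebraMap L ↥E c ∈
      (gq_valSubOf π hπ.ne_zero hπ.maximalIdeal_eq E hE).comap (W : ↥E →+* ↥E) ↔ c ∈ O := by
  rw [ValuationSubring.mem_comap]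
  show W (algebraMap L ↥E c) ∈ _ ↔ _
  rw [hW, s36i_gauss_const_mem_iff O hπ]

end Gauss

section Leg

variable {L : Type*} [Field L] [CharZero L] [Algebra L (AlgebraicClosure ℚ)]
  (O : ValuationSubring L) [IsDiscreteValuationRing O] {π : O} (hπ : Irreducible π)
variable (N' q : ℕ) [NeZero N'] [NeZero q] [hq : Fact q.Prime] [CharP (ResidueField O) q]
  (hq2 : ¬ 2 ∣ q) (hqN' : ¬ q ∣ N')

/-- **`hVA`**, Legendre: the constants of `VA` are `O`. -/
theorem s36i_leg_hVA (c : L) :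
    algebraMap L ↥(lg_E L (N' * q * q)) c ∈ s36i_VA O hπ (N' * q) q ↔ c ∈ O :=
  s36i_gauss_const_mem_iff O hπ _ _ c

/-- **`hVB`**, Legendre: the constants of `VB` are `O`. -/
theorem s36i_leg_hVB (c : L) :
    algebraMap L ↥(lg_E L (N' * q * q)) c ∈ s36i_VB O hπ N' q hq2 hqN' ↔ c ∈ O :=
  s36i_comap_const_mem_iff O hπ _ _ (s36i_W2 L N' q hq2 hqN')
    (fun c => (s36w_WE L N' q hq.out hq2 hqN').commutes c) c

end Leg

section Hes

variable {L : Type*} [Field L] [CharZero L] [Algebra L (AlgebraicClosure ℚ)] (h3 : (3 : L) ≠ 0)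
  (O : ValuationSubring L) [IsDiscreteValuationRing O] (h3O : IsUnit (3 : O)) {π : O}
  (hπ : Irreducible π)
variable (N' q : ℕ) [NeZero N'] [NeZero q] [hq : Fact q.Prime] [CharP (ResidueField O) q]
  (hq3 : ¬ 3 ∣ q) (hqN' : ¬ q ∣ N')

/-- **`hVA`**, Hesse: the constants of `VA` are `O`. -/
theorem s36ih_hes_hVA (c : L) :
    algebraMap L ↥(hs_E L h3 (N' * q * q)) c ∈ s36ih_VA h3 O h3O hπ (N' * q) q ↔ c ∈ O :=
  s36i_gauss_const_mem_iff O hπ _ _ c

/-- **`hVB`**, Hesse: the constants of `VB` are `O`. -/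
theorem s36ih_hes_hVB (c : L) :
    algebraMap L ↥(hs_E L h3 (N' * q * q)) c ∈ s36ih_VB h3 O h3O hπ N' q hq3 hqN' ↔ c ∈ O :=
  s36i_comap_const_mem_iff O hπ _ _ (s36ih_W2 h3 N' q hq3 hqN')
    (fun c => (s36w_h_WE L h3 (ssm_fh_hF9 h3) N' q hq.out hq3 hqN').commutes c) c

end Hes

end Fermat.Agent.S36
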