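/-
Project S36 (Carayol), cell [M2], leaves [L3b]/[L3c]: THE VALUATION FACTS OF THE LEGENDRE TOWER
in the consumers' shapes (helper26, NOTE 7 (G2) of the S36 architect helper25).  Prefix `s36i_leg_`.

[LEG-CTX], general uniformiser `π`.  `E₀ = lg_E L N'`, `E₁ = lg_E L (N' q)`, `E₂ = lg_E L (N' q q)`,
`β = s36mc_beta : E₀ → E₁` (`f(X) ↦ f(X^q)`, helper2's `s36ch_algBeta`), `E₁ → E₂` the inclusion
(`ssm_gi_algebra (ssm_al_E_le L (N' q) q)`), `V₀` the Gauss valuation subring of `E₀`,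
`VF = ssm_gl_V1`, `VV = s36i_VV = ssm_gl_V2`, `VA = s36i_VA`, `VB = s36i_VB`, `W₂ = s36i_W2`,
`VC` free (over `VF`).

* `s36i_leg_cF`, `s36i_leg_cV` (+ `_nonunits`) : `β x ∈ VF ↔ x ∈ V₀`, `β x ∈ VV ↔ x ∈ V₀`;
* `s36i_leg_oA`, `s36i_leg_oB`, `s36i_leg_oC` (+ `_nonunits`) : the traces of `VA, VB, VC` on `E₁`;
* `s36i_leg_W2VA`, `s36i_leg_W2FB`, `s36i_leg_W2FC` (+ `_nonunits`), `s36i_leg_hWW`,
  `s36i_leg_hVB`, `s36i_leg_hVC_of_third`;
* `s36i_leg_W2_beta` : `W₂` fixes `β E₀ ⊆ E₂` pointwise;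
* the `S`-forms `s36i_leg_hS0`, `s36i_leg_hSF`, `s36i_leg_hSV`, `s36i_leg_hSA/B/C`, `s36i_leg_W2S`;
* `s36i_leg_mem_P_of`, `s36i_leg_of_mem_P` : membership in `ssm_tp_P B V` for a chart `B ⊆ V`.
-/
import Mathlib
import Fermat.Agent.S36.Ins1.MirrorLeg
import Fermat.Agent.S36.Ins1.Consts
import Fermat.Agent.S36.Model.ThreeAbs
import Fermat.Agent.S36.Model.Cusps2

set_option autoImplicit false
set_option linter.unusedSectionVars false
set_option linter.unusedVariables false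
set_option linter.style.haveILetI false

noncomputable section

open ModularCurve IntermediateField IsLocalRing
open Fermat.Agent.JT3 Fermat.Agent.SS

namespace Fermat.Agent.S36

section Generic

/-- a ring homomorphism of fields matching two valuation subrings matches their maximal ideals. -/
theorem s36i_nonunits_iff_of_mem_iff {F1 F2 : Type*} [Field F1] [Field F2] (j : F1 →+* F2)
    {V1 : ValuationSubring F1} {V2 : ValuationSubring F2}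
    (h : ∀ x : F1, j x ∈ V2 ↔ x ∈ V1) (x : F1) : j x ∈ V2.nonunits ↔ x ∈ V1.nonunits := by
  rw [ssm_tw_nonunits_iff, ssm_tw_nonunits_iff, ← map_inv₀, h, h, map_eq_zero]

/-- membership in the pull-back of a valuation subring along a ring isomorphism. -/
theorem s36i_mem_comap_equiv {F F' : Type*} [Field F] [Field F'] (A : ValuationSubring F')
    (W : F ≃+* F') (a : F) : a ∈ A.comap (W : F →+* F') ↔ W a ∈ A := by
  rw [ValuationSubring.mem_comap]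
  rfl

end Generic

section Legendre

variable {L : Type*} [Field L] [CharZero L] [Algebra L (AlgebraicClosure ℚ)]
  (O : ValuationSubring L) [IsDiscreteValuationRing O] {π : O} (hπ : Irreducible π)
variable (N' q : ℕ) [NeZero N'] [NeZero q] [hq : Fact q.Prime] [CharP (ResidueField O) q]
  (hq2 : ¬ 2 ∣ q) (hqN' : ¬ q ∣ N')

/-- the Gauss valuation subring of `E₀ = lg_E L N'`. -/
abbrev s36i_leg_V0 : ValuationSubring ↥(lg_E L N') :=
  gq_valSubOf π hπ.ne_zero hπ.maximalIdeal_eq (lg_E L N') (ssm_ga_E_le_quotField O N')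

/-! ### (1) `cF`, `cV` -/

/-- **`cF`**: `β x ∈ VF ↔ x ∈ V₀`. -/
theorem s36i_leg_cF (x : ↥(lg_E L N')) :
    s36mc_beta L N' q hq2 x ∈ ssm_gl_V1 O hπ N' q ↔ x ∈ s36i_leg_V0 O hπ N' := by
  rw [gq_mem_valSubOf, gq_mem_valSubOf, s36mc_coe_beta]
  exact ssm_ga_beta_isBdd_iff q π hπ.ne_zero hπ.maximalIdeal_eq (ssm_ga_E_le_quotField O N' x.2)

/-- `W₁ (β x) = x` (in `E₁`). -/
theorem s36i_leg_W1_beta (x : ↥(lg_E L N')) :
    ssm_gl_W L N' q hq2 hqN' (s36mc_beta L N' q hq2 x) =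
      IntermediateField.inclusion (ssm_al_E_le L N' q) x := by
  have h1 : s36mc_beta L N' q hq2 x =
      ssm_al_WE L N' q hq.out hq2 hqN' (IntermediateField.inclusion (ssm_al_E_le L N' q) x) := by
    apply Subtype.ext
    rw [s36mc_coe_beta]
    exact (ssm_al_coe_WE_of_mem L N' q hq.out hq2 hqN' x.2 _).symm
  rw [ssm_gl_W_apply, h1, ssm_al_WE_WE]

/-- **`cV`**: `β x ∈ VV ↔ x ∈ V₀`. -/
theorem s36i_leg_cV (x : ↥(lg_E L N')) :
    s36mc_beta L N' q hq2 x ∈ s36i_VV O hπ N' q hq2 hqN' ↔ x ∈ s36i_leg_V0 O hπ N' := by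
  rw [ValuationSubring.mem_comap]
  show ssm_gl_W L N' q hq2 hqN' (s36mc_beta L N' q hq2 x) ∈ _ ↔ _
  rw [s36i_leg_W1_beta, gq_mem_valSubOf, gq_mem_valSubOf, IntermediateField.coe_inclusion]

theorem s36i_leg_cF_nonunits (x : ↥(lg_E L N')) :
    s36mc_beta L N' q hq2 x ∈ (ssm_gl_V1 O hπ N' q).nonunits ↔
      x ∈ (s36i_leg_V0 O hπ N').nonunits :=
  s36i_nonunits_iff_of_mem_iff (s36mc_beta L N' q hq2 : ↥(lg_E L N') →+* ↥(lg_E L (N' * q)))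
    (fun y => s36i_leg_cF O hπ N' q hq2 y) x

theorem s36i_leg_cV_nonunits (x : ↥(lg_E L N')) :
    s36mc_beta L N' q hq2 x ∈ (s36i_VV O hπ N' q hq2 hqN').nonunits ↔
      x ∈ (s36i_leg_V0 O hπ N').nonunits :=
  s36i_nonunits_iff_of_mem_iff (s36mc_beta L N' q hq2 : ↥(lg_E L N') →+* ↥(lg_E L (N' * q)))
    (fun y => s36i_leg_cV O hπ N' q hq2 hqN' y) x

/-! ### (2) the traces of `VA`, `VB`, `VC` on `E₁` -/

/-- **`oA`**: `VA ∩ E₁ = VF`. -/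
theorem s36i_leg_oA (y : ↥(lg_E L (N' * q))) :
    letI := ssm_gi_algebra (ssm_al_E_le L (N' * q) q)
    algebraMap ↥(lg_E L (N' * q)) ↥(lg_E L (N' * q * q)) y ∈ s36i_VA O hπ (N' * q) q ↔
      y ∈ ssm_gl_V1 O hπ N' q := by
  letI := ssm_gi_algebra (ssm_al_E_le L (N' * q) q)
  rw [gq_mem_valSubOf, gq_mem_valSubOf, ssm_gi_coe_algebraMap]

/-- **`oB`**: `VB ∩ E₁ = VV`. -/
theorem s36i_leg_oB (y : ↥(lg_E L (N' * q))) :
    letI := ssm_gi_algebra (ssm_al_E_le L (N' * q) q)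
    algebraMap ↥(lg_E L (N' * q)) ↥(lg_E L (N' * q * q)) y ∈ s36i_VB O hπ N' q hq2 hqN' ↔
      y ∈ s36i_VV O hπ N' q hq2 hqN' := by
  letI := ssm_gi_algebra (ssm_al_E_le L (N' * q) q)
  letI := ssm_gi_algebraV (ssm_al_E_le L (N' * q) q) (s36i_VV O hπ N' q hq2 hqN')
  have h := (s36i_leg_dataB O hπ N' q hq2 hqN').overR y
  rw [ssm_gi_mem_range] at h
  exact h

/-- **`oC`**: `VC ∩ E₁ = VF` for a valuation subring `VC` of `E₂` over `VF`. -/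
theorem s36i_leg_oC (VC : ValuationSubring ↥(lg_E L (N' * q * q)))
    (hVC :
      letI := ssm_gi_algebra (ssm_al_E_le L (N' * q) q)
      letI := ssm_gi_algebraV (ssm_al_E_le L (N' * q) q) (ssm_gl_V1 O hπ N' q)
      ssm_tw_Over ↥(lg_E L (N' * q)) ↥(ssm_gl_V1 O hπ N' q) VC)
    (y : ↥(lg_E L (N' * q))) :
    letI := ssm_gi_algebra (ssm_al_E_le L (N' * q) q)
    algebraMap ↥(lg_E L (N' * q)) ↥(lg_E L (N' * q * q)) y ∈ VC ↔ y ∈ ssm_gl_V1 O hπ N' q := by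
  letI := ssm_gi_algebra (ssm_al_E_le L (N' * q) q)
  letI := ssm_gi_algebraV (ssm_al_E_le L (N' * q) q) (ssm_gl_V1 O hπ N' q)
  have h := hVC y
  rw [ssm_gi_mem_range] at h
  exact h

theorem s36i_leg_oA_nonunits (y : ↥(lg_E L (N' * q))) :
    letI := ssm_gi_algebra (ssm_al_E_le L (N' * q) q)
    algebraMap ↥(lg_E L (N' * q)) ↥(lg_E L (N' * q * q)) y ∈
        (s36i_VA O hπ (N' * q) q).nonunits ↔ y ∈ (ssm_gl_V1 O hπ N' q).nonunits := by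
  letI := ssm_gi_algebra (ssm_al_E_le L (N' * q) q)
  exact s36i_nonunits_iff_of_mem_iff (algebraMap ↥(lg_E L (N' * q)) ↥(lg_E L (N' * q * q)))
    (fun z => s36i_leg_oA O hπ N' q z) y

theorem s36i_leg_oB_nonunits (y : ↥(lg_E L (N' * q))) :
    letI := ssm_gi_algebra (ssm_al_E_le L (N' * q) q)
    algebraMap ↥(lg_E L (N' * q)) ↥(lg_E L (N' * q * q)) y ∈
        (s36i_VB O hπ N' q hq2 hqN').nonunits ↔ y ∈ (s36i_VV O hπ N' q hq2 hqN').nonunits := by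
  letI := ssm_gi_algebra (ssm_al_E_le L (N' * q) q)
  exact s36i_nonunits_iff_of_mem_iff (algebraMap ↥(lg_E L (N' * q)) ↥(lg_E L (N' * q * q)))
    (fun z => s36i_leg_oB O hπ N' q hq2 hqN' z) y

theorem s36i_leg_oC_nonunits (VC : ValuationSubring ↥(lg_E L (N' * q * q)))
    (hVC :
      letI := ssm_gi_algebra (ssm_al_E_le L (N' * q) q)
      letI := ssm_gi_algebraV (ssm_al_E_le L (N' * q) q) (ssm_gl_V1 O hπ N' q)
      ssm_tw_Over ↥(lg_E L (N' * q)) ↥(ssm_gl_V1 O hπ N' q) VC)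
    (y : ↥(lg_E L (N' * q))) :
    letI := ssm_gi_algebra (ssm_al_E_le L (N' * q) q)
    algebraMap ↥(lg_E L (N' * q)) ↥(lg_E L (N' * q * q)) y ∈ VC.nonunits ↔
      y ∈ (ssm_gl_V1 O hπ N' q).nonunits := by
  letI := ssm_gi_algebra (ssm_al_E_le L (N' * q) q)
  exact s36i_nonunits_iff_of_mem_iff (algebraMap ↥(lg_E L (N' * q)) ↥(lg_E L (N' * q * q)))
    (fun z => s36i_leg_oC O hπ N' q VC hVC z) y

/-! ### (3) the `W₂`-facts -/

/-- `W₂` is an involution. -/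
theorem s36i_leg_hWW (y : ↥(lg_E L (N' * q * q))) :
    s36i_W2 L N' q hq2 hqN' (s36i_W2 L N' q hq2 hqN' y) = y :=
  s36w_WE_WE L N' q hq.out hq2 hqN' y

/-- `VB = VA.comap W₂` (by definition). -/
theorem s36i_leg_VB_eq :
    s36i_VB O hπ N' q hq2 hqN' = (s36i_VA O hπ (N' * q) q).comap
      (s36i_W2 L N' q hq2 hqN' : ↥(lg_E L (N' * q * q)) →+* ↥(lg_E L (N' * q * q))) := rfl

/-- `x ∈ VB ↔ W₂ x ∈ VA`. -/
theorem s36i_leg_mem_VB_iff (x : ↥(lg_E L (N' * q * q))) :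
    x ∈ s36i_VB O hπ N' q hq2 hqN' ↔ s36i_W2 L N' q hq2 hqN' x ∈ s36i_VA O hπ (N' * q) q :=
  s36i_mem_comap_equiv (s36i_VA O hπ (N' * q) q) (s36i_W2 L N' q hq2 hqN') x

/-- `x ∈ 𝔪(VB) ↔ W₂ x ∈ 𝔪(VA)`. -/
theorem s36i_leg_mem_VB_nonunits_iff (x : ↥(lg_E L (N' * q * q))) :
    x ∈ (s36i_VB O hπ N' q hq2 hqN').nonunits ↔
      s36i_W2 L N' q hq2 hqN' x ∈ (s36i_VA O hπ (N' * q) q).nonunits :=
  s36i_nonunits_comap' (s36i_VA O hπ (N' * q) q) (s36i_W2 L N' q hq2 hqN') x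

/-- `x ∈ VA ↔ W₂ x ∈ VB`. -/
theorem s36i_leg_mem_VA_iff (x : ↥(lg_E L (N' * q * q))) :
    x ∈ s36i_VA O hπ (N' * q) q ↔ s36i_W2 L N' q hq2 hqN' x ∈ s36i_VB O hπ N' q hq2 hqN' := by
  rw [s36i_leg_mem_VB_iff, s36i_leg_hWW]

/-- `x ∈ 𝔪(VA) ↔ W₂ x ∈ 𝔪(VB)`. -/
theorem s36i_leg_mem_VA_nonunits_iff (x : ↥(lg_E L (N' * q * q))) :
    x ∈ (s36i_VA O hπ (N' * q) q).nonunits ↔
      s36i_W2 L N' q hq2 hqN' x ∈ (s36i_VB O hπ N' q hq2 hqN').nonunits := by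
  rw [s36i_leg_mem_VB_nonunits_iff, s36i_leg_hWW]

/-- **`W2VA`**: `y ∈ 𝔪(VV) ⟹ W₂ y ∈ 𝔪(VA)`. -/
theorem s36i_leg_W2VA (y : ↥(lg_E L (N' * q)))
    (hy : y ∈ (s36i_VV O hπ N' q hq2 hqN').nonunits) :
    letI := ssm_gi_algebra (ssm_al_E_le L (N' * q) q)
    s36i_W2 L N' q hq2 hqN' (algebraMap ↥(lg_E L (N' * q)) ↥(lg_E L (N' * q * q)) y) ∈
      (s36i_VA O hπ (N' * q) q).nonunits := by
  letI := ssm_gi_algebra (ssm_al_E_le L (N' * q) q)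
  rw [← s36i_leg_mem_VB_nonunits_iff]
  exact (s36i_leg_oB_nonunits O hπ N' q hq2 hqN' y).2 hy

/-- `y ∈ VV ⟹ W₂ y ∈ VA`. -/
theorem s36i_leg_W2VA_mem (y : ↥(lg_E L (N' * q))) (hy : y ∈ s36i_VV O hπ N' q hq2 hqN') :
    letI := ssm_gi_algebra (ssm_al_E_le L (N' * q) q)
    s36i_W2 L N' q hq2 hqN' (algebraMap ↥(lg_E L (N' * q)) ↥(lg_E L (N' * q * q)) y) ∈
      s36i_VA O hπ (N' * q) q := by
  letI := ssm_gi_algebra (ssm_al_E_le L (N' * q) q)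
  rw [← s36i_leg_mem_VB_iff]
  exact (s36i_leg_oB O hπ N' q hq2 hqN' y).2 hy

/-- **`W2FB`**: `y ∈ 𝔪(VF) ⟹ W₂ y ∈ 𝔪(VB)`. -/
theorem s36i_leg_W2FB (y : ↥(lg_E L (N' * q))) (hy : y ∈ (ssm_gl_V1 O hπ N' q).nonunits) :
    letI := ssm_gi_algebra (ssm_al_E_le L (N' * q) q)
    s36i_W2 L N' q hq2 hqN' (algebraMap ↥(lg_E L (N' * q)) ↥(lg_E L (N' * q * q)) y) ∈
      (s36i_VB O hπ N' q hq2 hqN').nonunits := by
  letI := ssm_gi_algebra (ssm_al_E_le L (N' * q) q)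
  rw [← s36i_leg_mem_VA_nonunits_iff]
  exact (s36i_leg_oA_nonunits O hπ N' q y).2 hy

/-- `y ∈ VF ⟹ W₂ y ∈ VB`. -/
theorem s36i_leg_W2FB_mem (y : ↥(lg_E L (N' * q))) (hy : y ∈ ssm_gl_V1 O hπ N' q) :
    letI := ssm_gi_algebra (ssm_al_E_le L (N' * q) q)
    s36i_W2 L N' q hq2 hqN' (algebraMap ↥(lg_E L (N' * q)) ↥(lg_E L (N' * q * q)) y) ∈
      s36i_VB O hπ N' q hq2 hqN' := by
  letI := ssm_gi_algebra (ssm_al_E_le L (N' * q) q)
  rw [← s36i_leg_mem_VA_iff]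
  exact (s36i_leg_oA O hπ N' q y).2 hy

/-- **`W2FC`**: `y ∈ VF ⟹ W₂ y ∈ VC` for a `W₂`-stable `VC` over `VF`. -/
theorem s36i_leg_W2FC (VC : ValuationSubring ↥(lg_E L (N' * q * q)))
    (hVC :
      letI := ssm_gi_algebra (ssm_al_E_le L (N' * q) q)
      letI := ssm_gi_algebraV (ssm_al_E_le L (N' * q) q) (ssm_gl_V1 O hπ N' q)
      ssm_tw_Over ↥(lg_E L (N' * q)) ↥(ssm_gl_V1 O hπ N' q) VC)
    (hW : VC.comap (s36i_W2 L N' q hq2 hqN' :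
      ↥(lg_E L (N' * q * q)) →+* ↥(lg_E L (N' * q * q))) = VC)
    (y : ↥(lg_E L (N' * q))) (hy : y ∈ ssm_gl_V1 O hπ N' q) :
    letI := ssm_gi_algebra (ssm_al_E_le L (N' * q) q)
    s36i_W2 L N' q hq2 hqN' (algebraMap ↥(lg_E L (N' * q)) ↥(lg_E L (N' * q * q)) y) ∈ VC := by
  letI := ssm_gi_algebra (ssm_al_E_le L (N' * q) q)
  have h1 : algebraMap ↥(lg_E L (N' * q)) ↥(lg_E L (N' * q * q)) y ∈ VC :=
    (s36i_leg_oC O hπ N' q VC hVC y).2 hy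
  rw [← hW] at h1
  exact (s36i_mem_comap_equiv VC (s36i_W2 L N' q hq2 hqN') _).1 h1

/-- `y ∈ 𝔪(VF) ⟹ W₂ y ∈ 𝔪(VC)` for a `W₂`-stable `VC` over `VF`. -/
theorem s36i_leg_W2FC_nonunits (VC : ValuationSubring ↥(lg_E L (N' * q * q)))
    (hVC :
      letI := ssm_gi_algebra (ssm_al_E_le L (N' * q) q)
      letI := ssm_gi_algebraV (ssm_al_E_le L (N' * q) q) (ssm_gl_V1 O hπ N' q)
      ssm_tw_Over ↥(lg_E L (N' * q)) ↥(ssm_gl_V1 O hπ N' q) VC)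
    (hW : VC.comap (s36i_W2 L N' q hq2 hqN' :
      ↥(lg_E L (N' * q * q)) →+* ↥(lg_E L (N' * q * q))) = VC)
    (y : ↥(lg_E L (N' * q))) (hy : y ∈ (ssm_gl_V1 O hπ N' q).nonunits) :
    letI := ssm_gi_algebra (ssm_al_E_le L (N' * q) q)
    s36i_W2 L N' q hq2 hqN' (algebraMap ↥(lg_E L (N' * q)) ↥(lg_E L (N' * q * q)) y) ∈
      VC.nonunits := by
  letI := ssm_gi_algebra (ssm_al_E_le L (N' * q) q)
  have h1 : algebraMap ↥(lg_E L (N' * q)) ↥(lg_E L (N' * q * q)) y ∈ VC.nonunits :=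
    (s36i_leg_oC_nonunits O hπ N' q VC hVC y).2 hy
  rw [← s36i_nonunits_comap' VC (s36i_W2 L N' q hq2 hqN'), hW]
  exact h1

/-- **`hVC`**: the third valuation subring is `W₂`-stable (from the package `T3`, any `πF`, `z`). -/
theorem s36i_leg_hVC_of_third {VC : ValuationSubring ↥(lg_E L (N' * q * q))}
    {πF : ↥(ssm_gl_V1 O hπ N' q)} {z : ↥(lg_E L (N' * q * q))}
    (T3 :
      letI := ssm_gi_algebra (ssm_al_E_le L (N' * q) q)
      letI := ssm_gi_algebraV (ssm_al_E_le L (N' * q) q) (ssm_gl_V1 O hπ N' q)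
      haveI := ssm_gi_isScalarTower (ssm_al_E_le L (N' * q) q) (ssm_gl_V1 O hπ N' q)
      s36t3_Third ↥(lg_E L (N' * q)) ↥(ssm_gl_V1 O hπ N' q) q πF z
        (s36i_VA O hπ (N' * q) q) VC) :
    VC.comap (s36i_W2 L N' q hq2 hqN' :
      ↥(lg_E L (N' * q * q)) →+* ↥(lg_E L (N' * q * q))) = VC := by
  letI := ssm_gi_algebra (ssm_al_E_le L (N' * q) q)
  letI := ssm_gi_algebraV (ssm_al_E_le L (N' * q) q) (ssm_gl_V1 O hπ N' q)
  haveI := ssm_gi_isScalarTower (ssm_al_E_le L (N' * q) q) (ssm_gl_V1 O hπ N' q)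
  exact s36i_leg_W2_VC O hπ N' q hq2 hqN' VC T3.overC T3.ne T3.only

/-- `x ∈ VC ↔ W₂ x ∈ VC` for a `W₂`-stable `VC`. -/
theorem s36i_leg_mem_VC_iff (VC : ValuationSubring ↥(lg_E L (N' * q * q)))
    (hW : VC.comap (s36i_W2 L N' q hq2 hqN' :
      ↥(lg_E L (N' * q * q)) →+* ↥(lg_E L (N' * q * q))) = VC)
    (x : ↥(lg_E L (N' * q * q))) : x ∈ VC ↔ s36i_W2 L N' q hq2 hqN' x ∈ VC := by
  conv_lhs => rw [← hW]
  exact s36i_mem_comap_equiv VC (s36i_W2 L N' q hq2 hqN') x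

/-- `x ∈ 𝔪(VC) ↔ W₂ x ∈ 𝔪(VC)` for a `W₂`-stable `VC`. -/
theorem s36i_leg_mem_VC_nonunits_iff (VC : ValuationSubring ↥(lg_E L (N' * q * q)))
    (hW : VC.comap (s36i_W2 L N' q hq2 hqN' :
      ↥(lg_E L (N' * q * q)) →+* ↥(lg_E L (N' * q * q))) = VC)
    (x : ↥(lg_E L (N' * q * q))) :
    x ∈ VC.nonunits ↔ s36i_W2 L N' q hq2 hqN' x ∈ VC.nonunits := by
  conv_lhs => rw [← hW]
  exact s36i_nonunits_comap' VC (s36i_W2 L N' q hq2 hqN') x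

/-! ### (4) `W₂` fixes `β E₀` -/

/-- **`W₂` fixes `β E₀ ⊆ E₂` pointwise.** -/
theorem s36i_leg_W2_beta (x : ↥(lg_E L N')) :
    letI := ssm_gi_algebra (ssm_al_E_le L (N' * q) q)
    s36i_W2 L N' q hq2 hqN' (algebraMap ↥(lg_E L (N' * q)) ↥(lg_E L (N' * q * q))
        (s36mc_beta L N' q hq2 x)) =
      algebraMap ↥(lg_E L (N' * q)) ↥(lg_E L (N' * q * q)) (s36mc_beta L N' q hq2 x) := by
  letI := ssm_gi_algebra (ssm_al_E_le L (N' * q) q)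
  apply Subtype.ext
  exact s36w_coe_WE_mid_of_mem L N' q hq.out hq2 hqN' x.2 _

/-! ### (5) the `S`-forms

`S` any commutative ring with `S → E₀`, `S → E₁` through `β` (`hS1`), `S → E₂` through the inclusion
(`hS2`); in helper2's spelling `hS1`, `hS2` are `IsScalarTower.algebraMap_apply` (`rfl`-lemmas
`s36ch_algBeta_apply`). -/

section SForms

variable {S : Type*} [CommRing S] [Algebra S ↥(lg_E L N')] [Algebra S ↥(lg_E L (N' * q))]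
  [Algebra S ↥(lg_E L (N' * q * q))]

/-- **`hSF`**: `S ⊆ VF`. -/
theorem s36i_leg_hSF (hS0 : ∀ s : S, algebraMap S ↥(lg_E L N') s ∈ s36i_leg_V0 O hπ N')
    (hS1 : ∀ s : S, algebraMap S ↥(lg_E L (N' * q)) s =
      s36mc_beta L N' q hq2 (algebraMap S ↥(lg_E L N') s)) (s : S) :
    algebraMap S ↥(lg_E L (N' * q)) s ∈ ssm_gl_V1 O hπ N' q := by
  rw [hS1]
  exact (s36i_leg_cF O hπ N' q hq2 _).2 (hS0 s)

/-- **`hSV`**: `S ⊆ VV`. -/
theorem s36i_leg_hSV (hS0 : ∀ s : S, algebraMap S ↥(lg_E L N') s ∈ s36i_leg_V0 O hπ N')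
    (hS1 : ∀ s : S, algebraMap S ↥(lg_E L (N' * q)) s =
      s36mc_beta L N' q hq2 (algebraMap S ↥(lg_E L N') s)) (s : S) :
    algebraMap S ↥(lg_E L (N' * q)) s ∈ s36i_VV O hπ N' q hq2 hqN' := by
  rw [hS1]
  exact (s36i_leg_cV O hπ N' q hq2 hqN' _).2 (hS0 s)

/-- `S ⊆ VA`. -/
theorem s36i_leg_hSA (hS0 : ∀ s : S, algebraMap S ↥(lg_E L N') s ∈ s36i_leg_V0 O hπ N')
    (hS1 : ∀ s : S, algebraMap S ↥(lg_E L (N' * q)) s =
      s36mc_beta L N' q hq2 (algebraMap S ↥(lg_E L N') s))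
    (hS2 :
      letI := ssm_gi_algebra (ssm_al_E_le L (N' * q) q)
      ∀ s : S, algebraMap S ↥(lg_E L (N' * q * q)) s =
        algebraMap ↥(lg_E L (N' * q)) ↥(lg_E L (N' * q * q))
          (algebraMap S ↥(lg_E L (N' * q)) s)) (s : S) :
    algebraMap S ↥(lg_E L (N' * q * q)) s ∈ s36i_VA O hπ (N' * q) q := by
  letI := ssm_gi_algebra (ssm_al_E_le L (N' * q) q)
  rw [hS2]
  exact (s36i_leg_oA O hπ N' q _).2 (s36i_leg_hSF O hπ N' q hq2 hS0 hS1 s)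

/-- `S ⊆ VB`. -/
theorem s36i_leg_hSB (hS0 : ∀ s : S, algebraMap S ↥(lg_E L N') s ∈ s36i_leg_V0 O hπ N')
    (hS1 : ∀ s : S, algebraMap S ↥(lg_E L (N' * q)) s =
      s36mc_beta L N' q hq2 (algebraMap S ↥(lg_E L N') s))
    (hS2 :
      letI := ssm_gi_algebra (ssm_al_E_le L (N' * q) q)
      ∀ s : S, algebraMap S ↥(lg_E L (N' * q * q)) s =
        algebraMap ↥(lg_E L (N' * q)) ↥(lg_E L (N' * q * q))
          (algebraMap S ↥(lg_E L (N' * q)) s)) (s : S) :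
    algebraMap S ↥(lg_E L (N' * q * q)) s ∈ s36i_VB O hπ N' q hq2 hqN' := by
  letI := ssm_gi_algebra (ssm_al_E_le L (N' * q) q)
  rw [hS2]
  exact (s36i_leg_oB O hπ N' q hq2 hqN' _).2 (s36i_leg_hSV O hπ N' q hq2 hqN' hS0 hS1 s)

/-- `S ⊆ VC` for `VC` over `VF`. -/
theorem s36i_leg_hSC (VC : ValuationSubring ↥(lg_E L (N' * q * q)))
    (hVC :
      letI := ssm_gi_algebra (ssm_al_E_le L (N' * q) q)
      letI := ssm_gi_algebraV (ssm_al_E_le L (N' * q) q) (ssm_gl_V1 O hπ N' q)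
      ssm_tw_Over ↥(lg_E L (N' * q)) ↥(ssm_gl_V1 O hπ N' q) VC)
    (hS0 : ∀ s : S, algebraMap S ↥(lg_E L N') s ∈ s36i_leg_V0 O hπ N')
    (hS1 : ∀ s : S, algebraMap S ↥(lg_E L (N' * q)) s =
      s36mc_beta L N' q hq2 (algebraMap S ↥(lg_E L N') s))
    (hS2 :
      letI := ssm_gi_algebra (ssm_al_E_le L (N' * q) q)
      ∀ s : S, algebraMap S ↥(lg_E L (N' * q * q)) s =
        algebraMap ↥(lg_E L (N' * q)) ↥(lg_E L (N' * q * q))
          (algebraMap S ↥(lg_E L (N' * q)) s)) (s : S) :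
    algebraMap S ↥(lg_E L (N' * q * q)) s ∈ VC := by
  letI := ssm_gi_algebra (ssm_al_E_le L (N' * q) q)
  rw [hS2]
  exact (s36i_leg_oC O hπ N' q VC hVC _).2 (s36i_leg_hSF O hπ N' q hq2 hS0 hS1 s)

/-- **`W2S`**: `W₂` fixes the image of `S` in `E₂`. -/
theorem s36i_leg_W2S
    (hS1 : ∀ s : S, algebraMap S ↥(lg_E L (N' * q)) s =
      s36mc_beta L N' q hq2 (algebraMap S ↥(lg_E L N') s))
    (hS2 :
      letI := ssm_gi_algebra (ssm_al_E_le L (N' * q) q)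
      ∀ s : S, algebraMap S ↥(lg_E L (N' * q * q)) s =
        algebraMap ↥(lg_E L (N' * q)) ↥(lg_E L (N' * q * q))
          (algebraMap S ↥(lg_E L (N' * q)) s)) (s : S) :
    s36i_W2 L N' q hq2 hqN' (algebraMap S ↥(lg_E L (N' * q * q)) s) =
      algebraMap S ↥(lg_E L (N' * q * q)) s := by
  letI := ssm_gi_algebra (ssm_al_E_le L (N' * q) q)
  rw [hS2, hS1]
  exact s36i_leg_W2_beta N' q hq2 hqN' _

end SForms

end Legendre

section Loc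

/-- **`hS0`**: a localisation `S` of a subalgebra `B' ⊆ V₀` at a prime `y0 ⊇ 𝔪(V₀) ∩ B'` maps into
`V₀`. -/
theorem s36i_hS0_of_loc {A0 F : Type*} [CommRing A0] [Field F] [Algebra A0 F]
    (V0 : ValuationSubring F) (B' : Subalgebra A0 F) (y0 : Ideal B') [y0.IsPrime]
    {S : Type*} [CommRing S] [Algebra B' S] [IsLocalization.AtPrime S y0] [Algebra S F]
    [IsScalarTower B' S F] (hB : ∀ b : B', (b : F) ∈ V0)
    (hy0 : ∀ b : B', (b : F) ∈ V0.nonunits → b ∈ y0) (s : S) : algebraMap S F s ∈ V0 := by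
  obtain ⟨⟨b, t⟩, hbt⟩ := IsLocalization.surj y0.primeCompl s
  have h1 : algebraMap S F s * ((t : B') : F) = (b : F) := by
    have := congrArg (algebraMap S F) hbt
    rw [map_mul, ← IsScalarTower.algebraMap_apply B' S F,
      ← IsScalarTower.algebraMap_apply B' S F] at this
    exact this
  have ht : ((t : B') : F) ∉ V0.nonunits := fun h => t.2 (hy0 _ h)
  have ht0 : ((t : B') : F) ≠ 0 := by
    intro h0
    apply ht
    rw [h0, ValuationSubring.mem_nonunits_iff, map_zero]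
    exact zero_lt_one
  have hti : ((t : B') : F)⁻¹ ∈ V0 := by
    rw [ssm_tw_nonunits_iff] at ht
    by_contra hc
    exact ht ⟨hB _, Or.inr hc⟩
  have h2 : algebraMap S F s = (b : F) * ((t : B') : F)⁻¹ := by
    rw [← h1, mul_assoc, mul_inv_cancel₀ ht0, mul_one]
  rw [h2]
  exact V0.mul_mem _ _ (hB b) hti

end Loc

end Fermat.Agent.S36
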