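/-
Project S36 (Carayol), cell [INS1] (helper26; prefix `s36i_`): the abstract "ONE valuation, purely
inseparable of degree `q`" lemma, ideal form.  Rank-`q` twin of S34's two-valuations lemma
`ssm_tv_main` (SS/Model/TwoVal.lean).  Mathlib + SS/Model/TwoVal + SS/Model/TwoValW (field lemma).

Setting: `R ⊆ S` Dedekind domains, `S` finite torsion-free of rank `q` (`q` PRIME) over `R`, `p` a
maximal ideal of `R` of residue characteristic `q`, `Q` a prime of `S` over `p` whose residue field
contains an element `t̄ ∉ κ(p)` with `t̄ ^ q ∈ κ(p)`.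

In the application (S36): `R` = the valuation ring `VV` of the level-`N'q` field `E₁` (resp., by the
`W₂`-mirror, the Gauss valuation ring of `β(E₁)`), `S` its integral closure in the level-`N'q²` field
`E₂`, `Q` the centre of `VB` (resp. of the Gauss valuation `VA`).

Conclusion (`s36i_main`): `f(Q|p) = q`, `e(Q|p) = 1`, `Q` is the ONLY prime over `p`, `pS = Q` (so
`pS` is maximal), the residue extension is purely inseparable of exponent one
(`∀ s, ∃ r, s ^ q - r ∈ Q`) and not separable.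
-/
import Mathlib
import Fermat.Agent.SS.Model.TwoVal
import Fermat.Agent.SS.Model.TwoValW

set_option autoImplicit false
set_option linter.unusedSectionVars false
set_option linter.style.haveILetI false

namespace Fermat.Agent.S36

open Ideal Module Polynomial Fermat.Agent.SS

section Dedekind

variable {R S : Type*} [CommRing R] [IsDedekindDomain R] [CommRing S] [IsDedekindDomain S]
  [Algebra R S] [Module.Finite R S] [Module.IsTorsionFree R S]

/-- `f(Q|p) = q` in rank `q`. -/
theorem s36i_inertiaDeg (p : Ideal R) [p.IsMaximal] {q : ℕ} (hq : q.Prime)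
    (hrank : finrank R S = q) (Q : Ideal S) [Q.IsPrime] [Q.LiesOver p]
    (hchar : (q : S) ∈ Q) (t : S) (r : R) (ht1 : t ^ q - algebraMap R S r ∈ Q)
    (ht2 : ∀ r : R, t - algebraMap R S r ∉ Q) : Q.inertiaDeg R = q := by
  have hle := ssm_tv_inertiaDeg_le p Q
  rw [hrank] at hle
  have hpos : 0 < Q.inertiaDeg R := inertiaDeg_pos Q R
  obtain ⟨m, hm⟩ := (ssm_tv_insep p hq Q hchar t r ht1 ht2).1
  have hq2 := hq.two_le
  have hm1 : m = 1 := by
    rcases Nat.lt_or_ge m 2 with h | h
    · interval_cases m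
      · omega
      · rfl
    · have : q * 2 ≤ q * m := Nat.mul_le_mul_left q h
      omega
  rw [hm, hm1, mul_one]

/-- Counting: if one prime `Q` over `p` has inertia degree `q ≥ 1` and the extension has rank
`q`, then `Q` is unramified and it is the only prime over `p`. -/
theorem s36i_count (p : Ideal R) [p.IsMaximal] {q : ℕ} (hq : 1 ≤ q)
    (hrank : finrank R S = q) (Q : Ideal S) [Q.IsPrime] [Q.LiesOver p]
    (hf : Q.inertiaDeg R = q) :
    Q.ramificationIdx R = 1 ∧ ∀ P : Ideal S, P.IsPrime → P.LiesOver p → P = Q := by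
  classical
  have hsum := Ideal.sum_ramification_inertia_eq_finrank p S
  rw [hrank] at hsum
  let Q0 : p.primesOver S := ⟨Q, ‹_›, ‹_›⟩
  rw [← Finset.add_sum_erase _ _ (Finset.mem_univ Q0)] at hsum
  have hpos : ∀ P : p.primesOver S, 1 ≤ P.1.ramificationIdx R * P.1.inertiaDeg R := by
    intro P
    have := P.2.1
    exact Nat.succ_le_of_lt (Nat.mul_pos (ramificationIdx_pos P.1 R) (inertiaDeg_pos P.1 R))
  have he1 : 1 ≤ Q.ramificationIdx R := ramificationIdx_pos Q R
  change Q.ramificationIdx R * Q.inertiaDeg R + _ = _ at hsum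
  rw [hf] at hsum
  have heq : Q.ramificationIdx R = 1 := by
    by_contra hne
    have h2 : 2 ≤ Q.ramificationIdx R := by omega
    have : 2 * q ≤ Q.ramificationIdx R * q := Nat.mul_le_mul_right q h2
    omega
  rw [heq, one_mul] at hsum
  have hrest : ∑ P ∈ Finset.univ.erase Q0, P.1.ramificationIdx R * P.1.inertiaDeg R = 0 := by
    omega
  refine ⟨heq, fun P hP1 hP2 => ?_⟩
  by_contra hPQ
  have hmem : (⟨P, hP1, hP2⟩ : p.primesOver S) ∈ Finset.univ.erase Q0 :=
    Finset.mem_erase.2 ⟨fun h => hPQ (congrArg Subtype.val h), Finset.mem_univ _⟩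
  rw [← Finset.add_sum_erase _ _ hmem] at hrest
  have := hpos ⟨P, hP1, hP2⟩
  omega

/-- The factorisation `pS = Q` when `Q` is the only prime above `p` and it is unramified. -/
theorem s36i_map_eq (p : Ideal R) [p.IsMaximal] (hp0 : p ≠ ⊥) (Q : Ideal S)
    [Q.IsPrime] [Q.LiesOver p] (he : Q.ramificationIdx R = 1)
    (hall : ∀ P : Ideal S, P.IsPrime → P.LiesOver p → P = Q) :
    p.map (algebraMap R S) = Q := by
  classical
  rw [Ideal.map_algebraMap_eq_finsetProd_pow (R := S) hp0]
  have hset : (p.primesOver S).toFinset = {Q} := by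
    ext P
    simp only [Set.mem_toFinset, Finset.mem_singleton]
    constructor
    · rintro ⟨h1, h2⟩
      exact hall P h1 h2
    · rintro rfl
      exact ⟨‹_›, ‹_›⟩
  rw [hset, Finset.prod_singleton, he, pow_one]

omit [IsDedekindDomain R] [IsDedekindDomain S] [Module.IsTorsionFree R S] in
/-- The residue extension at `Q` is purely inseparable of exponent one. -/
theorem s36i_pow_mem (p : Ideal R) [p.IsMaximal] {q : ℕ} (hq : q.Prime)
    (Q : Ideal S) [Q.IsPrime] [Q.LiesOver p] (hf : Q.inertiaDeg R = q)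
    (hchar : (q : S) ∈ Q) (t : S) (r : R) (ht1 : t ^ q - algebraMap R S r ∈ Q)
    (ht2 : ∀ r : R, t - algebraMap R S r ∉ Q) (s : S) :
    ∃ r : R, s ^ q - algebraMap R S r ∈ Q := by
  have : Q.IsMaximal := Ideal.IsMaximal.of_liesOver_isMaximal Q p
  letI : Field (R ⧸ p) := Quotient.field p
  letI : Field (S ⧸ Q) := Quotient.field Q
  rw [inertiaDeg_eq_of_isMaximal p Q] at hf
  obtain ⟨b, hb⟩ := ssm_tw_field_pow (k := R ⧸ p) (κ := S ⧸ Q) hq
    (by
      rw [← map_natCast (Ideal.Quotient.mk Q)]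
      exact Ideal.Quotient.eq_zero_iff_mem.2 hchar) hf
    (Ideal.Quotient.mk Q t) (Ideal.Quotient.mk p r)
    (by
      rw [← map_pow, Ideal.Quotient.algebraMap_mk_of_liesOver]
      exact (Ideal.Quotient.eq).2 ht1)
    (by
      intro b hb
      obtain ⟨b, rfl⟩ := Ideal.Quotient.mk_surjective b
      rw [Ideal.Quotient.algebraMap_mk_of_liesOver] at hb
      exact ht2 b ((Ideal.Quotient.eq).1 hb))
    (Ideal.Quotient.mk Q s)
  obtain ⟨r', rfl⟩ := Ideal.Quotient.mk_surjective b
  refine ⟨r', ?_⟩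
  rw [Ideal.Quotient.algebraMap_mk_of_liesOver, ← map_pow] at hb
  exact (Ideal.Quotient.eq).1 hb.symm

/-- **The one-valuation lemma** (Dedekind form).  `R ⊆ S` Dedekind, `S` finite torsion-free of
rank `q` (prime), `Q` a prime over the maximal ideal `p` of residue characteristic `q` whose residue
field contains `t̄ ∉ κ(p)` with `t̄ ^ q ∈ κ(p)`.  Then `f(Q|p) = q`, `e(Q|p) = 1`, `Q` is the only
prime over `p`, `pS = Q`, `κ(Q) ^ q ⊆ κ(p)` and `κ(Q)/κ(p)` is not separable. -/
theorem s36i_main (p : Ideal R) [p.IsMaximal] (hp0 : p ≠ ⊥) {q : ℕ} (hq : q.Prime)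
    (hrank : finrank R S = q) (Q : Ideal S) [Q.IsPrime] [Q.LiesOver p]
    (hchar : (q : S) ∈ Q) (t : S) (r : R) (ht1 : t ^ q - algebraMap R S r ∈ Q)
    (ht2 : ∀ r : R, t - algebraMap R S r ∉ Q) :
    Q.inertiaDeg R = q ∧ Q.ramificationIdx R = 1 ∧
      (∀ P : Ideal S, P.IsPrime → P.LiesOver p → P = Q) ∧
      p.map (algebraMap R S) = Q ∧
      (∀ s : S, ∃ r : R, s ^ q - algebraMap R S r ∈ Q) ∧
      ¬ Algebra.IsSeparable (R ⧸ p) (S ⧸ Q) := by
  have hf := s36i_inertiaDeg p hq hrank Q hchar t r ht1 ht2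
  obtain ⟨he, hall⟩ := s36i_count p hq.one_lt.le hrank Q hf
  exact ⟨hf, he, hall, s36i_map_eq p hp0 Q he hall,
    s36i_pow_mem p hq Q hf hchar t r ht1 ht2, (ssm_tv_insep p hq Q hchar t r ht1 ht2).2⟩

/-- `pS` is a maximal ideal of `S` (the `hmax` hypothesis of `s36nr_norm_insep`). -/
theorem s36i_map_isMaximal (p : Ideal R) [p.IsMaximal] (hp0 : p ≠ ⊥) {q : ℕ} (hq : q.Prime)
    (hrank : finrank R S = q) (Q : Ideal S) [Q.IsPrime] [Q.LiesOver p]
    (hchar : (q : S) ∈ Q) (t : S) (r : R) (ht1 : t ^ q - algebraMap R S r ∈ Q)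
    (ht2 : ∀ r : R, t - algebraMap R S r ∉ Q) :
    (p.map (algebraMap R S)).IsMaximal := by
  rw [(s36i_main p hp0 hq hrank Q hchar t r ht1 ht2).2.2.2.1]
  exact Ideal.IsMaximal.of_liesOver_isMaximal Q p

omit [IsDedekindDomain R] [IsDedekindDomain S] [Module.Finite R S] [Module.IsTorsionFree R S] in
/-- Uniformiser form of `pS = Q`. -/
theorem s36i_dvd_iff (p : Ideal R) (Q : Ideal S) (π : R) (hπ : p = Ideal.span {π})
    (hmap : p.map (algebraMap R S) = Q) (x : S) :
    algebraMap R S π ∣ x ↔ x ∈ Q := by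
  rw [← hmap, hπ, Ideal.map_span, Set.image_singleton, Ideal.mem_span_singleton]

end Dedekind

end Fermat.Agent.S36
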