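/-
Project S36 (Carayol), cell [M2] / [L2] (helper26; prefix `s36i_`): THE ADAPTOR from helper11's
tower package `s36at_Tower` (S36/ATower/Main.lean) to helper3's global norm data `s36g_NormData`
(S36/Glue/Main.lean): the same `T` that feeds `s36at_core` also feeds `s36g_hlocAll`.

* `s36i_normData_of_tower` : `s36at_Tower … → s36g_NormData ![VA, VB, VC] (q - 1) (s36at_N K1)
  (s36at_N K2) (algebraMap K1 E).fieldRange (algebraMap K2 E).fieldRange`.
-/
import Mathlib
import Fermat.Agent.S36.ATower.Main
import Fermat.Agent.S36.Glue.Main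

set_option autoImplicit false
set_option linter.unusedSectionVars false
set_option linter.unusedVariables false
set_option linter.style.haveILetI false

open Fermat.Agent.JT3 Fermat.Agent.SS IsLocalRing

namespace Fermat.Agent.S36

section TowerND

variable {L K1 K2 E : Type*} [Field L] [Field K1] [Field K2] [Field E]
  [Algebra L E] [Algebra L K1] [Algebra L K2] [Algebra K1 E] [Algebra K2 E]
  [IsScalarTower L K1 E] [IsScalarTower L K2 E]
  [FiniteDimensional K1 E] [Algebra.IsSeparable K1 E]
  [FiniteDimensional K2 E] [Algebra.IsSeparable K2 E]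
  {RF : Type*} [CommRing RF] [IsDomain RF] [IsDiscreteValuationRing RF] [Algebra RF K1]
  [IsFractionRing RF K1] [Algebra RF E] [IsScalarTower RF K1 E]
  {RV : Type*} [CommRing RV] [IsDomain RV] [IsDiscreteValuationRing RV] [Algebra RV K1]
  [IsFractionRing RV K1] [Algebra RV E] [IsScalarTower RV K1 E]
  {RU : Type*} [CommRing RU] [IsDomain RU] [IsDiscreteValuationRing RU] [Algebra RU K2]
  [IsFractionRing RU K2] [Algebra RU E] [IsScalarTower RU K2 E]
  {RG : Type*} [CommRing RG] [IsDomain RG] [IsDiscreteValuationRing RG] [Algebra RG K2]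
  [IsFractionRing RG K2] [Algebra RG E] [IsScalarTower RG K2 E]
  {O : ValuationSubring L} {ϖ : L} {q : ℕ} {VA VB VC : ValuationSubring E}
  {πF : RF} {πV : RV} {πU : RU} {πG : RG} {zC zC' tB tA : E} {rB : RV} {rA : RG}

/-- **the global norm data of the gluing from the tower package.** -/
theorem s36i_normData_of_tower
    (T : s36at_Tower (K1 := K1) (K2 := K2) O ϖ q VA VB VC πF πV πU πG zC zC' tB tA rB rA) :
    s36g_NormData ![VA, VB, VC] (q - 1) (s36at_N K1) (s36at_N K2)
      (algebraMap K1 E).fieldRange (algebraMap K2 E).fieldRange := by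
  have hq : q - 1 + 1 = q := Nat.sub_add_cancel (le_trans (by norm_num) T.two_le)
  refine
    { hN1K := T.hN1K
      hN2K := T.hN2K
      hAC1 := fun z hz hzC => (T.hAC1 z hz).2 hzC
      hBC2 := fun z hz hzC => (T.hBC2 z hz).2 hzC
      hnB1 := ?_
      hnA2 := ?_
      hnC1 := ?_
      hnC2 := ?_ }
  · intro x hx
    rw [hq]
    exact T.side1.nY x hx
  · intro x hx
    rw [hq]
    exact T.side2.nY x hx
  · intro x hxA hxC r hr hrA hxr
    obtain ⟨k, rfl⟩ := hr
    obtain ⟨r0, rfl⟩ := (T.side1.overX k).1 hrA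
    rw [← IsScalarTower.algebraMap_apply RF K1 E] at hxr ⊢
    exact T.side1.nC x hxA hxC r0 hxr
  · intro x hxB hxC r hr hrB hxr
    obtain ⟨k, rfl⟩ := hr
    obtain ⟨r0, rfl⟩ := (T.side2.overX k).1 hrB
    rw [← IsScalarTower.algebraMap_apply RU K2 E] at hxr ⊢
    exact T.side2.nC x hxB hxC r0 hxr

end TowerND

end Fermat.Agent.S36
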